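import Fermat.Agent.S59.NumCrit.H90_Fit

/-!
# S59 NUMCRIT: Diamond's congruence module of a free module

`Ω(M) = M / (M[𝔭] + M[I])`, `𝔭 = ker π`, `I = Ann 𝔭`.  If `M ≃ T^d` and `η = π(I) ≠ 0` then
`#Ω(M) = #(𝒪/η)^d` (`card_omega_of_free`).
-/

set_option autoImplicit false

namespace Fermat.Agent.S59.NumCrit.H90

section omega

variable {𝒪 : Type*} [CommRing 𝒪] {T : Type*} [CommRing T] [Algebra 𝒪 T] (π : T →ₐ[𝒪] 𝒪)

/-- the submodule `M[𝔭] + M[I]` defining Diamond's congruence module. -/
def omegaSub (M : Type*) [AddCommGroup M] [Module T M] : Submodule T M :=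
  Submodule.torsionBySet T M (RingHom.ker π : Set T)
    ⊔ Submodule.torsionBySet T M ((RingHom.ker π).annihilator : Set T)

theorem omegaSub_def (M : Type*) [AddCommGroup M] [Module T M] :
    omegaSub π M = Submodule.torsionBySet T M (RingHom.ker π : Set T)
      ⊔ Submodule.torsionBySet T M ((RingHom.ker π).annihilator : Set T) := rfl

variable {π}

theorem torsionBySet_map_equiv {M M' : Type*} [AddCommGroup M] [Module T M] [AddCommGroup M']
    [Module T M'] (e : M ≃ₗ[T] M') (s : Set T) :
    (Submodule.torsionBySet T M s).map (e : M →ₗ[T] M') = Submodule.torsionBySet T M' s := by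
  ext x
  constructor
  · rintro ⟨m, hm, rfl⟩
    have hm' : m ∈ Submodule.torsionBySet T M s := hm
    rw [Submodule.mem_torsionBySet_iff] at hm' ⊢
    intro a
    show a.1 • e m = 0
    rw [← map_smul, hm' a, map_zero]
  · intro hx
    refine ⟨e.symm x, ?_, e.apply_symm_apply x⟩
    show e.symm x ∈ Submodule.torsionBySet T M s
    rw [Submodule.mem_torsionBySet_iff] at hx ⊢
    intro a
    rw [← map_smul, hx a, map_zero]

theorem omegaSub_map_equiv {M M' : Type*} [AddCommGroup M] [Module T M] [AddCommGroup M']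
    [Module T M'] (e : M ≃ₗ[T] M') :
    (omegaSub π M).map (e : M →ₗ[T] M') = omegaSub π M' := by
  rw [omegaSub_def, omegaSub_def, Submodule.map_sup, torsionBySet_map_equiv, torsionBySet_map_equiv]

/-- `T[𝔭] = Ann 𝔭`. -/
theorem torsionBySet_ker_self :
    Submodule.torsionBySet T T (RingHom.ker π : Set T) = (RingHom.ker π).annihilator := by
  ext t
  rw [Submodule.mem_torsionBySet_iff, Submodule.mem_annihilator]
  constructor
  · intro h a ha
    have := h ⟨a, ha⟩
    rw [smul_eq_mul] at this ⊢
    rw [mul_comm]; exact this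
  · rintro h ⟨a, ha⟩
    have := h a ha
    rw [smul_eq_mul] at this ⊢
    rw [mul_comm]; exact this

/-- `T[I] = 𝔭` when `η ≠ 0`. -/
theorem torsionBySet_annihilator_self [IsDomain 𝒪] (hη : eta π ≠ ⊥) :
    Submodule.torsionBySet T T ((RingHom.ker π).annihilator : Set T) = RingHom.ker π := by
  obtain ⟨e, he, he0⟩ := Submodule.exists_mem_ne_zero_of_ne_bot hη
  obtain ⟨i, hi, rfl⟩ := mem_eta_iff.mp he
  ext t
  rw [Submodule.mem_torsionBySet_iff]
  constructor
  · intro h
    have h1 := h ⟨i, hi⟩
    have h2 : π i * π t = 0 := by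
      rw [← map_mul]
      have : i * t = 0 := h1
      rw [this, map_zero]
    rcases mul_eq_zero.mp h2 with h3 | h3
    · exact absurd h3 he0
    · exact h3
  · rintro h ⟨a, ha⟩
    exact (Submodule.mem_annihilator.mp ha) t h

/-- `T / (I + 𝔭) ≃ 𝒪 / η`. -/
theorem nonempty_quotient_equiv_eta :
    Nonempty ((T ⧸ ((RingHom.ker π).annihilator ⊔ RingHom.ker π)) ≃ (𝒪 ⧸ eta π)) := by
  have hsurj : Function.Surjective π := fun a => ⟨algebraMap 𝒪 T a, by rw [π.commutes]; rfl⟩
  -- the composite `T → 𝒪 → 𝒪/η` is onto with kernel `I + 𝔭`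
  let f : T →+* 𝒪 ⧸ eta π := (Ideal.Quotient.mk (eta π)).comp (π : T →+* 𝒪)
  have hf : Function.Surjective f := Ideal.Quotient.mk_surjective.comp hsurj
  have hker : RingHom.ker f = (RingHom.ker π).annihilator ⊔ RingHom.ker π := by
    ext t
    rw [RingHom.mem_ker]
    show Ideal.Quotient.mk (eta π) (π t) = 0 ↔ _
    rw [Ideal.Quotient.eq_zero_iff_mem, mem_eta_iff]
    constructor
    · rintro ⟨i, hi, hit⟩
      have : t = i + (t - i) := by ring
      rw [this]
      refine Submodule.add_mem_sup hi ?_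
      rw [RingHom.mem_ker, map_sub, hit, sub_self]
    · intro ht
      obtain ⟨i, hi, u, hu, rfl⟩ := Submodule.mem_sup.mp ht
      refine ⟨i, hi, ?_⟩
      rw [map_add, (RingHom.mem_ker).mp hu, add_zero]
  exact ⟨((Ideal.quotEquivOfEq hker.symm).trans
    (RingHom.quotientKerEquivOfSurjective hf)).toEquiv⟩

theorem omegaSub_pi [IsDomain 𝒪] (hη : eta π ≠ ⊥) (d : ℕ) :
    omegaSub π (Fin d → T)
      = Submodule.pi Set.univ fun _ : Fin d =>
          (((RingHom.ker π).annihilator ⊔ RingHom.ker π : Ideal T) : Submodule T T) := by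
  ext f
  rw [omegaSub_def, Submodule.mem_pi]
  constructor
  · intro hf j _
    obtain ⟨u, hu, v, hv, rfl⟩ := Submodule.mem_sup.mp hf
    rw [Submodule.mem_torsionBySet_iff] at hu hv
    refine Submodule.add_mem_sup ?_ ?_
    · rw [← torsionBySet_ker_self, Submodule.mem_torsionBySet_iff]
      intro a
      exact congrFun (hu a) j
    · rw [← torsionBySet_annihilator_self hη, Submodule.mem_torsionBySet_iff]
      intro a
      exact congrFun (hv a) j
  · intro hf
    have h1 : ∀ j, ∃ u ∈ (RingHom.ker π).annihilator, ∃ v ∈ RingHom.ker π, u + v = f j := fun j =>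
      Submodule.mem_sup.mp (hf j (Set.mem_univ j))
    choose u hu v hv huv using h1
    have : f = u + v := by
      funext j
      exact (huv j).symm
    rw [this]
    refine Submodule.add_mem_sup ?_ ?_
    · rw [Submodule.mem_torsionBySet_iff]
      intro a
      funext j
      have := hu j
      rw [← torsionBySet_ker_self, Submodule.mem_torsionBySet_iff] at this
      exact this a
    · rw [Submodule.mem_torsionBySet_iff]
      intro a
      funext j
      have := hv j
      rw [← torsionBySet_annihilator_self hη, Submodule.mem_torsionBySet_iff] at this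
      exact this a

/-- **OMEGA-FREE**. -/
theorem card_omega_of_free [IsDomain 𝒪]
    {M : Type*} [AddCommGroup M] [Module T M] (d : ℕ) (e : M ≃ₗ[T] (Fin d → T))
    (hη : eta π ≠ ⊥) :
    Nat.card (M ⧸ (Submodule.torsionBySet T M (RingHom.ker π : Set T)
        ⊔ Submodule.torsionBySet T M ((RingHom.ker π).annihilator : Set T)))
      = Nat.card (𝒪 ⧸ eta π) ^ d := by
  classical
  have e1 : (M ⧸ omegaSub π M) ≃ₗ[T] ((Fin d → T) ⧸ omegaSub π (Fin d → T)) :=
    Submodule.Quotient.equiv _ _ e (omegaSub_map_equiv e)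
  have e2 : ((Fin d → T) ⧸ omegaSub π (Fin d → T)) ≃ₗ[T]
      ((Fin d → T) ⧸ Submodule.pi Set.univ fun _ : Fin d =>
          (((RingHom.ker π).annihilator ⊔ RingHom.ker π : Ideal T) : Submodule T T)) :=
    Submodule.quotEquivOfEq _ _ (omegaSub_pi hη d)
  have e3 := Submodule.quotientPi (R := T) (fun _ : Fin d =>
          (((RingHom.ker π).annihilator ⊔ RingHom.ker π : Ideal T) : Submodule T T))
  obtain ⟨e4⟩ := nonempty_quotient_equiv_eta (π := π)
  show Nat.card (M ⧸ omegaSub π M) = _
  rw [Nat.card_congr e1.toEquiv, Nat.card_congr e2.toEquiv, Nat.card_congr e3.toEquiv,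
    Nat.card_pi, Finset.prod_const, Finset.card_univ, Fintype.card_fin]
  congr 1
  exact Nat.card_congr e4

end omega

end Fermat.Agent.S59.NumCrit.H90
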