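import Fermat.Agent.S59.NumCrit.H8_Card

/-!
# S59 NUMCRIT, leaf CARD' (helper12): the index of the row space of a square matrix

`𝒪` a discrete valuation ring, `B` an `n × n` matrix over `𝒪`.
* `card_quotient_span_rows`: if `det B ≠ 0` (and the residue field is finite) then
  `#(𝒪^n / rowspace B) = #(𝒪 / det B)`;
* `det_ne_zero_of_finite_quotient`: if `𝒪^n / rowspace B` is finite then `det B ≠ 0`.
The first from helper8's `H8.card_quotient_eq_card_det` (Smith normal form) and the comparison of
two families of rows with the same span; the second from a vector `w ≠ 0` with `B w = 0`.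
-/

set_option autoImplicit false
set_option linter.style.haveILetI false

open Module

namespace Fermat.Agent.S59.NumCrit.H12

variable {𝒪 : Type*} [CommRing 𝒪]

/-- If the rows of `b` lie in the row space of `B`, then `b = C * B`. -/
theorem exists_mul_eq_of_rows_mem (n : ℕ) (B b : Matrix (Fin n) (Fin n) 𝒪)
    (h : ∀ i, (fun j => b i j) ∈ Submodule.span 𝒪 (Set.range fun i => B i)) :
    ∃ C : Matrix (Fin n) (Fin n) 𝒪, b = C * B := by
  have h' : ∀ i, ∃ c : Fin n → 𝒪, ∑ k, c k • B k = fun j => b i j := fun i =>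
    (Submodule.mem_span_range_iff_exists_fun 𝒪).1 (h i)
  choose c hc using h'
  refine ⟨Matrix.of c, ?_⟩
  ext i j
  have := congrFun (hc i) j
  rw [Finset.sum_apply] at this
  rw [Matrix.mul_apply, ← this]
  refine Finset.sum_congr rfl (fun k _ => ?_)
  rw [Pi.smul_apply, smul_eq_mul, Matrix.of_apply]

/-- `det B • 𝒪^n` is contained in the row space of `B`. -/
theorem det_smul_mem_span_rows (n : ℕ) (B : Matrix (Fin n) (Fin n) 𝒪) (x : Fin n → 𝒪) :
    B.det • x ∈ Submodule.span 𝒪 (Set.range fun i => B i) := by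
  rw [Submodule.mem_span_range_iff_exists_fun]
  refine ⟨fun k => ∑ i, x i * B.adjugate i k, ?_⟩
  funext j
  have key : ∀ i, ∑ k, B.adjugate i k * B k j = if i = j then B.det else 0 := by
    intro i
    have := congrFun (congrFun (Matrix.adjugate_mul B) i) j
    rw [Matrix.mul_apply] at this
    rw [this, Matrix.smul_apply, Matrix.one_apply, smul_eq_mul]
    split_ifs <;> simp
  rw [Finset.sum_apply]
  calc ∑ k, ((∑ i, x i * B.adjugate i k) • B k) j
      = ∑ k, ∑ i, x i * (B.adjugate i k * B k j) := by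
        refine Finset.sum_congr rfl (fun k _ => ?_)
        rw [Pi.smul_apply, smul_eq_mul, Finset.sum_mul]
        exact Finset.sum_congr rfl (fun i _ => mul_assoc _ _ _)
    _ = ∑ i, x i * ∑ k, B.adjugate i k * B k j := by
        rw [Finset.sum_comm]
        exact Finset.sum_congr rfl (fun i _ => (Finset.mul_sum _ _ _).symm)
    _ = ∑ i, x i * (if i = j then B.det else 0) := by
        exact Finset.sum_congr rfl (fun i _ => by rw [key i])
    _ = (B.det • x) j := by
        rw [Finset.sum_eq_single j]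
        · rw [if_pos rfl, Pi.smul_apply, smul_eq_mul, mul_comm]
        · intro i _ hij
          rw [if_neg hij, mul_zero]
        · intro hj
          exact absurd (Finset.mem_univ j) hj

variable [IsDomain 𝒪] [IsDiscreteValuationRing 𝒪]

/-- **CARD'**, second part: if the row space of `B` has finite index then `det B ≠ 0`. -/
theorem det_ne_zero_of_finite_quotient (n : ℕ) (B : Matrix (Fin n) (Fin n) 𝒪)
    (hfin : Finite ((Fin n → 𝒪) ⧸ Submodule.span 𝒪 (Set.range fun i => B i))) : B.det ≠ 0 := by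
  classical
  intro hdet
  obtain ⟨w, hw0, hw⟩ := Matrix.exists_mulVec_eq_zero_iff.mpr hdet
  obtain ⟨j, hj⟩ : ∃ j, w j ≠ 0 := by
    by_contra h
    push Not at h
    exact hw0 (funext h)
  -- the functional `x ↦ x ⬝ᵥ w` vanishes on the row space
  let φ : (Fin n → 𝒪) →ₗ[𝒪] 𝒪 :=
    { toFun := fun x => x ⬝ᵥ w
      map_add' := fun x y => add_dotProduct x y w
      map_smul' := fun c x => smul_dotProduct c x w }
  have hφ : Submodule.span 𝒪 (Set.range fun i => B i) ≤ LinearMap.ker φ := by
    rw [Submodule.span_le]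
    rintro _ ⟨i, rfl⟩
    exact congrFun hw i
  let ψ := (Submodule.span 𝒪 (Set.range fun i => B i)).liftQ φ hφ
  obtain ⟨ϖ, hϖ⟩ := IsDiscreteValuationRing.exists_irreducible 𝒪
  have hinj : Function.Injective fun k : ℕ => ϖ ^ k :=
    pow_injective_of_not_isUnit hϖ.not_isUnit hϖ.ne_zero
  obtain ⟨k, l, hkl, h⟩ := Finite.exists_ne_map_eq_of_infinite
    (fun k : ℕ => Submodule.Quotient.mk (p := Submodule.span 𝒪 (Set.range fun i => B i))
      (ϖ ^ k • (Pi.single j (1 : 𝒪) : Fin n → 𝒪)))
  have h1 := congrArg ψ h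
  have h2 : ∀ k : ℕ, ψ (Submodule.Quotient.mk (ϖ ^ k • (Pi.single j (1 : 𝒪) : Fin n → 𝒪))) =
      ϖ ^ k * w j := by
    intro k
    change (ϖ ^ k • (Pi.single j (1 : 𝒪) : Fin n → 𝒪)) ⬝ᵥ w = _
    rw [smul_dotProduct, single_dotProduct, one_mul, smul_eq_mul]
  rw [h2, h2] at h1
  exact hkl (hinj (mul_right_cancel₀ hj h1))

/-- **CARD'**, first part: `#(𝒪^n / rowspace B) = #(𝒪 / det B)` for `det B ≠ 0`. -/
theorem card_quotient_span_rows [Finite (IsLocalRing.ResidueField 𝒪)] (n : ℕ)
    (B : Matrix (Fin n) (Fin n) 𝒪) (hB : B.det ≠ 0) :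
    Nat.card ((Fin n → 𝒪) ⧸ Submodule.span 𝒪 (Set.range fun i => B i))
      = Nat.card (𝒪 ⧸ Ideal.span {B.det}) := by
  classical
  set N := Submodule.span 𝒪 (Set.range fun i => B i) with hN
  -- the quotient is finite
  have hfinI : Finite (𝒪 ⧸ Ideal.span {B.det}) := by
    obtain ⟨k, -, hk⟩ := H8.exists_card_span_singleton hB
    apply Nat.finite_of_card_ne_zero
    rw [hk]
    have h0 : Nat.card (𝒪 ⧸ IsLocalRing.maximalIdeal 𝒪) ≠ 0 := by
      haveI : Finite (𝒪 ⧸ IsLocalRing.maximalIdeal 𝒪) :=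
        inferInstanceAs (Finite (IsLocalRing.ResidueField 𝒪))
      exact Nat.card_pos.ne'
    exact pow_ne_zero _ h0
  let N' : Submodule 𝒪 (Fin n → 𝒪) :=
    Submodule.pi Set.univ (fun _ : Fin n => (Ideal.span {B.det} : Submodule 𝒪 𝒪))
  have hN' : N' ≤ N := by
    intro x hx
    have hx' : ∀ i, ∃ c : 𝒪, c * B.det = x i := fun i =>
      Ideal.mem_span_singleton'.1 ((Submodule.mem_pi.1 hx) i (Set.mem_univ i))
    choose c hc using hx'
    have : x = B.det • c := by
      funext i
      rw [Pi.smul_apply, smul_eq_mul, mul_comm, hc]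
    rw [this]
    exact det_smul_mem_span_rows n B c
  haveI : Finite ((Fin n → 𝒪) ⧸ N') :=
    Finite.of_equiv _ (Submodule.quotientPi (fun _ : Fin n => (Ideal.span {B.det} :
      Submodule 𝒪 𝒪))).symm.toEquiv
  haveI : Finite ((Fin n → 𝒪) ⧸ N) :=
    Finite.of_surjective (Submodule.factor hN') (Submodule.factor_surjective hN')
  obtain ⟨b, hbN, hbspan, hbdet, hcard⟩ := H8.card_quotient_eq_card_det n N
  rw [hcard]
  -- compare the determinants
  obtain ⟨C, hC⟩ := exists_mul_eq_of_rows_mem n B (Matrix.of b) (fun i => hbN i)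
  obtain ⟨C', hC'⟩ := exists_mul_eq_of_rows_mem n (Matrix.of b) B (fun i => by
    have : (fun j => B i j) ∈ N := Submodule.subset_span ⟨i, rfl⟩
    rw [← hbspan] at this
    exact this)
  have h1 : (Matrix.of b).det = C.det * B.det := by rw [hC, Matrix.det_mul]
  have h2 : B.det = C'.det * (Matrix.of b).det := by
    conv_lhs => rw [hC']
    rw [Matrix.det_mul]
  have h3 : C.det * C'.det = 1 := by
    have : (C.det * C'.det) * (Matrix.of b).det = 1 * (Matrix.of b).det := by
      rw [one_mul, mul_assoc, ← h2, ← h1]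
    exact mul_right_cancel₀ hbdet this
  have hu : IsUnit C.det := IsUnit.of_mul_eq_one _ h3
  rw [h1, mul_comm, Ideal.span_singleton_mul_right_unit hu]

end Fermat.Agent.S59.NumCrit.H12
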