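import Mathlib

/-!
# S59 NUMCRIT, leaf CARD (helper8): the index of a lattice is the index of its determinant

`card_quotient_eq_card_det`: a submodule `N` of finite index of `𝒪^n`, `𝒪` a discrete valuation
ring, has a basis `b` with `#(𝒪^n / N) = #(𝒪 / det b)` (Smith normal form).
-/

set_option autoImplicit false

open Module

namespace Fermat.Agent.S59.NumCrit.H8

section DVR

variable {𝒪 : Type*} [CommRing 𝒪] [IsDomain 𝒪] [IsDiscreteValuationRing 𝒪]

/-- The cardinality of `𝒪 / (x)` is a power of the cardinality of the residue field. -/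
theorem exists_card_span_singleton {x : 𝒪} (hx : x ≠ 0) :
    ∃ k : ℕ, Ideal.span {x} = IsLocalRing.maximalIdeal 𝒪 ^ k ∧
      Nat.card (𝒪 ⧸ Ideal.span {x}) = Nat.card (𝒪 ⧸ IsLocalRing.maximalIdeal 𝒪) ^ k := by
  obtain ⟨ϖ, hϖ⟩ := IsDiscreteValuationRing.exists_irreducible 𝒪
  have hm : IsLocalRing.maximalIdeal 𝒪 = Ideal.span {ϖ} :=
    (IsDiscreteValuationRing.irreducible_iff_uniformizer ϖ).1 hϖ
  have hne : Ideal.span {x} ≠ ⊥ := by
    rw [Ne, Ideal.span_singleton_eq_bot]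
    exact hx
  obtain ⟨k, hk⟩ := IsDiscreteValuationRing.ideal_eq_span_pow_irreducible hne hϖ
  have hk' : Ideal.span {x} = IsLocalRing.maximalIdeal 𝒪 ^ k := by
    rw [hk, hm, Ideal.span_singleton_pow]
  refine ⟨k, hk', ?_⟩
  have hbot : IsLocalRing.maximalIdeal 𝒪 ≠ ⊥ := IsDiscreteValuationRing.not_a_field 𝒪
  have := cardQuot_pow_of_prime (S := 𝒪) (P := IsLocalRing.maximalIdeal 𝒪) hbot (i := k)
  rw [Submodule.cardQuot_apply, Submodule.cardQuot_apply] at this
  rw [hk']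
  exact this

/-- Multiplicativity of `x ↦ #(𝒪 / (x))`. -/
theorem card_span_mul {x y : 𝒪} (hx : x ≠ 0) (hy : y ≠ 0) :
    Nat.card (𝒪 ⧸ Ideal.span {x * y}) =
      Nat.card (𝒪 ⧸ Ideal.span {x}) * Nat.card (𝒪 ⧸ Ideal.span {y}) := by
  obtain ⟨k, hk, hkc⟩ := exists_card_span_singleton hx
  obtain ⟨l, hl, hlc⟩ := exists_card_span_singleton hy
  have hbot : IsLocalRing.maximalIdeal 𝒪 ≠ ⊥ := IsDiscreteValuationRing.not_a_field 𝒪
  have h1 : Ideal.span {x * y} = IsLocalRing.maximalIdeal 𝒪 ^ (k + l) := by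
    rw [← Ideal.span_singleton_mul_span_singleton, hk, hl, pow_add]
  have := cardQuot_pow_of_prime (S := 𝒪) (P := IsLocalRing.maximalIdeal 𝒪) hbot (i := k + l)
  rw [Submodule.cardQuot_apply, Submodule.cardQuot_apply] at this
  rw [h1, this, hkc, hlc, pow_add]

omit [IsDomain 𝒪] [IsDiscreteValuationRing 𝒪] in
theorem card_span_unit_mul {u x : 𝒪} (hu : IsUnit u) :
    Nat.card (𝒪 ⧸ Ideal.span {x * u}) = Nat.card (𝒪 ⧸ Ideal.span {x}) := by
  rw [Ideal.span_singleton_mul_right_unit hu]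

theorem card_span_prod {ι : Type*} (s : Finset ι) (a : ι → 𝒪) (ha : ∀ i ∈ s, a i ≠ 0) :
    Nat.card (𝒪 ⧸ Ideal.span {∏ i ∈ s, a i}) = ∏ i ∈ s, Nat.card (𝒪 ⧸ Ideal.span {a i}) := by
  classical
  induction s using Finset.induction_on with
  | empty =>
    rw [Finset.prod_empty, Finset.prod_empty, Ideal.span_singleton_one]
    have := Submodule.cardQuot_top 𝒪 𝒪
    rw [Submodule.cardQuot_apply] at this
    exact this
  | insert i s hi ih =>
    rw [Finset.prod_insert hi, Finset.prod_insert hi,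
      card_span_mul (ha i (Finset.mem_insert_self i s))
        (Finset.prod_ne_zero_iff.mpr fun j hj => ha j (Finset.mem_insert_of_mem hj)),
      ih fun j hj => ha j (Finset.mem_insert_of_mem hj)]

end DVR

/-- **CARD**. -/
theorem card_quotient_eq_card_det {𝒪 : Type*} [CommRing 𝒪] [IsDomain 𝒪]
    [IsDiscreteValuationRing 𝒪] [Finite (IsLocalRing.ResidueField 𝒪)] (n : ℕ)
    (N : Submodule 𝒪 (Fin n → 𝒪)) [Finite ((Fin n → 𝒪) ⧸ N)] :
    ∃ b : Fin n → (Fin n → 𝒪), (∀ i, b i ∈ N) ∧ Submodule.span 𝒪 (Set.range b) = N ∧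
      (Matrix.of b).det ≠ 0 ∧
      Nat.card ((Fin n → 𝒪) ⧸ N) = Nat.card (𝒪 ⧸ Ideal.span {(Matrix.of b).det}) := by
  classical
  -- `N` has full rank
  have hrank : finrank 𝒪 N = finrank 𝒪 (Fin n → 𝒪) := by
    have h0 : finrank 𝒪 ((Fin n → 𝒪) ⧸ N) = 0 := by
      rw [Module.finrank_eq_zero_iff]
      intro x
      obtain ⟨ϖ, hϖ⟩ := IsDiscreteValuationRing.exists_irreducible 𝒪
      have hinj : Function.Injective fun k : ℕ => ϖ ^ k :=
        pow_injective_of_not_isUnit hϖ.not_isUnit hϖ.ne_zero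
      obtain ⟨k, l, hkl, h⟩ := Finite.exists_ne_map_eq_of_infinite (fun k : ℕ => ϖ ^ k • x)
      refine ⟨ϖ ^ k - ϖ ^ l, sub_ne_zero.mpr (fun e => hkl (hinj e)), ?_⟩
      have h' : ϖ ^ k • x = ϖ ^ l • x := h
      rw [sub_smul, h', sub_self]
    have := Submodule.finrank_quotient_add_finrank N
    omega
  let b₀ : Basis (Fin n) 𝒪 (Fin n → 𝒪) := Pi.basisFun 𝒪 (Fin n)
  obtain ⟨a, ha⟩ : ∃ a : Fin n → 𝒪, a = Submodule.smithNormalFormCoeffs b₀ hrank := ⟨_, rfl⟩
  obtain ⟨bM, hbM⟩ : ∃ bM : Basis (Fin n) 𝒪 (Fin n → 𝒪),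
      bM = Submodule.smithNormalFormTopBasis b₀ hrank := ⟨_, rfl⟩
  obtain ⟨bN, hbN⟩ : ∃ bN : Basis (Fin n) 𝒪 N,
      bN = Submodule.smithNormalFormBotBasis b₀ hrank := ⟨_, rfl⟩
  have hdef : ∀ i, (bN i : Fin n → 𝒪) = a i • bM i := by
    intro i
    rw [hbN, ha, hbM]
    exact Submodule.smithNormalFormBotBasis_def b₀ hrank i
  have ha0 : ∀ i, a i ≠ 0 := fun i => by
    rw [ha]
    exact Submodule.smithNormalFormCoeffs_ne_zero b₀ hrank i
  -- the determinant
  have hmat : Matrix.of (fun i => (bN i : Fin n → 𝒪))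
      = Matrix.of fun i j => a i * (Matrix.of fun i => (bM i : Fin n → 𝒪)) i j := by
    ext i j
    rw [Matrix.of_apply, Matrix.of_apply, hdef i, Pi.smul_apply, smul_eq_mul, Matrix.of_apply]
  have hunit : IsUnit (Matrix.of fun i => (bM i : Fin n → 𝒪)).det := by
    have h1 : (Matrix.of fun i => (bM i : Fin n → 𝒪)) = (b₀.toMatrix ⇑bM).transpose := by
      ext i j
      rw [Matrix.transpose_apply, Module.Basis.toMatrix_apply, Matrix.of_apply]
      rfl
    rw [h1, Matrix.det_transpose]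
    exact b₀.isUnit_det bM
  have hdet : (Matrix.of (fun i => (bN i : Fin n → 𝒪))).det
      = (∏ i, a i) * (Matrix.of fun i => (bM i : Fin n → 𝒪)).det := by
    rw [hmat, Matrix.det_mul_column]
  have hprod : (∏ i, a i) ≠ 0 := Finset.prod_ne_zero_iff.mpr fun i _ => ha0 i
  refine ⟨fun i => (bN i : Fin n → 𝒪), fun i => (bN i).2, ?_, ?_, ?_⟩
  · -- the span
    have h1 : Set.range (fun i => (bN i : Fin n → 𝒪)) = N.subtype '' Set.range bN := by
      rw [← Set.range_comp]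
      rfl
    rw [h1, Submodule.span_image, bN.span_eq, Submodule.map_subtype_top]
  · rw [hdet]
    exact mul_ne_zero hprod hunit.ne_zero
  · rw [hdet, card_span_unit_mul hunit, card_span_prod Finset.univ a fun i _ => ha0 i,
      Nat.card_congr (Submodule.quotientEquivPiSpan N b₀ hrank).toEquiv, Nat.card_pi, ha]

end Fermat.Agent.S59.NumCrit.H8
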