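import Fermat.Agent.S59.NumCrit.H90_Fit
import Fermat.Agent.S59.NumCrit.H8_Card

/-!
# S59 NUMCRIT, leaf OMEGA (helper12): Diamond's congruence module

`Ω(M) = M / (M[𝔭] + M[I])`, `𝔭 = ker π`, `I = Ann 𝔭`, `η = π(I) ≠ 0`, `M` finite free over
the discrete valuation ring `𝒪`.  Then `Ω(M)` is finite and `#Ω(M) ≤ #(𝒪/η)^d`,
`d = rank_𝒪 M[𝔭]` (`card_omega_le`).

Proof: choose `i ∈ I` with `π i = e`, a generator of `η`.  Multiplication by `i` maps `M` to
`L = M[𝔭]`, is multiplication by `e` on `L`, and has kernel `M[I]` (`M` is torsion-free).  So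
`m ↦ i • m` induces an injection `Ω(M) → L / e L`, and `#(L / e L) = #(𝒪/e)^d`.
-/

set_option autoImplicit false
set_option linter.style.haveILetI false

open Module

namespace Fermat.Agent.S59.NumCrit.H12

/-- the submodule `e N` of a module `N`. -/
def smulTop {R : Type*} [CommRing R] (e : R) (N : Type*) [AddCommGroup N] [Module R N] :
    Submodule R N :=
  LinearMap.range (LinearMap.lsmul R N e)

theorem mem_smulTop {R : Type*} [CommRing R] {e : R} {N : Type*} [AddCommGroup N] [Module R N]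
    {x : N} : x ∈ smulTop e N ↔ ∃ y : N, e • y = x := by
  unfold smulTop
  rw [LinearMap.mem_range]
  rfl

/-- `#(N / e N) = #(R / e)^rank N` for a finite free module `N`. -/
theorem card_quotient_smulTop {R : Type*} [CommRing R] [Nontrivial R] (e : R)
    (N : Type*) [AddCommGroup N] [Module R N] [Module.Free R N] [Module.Finite R N] :
    Nat.card (N ⧸ smulTop e N) = Nat.card (R ⧸ Ideal.span {e}) ^ Module.finrank R N := by
  classical
  let f : N ≃ₗ[R] (Fin (Module.finrank R N) → R) := (Module.finBasis R N).equivFun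
  have hmap : (smulTop e N).map (f : N →ₗ[R] (Fin (Module.finrank R N) → R))
      = Submodule.pi Set.univ fun _ : Fin (Module.finrank R N) =>
          (Ideal.span {e} : Submodule R R) := by
    ext x
    rw [Submodule.mem_map, Submodule.mem_pi]
    constructor
    · rintro ⟨y, hy, rfl⟩ j _
      obtain ⟨z, rfl⟩ := mem_smulTop.mp hy
      show f (e • z) j ∈ Ideal.span {e}
      rw [map_smul, Pi.smul_apply, smul_eq_mul]
      exact Ideal.mul_mem_right _ _ (Ideal.subset_span rfl)
    · intro hx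
      have h1 : ∀ j, ∃ c : R, c * e = x j := fun j =>
        Ideal.mem_span_singleton'.mp (hx j (Set.mem_univ j))
      choose c hc using h1
      refine ⟨f.symm (e • c), mem_smulTop.mpr ⟨f.symm c, by rw [map_smul]⟩, ?_⟩
      show f (f.symm (e • c)) = x
      rw [f.apply_symm_apply]
      funext j
      rw [Pi.smul_apply, smul_eq_mul, mul_comm, hc j]
  have e1 := Submodule.Quotient.equiv _ _ f hmap
  have e3 := Submodule.quotientPi (R := R) (fun _ : Fin (Module.finrank R N) =>
    (Ideal.span {e} : Submodule R R))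
  rw [Nat.card_congr e1.toEquiv, Nat.card_congr e3.toEquiv, Nat.card_pi, Finset.prod_const,
    Finset.card_univ, Fintype.card_fin]

section omega

variable {𝒪 : Type*} [CommRing 𝒪] {T : Type*} [CommRing T] [Algebra 𝒪 T] (π : T →ₐ[𝒪] 𝒪)
  {M : Type*} [AddCommGroup M] [Module T M] [Module 𝒪 M] [IsScalarTower 𝒪 T M]

variable {π}

/-- `t - π t ∈ 𝔭`. -/
theorem sub_algebraMap_mem_ker (t : T) : t - algebraMap 𝒪 T (π t) ∈ RingHom.ker π := by
  rw [RingHom.mem_ker, map_sub, AlgHom.commutes]
  exact sub_self _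

omit [Module 𝒪 M] [IsScalarTower 𝒪 T M] in
/-- `i M ⊆ M[𝔭]` for `i ∈ Ann 𝔭`. -/
theorem smul_mem_torsionBySet_ker {i : T} (hi : i ∈ (RingHom.ker π).annihilator) (m : M) :
    i • m ∈ Submodule.torsionBySet T M (RingHom.ker π : Set T) := by
  rw [Submodule.mem_torsionBySet_iff]
  rintro ⟨a, ha⟩
  show a • i • m = 0
  have h := Submodule.mem_annihilator.mp hi a ha
  rw [smul_eq_mul] at h
  rw [smul_smul, mul_comm, h, zero_smul]

/-- on `M[𝔭]`, `t` acts as `π t`. -/
theorem smul_eq_of_mem_torsionBySet_ker (t : T) {m : M}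
    (hm : m ∈ Submodule.torsionBySet T M (RingHom.ker π : Set T)) :
    t • m = π t • m := by
  have h := (Submodule.mem_torsionBySet_iff _ _).mp hm ⟨_, sub_algebraMap_mem_ker (π := π) t⟩
  have h' : (t - algebraMap 𝒪 T (π t)) • m = 0 := h
  rw [sub_smul, algebraMap_smul, sub_eq_zero] at h'
  exact h'

omit [Module 𝒪 M] [IsScalarTower 𝒪 T M] in
/-- `i` kills `M[I]`. -/
theorem smul_eq_zero_of_mem_torsionBySet_ann {i : T} (hi : i ∈ (RingHom.ker π).annihilator)
    {m : M} (hm : m ∈ Submodule.torsionBySet T M ((RingHom.ker π).annihilator : Set T)) :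
    i • m = 0 :=
  (Submodule.mem_torsionBySet_iff _ _).mp hm ⟨i, hi⟩

/-- if `i ∈ I`, `π i ≠ 0` and `i m = 0` then `m ∈ M[I]` (`M` torsion-free). -/
theorem mem_torsionBySet_ann_of_smul_eq_zero [IsDomain 𝒪] [Module.Free 𝒪 M]
    {i : T} (hi0 : π i ≠ 0) {m : M} (hm : i • m = 0) :
    m ∈ Submodule.torsionBySet T M ((RingHom.ker π).annihilator : Set T) := by
  rw [Submodule.mem_torsionBySet_iff]
  rintro ⟨j, hj⟩
  show j • m = 0
  have h1 : j * (algebraMap 𝒪 T (π i) - i) = 0 := by
    have h := Submodule.mem_annihilator.mp hj (i - algebraMap 𝒪 T (π i))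
      (sub_algebraMap_mem_ker (π := π) i)
    rw [smul_eq_mul] at h
    rw [← neg_sub, mul_neg, h, neg_zero]
  have h2 : π i • (j • m) = 0 := by
    rw [← algebraMap_smul T (π i) (j • m), smul_smul]
    have h3 : algebraMap 𝒪 T (π i) * j = j * i := by
      have : j * (algebraMap 𝒪 T (π i) - i) = algebraMap 𝒪 T (π i) * j - j * i := by ring
      rw [this, sub_eq_zero] at h1
      exact h1
    rw [h3, mul_smul, hm, smul_zero]
  rcases smul_eq_zero.mp h2 with h | h
  · exact absurd h hi0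
  · exact h

end omega

/-- **OMEGA** (Diamond's congruence module). -/
theorem card_omega_le {𝒪 : Type*} [CommRing 𝒪] [IsDomain 𝒪] [IsDiscreteValuationRing 𝒪]
    [Finite (IsLocalRing.ResidueField 𝒪)]
    {T : Type*} [CommRing T] [Algebra 𝒪 T] (π : T →ₐ[𝒪] 𝒪)
    {M : Type*} [AddCommGroup M] [Module T M] [Module 𝒪 M] [IsScalarTower 𝒪 T M]
    [Module.Finite 𝒪 M] [Module.Free 𝒪 M]
    (hη : eta π ≠ ⊥) :
    Finite (M ⧸ (Submodule.torsionBySet T M (RingHom.ker π : Set T)
        ⊔ Submodule.torsionBySet T M ((RingHom.ker π).annihilator : Set T))) ∧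
    Nat.card (M ⧸ (Submodule.torsionBySet T M (RingHom.ker π : Set T)
        ⊔ Submodule.torsionBySet T M ((RingHom.ker π).annihilator : Set T)))
      ≤ Nat.card (𝒪 ⧸ eta π) ^ Module.finrank 𝒪
          ((Submodule.torsionBySet T M (RingHom.ker π : Set T)).restrictScalars 𝒪) := by
  classical
  -- a generator `e = π i` of `η`
  obtain ⟨e, he⟩ : ∃ e : 𝒪, eta π = Ideal.span {e} :=
    (IsPrincipalIdealRing.principal (eta π)).principal
  have he0 : e ≠ 0 := by
    rintro rfl
    apply hη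
    rw [he]
    exact Ideal.span_singleton_eq_bot.mpr rfl
  have hemem : e ∈ eta π := by
    rw [he]
    exact Ideal.subset_span rfl
  obtain ⟨i, hi, hie⟩ := H90.mem_eta_iff.mp hemem
  have hi0 : π i ≠ 0 := by rw [hie]; exact he0
  -- notation
  set L : Submodule T M := Submodule.torsionBySet T M (RingHom.ker π : Set T) with hL
  set L' : Submodule T M := Submodule.torsionBySet T M ((RingHom.ker π).annihilator : Set T)
    with hL'
  set L𝒪 : Submodule 𝒪 M := L.restrictScalars 𝒪 with hL𝒪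
  haveI : SMulCommClass 𝒪 T M := IsScalarTower.to_smulCommClass
  -- multiplication by `i`, as a map `M → L`
  let φ : M →ₗ[𝒪] L𝒪 :=
    { toFun := fun m => ⟨i • m, smul_mem_torsionBySet_ker hi m⟩
      map_add' := fun x y => Subtype.ext (smul_add i x y)
      map_smul' := fun a x => Subtype.ext (smul_comm i a x) }
  have hφ : ∀ m, ((φ m : L𝒪) : M) = i • m := fun _ => rfl
  let ψ : M →ₗ[𝒪] (L𝒪 ⧸ smulTop e L𝒪) := (smulTop e L𝒪).mkQ.comp φ
  -- the kernel of `ψ` is `L + L'`
  have hker : LinearMap.ker ψ = (L ⊔ L').restrictScalars 𝒪 := by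
    ext m
    rw [LinearMap.mem_ker, Submodule.restrictScalars_mem]
    show (smulTop e L𝒪).mkQ (φ m) = 0 ↔ _
    rw [Submodule.mkQ_apply, Submodule.Quotient.mk_eq_zero, mem_smulTop]
    constructor
    · rintro ⟨y, hy⟩
      have hyL : (y : M) ∈ L := y.2
      have h1 : i • (m - (y : M)) = 0 := by
        rw [smul_sub, smul_eq_of_mem_torsionBySet_ker i hyL, hie, sub_eq_zero, ← hφ m, ← hy]
        rfl
      have h2 := mem_torsionBySet_ann_of_smul_eq_zero (π := π) hi0 h1
      have : m = (y : M) + (m - (y : M)) := by abel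
      rw [this]
      exact Submodule.add_mem_sup hyL h2
    · intro hm
      obtain ⟨l, hl, l', hl', rfl⟩ := Submodule.mem_sup.mp hm
      refine ⟨⟨l, hl⟩, Subtype.ext ?_⟩
      show e • l = i • (l + l')
      rw [smul_add, smul_eq_zero_of_mem_torsionBySet_ann hi hl', add_zero,
        smul_eq_of_mem_torsionBySet_ker i hl, hie]
  -- the induced injection `Ω → L / e L`
  let ψ' : (M ⧸ (L ⊔ L').restrictScalars 𝒪) →ₗ[𝒪] (L𝒪 ⧸ smulTop e L𝒪) :=
    ((L ⊔ L').restrictScalars 𝒪).liftQ ψ hker.ge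
  have hψ' : Function.Injective ψ' := by
    rw [← LinearMap.ker_eq_bot]
    exact Submodule.ker_liftQ_eq_bot _ _ _ hker.le
  let ε := Submodule.Quotient.restrictScalarsEquiv 𝒪 (L ⊔ L')
  have hinj : Function.Injective (fun x : M ⧸ (L ⊔ L') => ψ' (ε.symm x)) :=
    hψ'.comp ε.symm.injective
  -- finiteness of `𝒪 / e` and of `L / e L`
  have hfinI : Finite (𝒪 ⧸ Ideal.span {e}) := by
    obtain ⟨k, -, hk⟩ := H8.exists_card_span_singleton he0
    apply Nat.finite_of_card_ne_zero
    rw [hk]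
    apply pow_ne_zero
    haveI : Finite (𝒪 ⧸ IsLocalRing.maximalIdeal 𝒪) :=
      inferInstanceAs (Finite (IsLocalRing.ResidueField 𝒪))
    exact Nat.card_pos.ne'
  have hcard := card_quotient_smulTop e L𝒪
  have hfinL : Finite (L𝒪 ⧸ smulTop e L𝒪) := by
    apply Nat.finite_of_card_ne_zero
    rw [hcard]
    exact pow_ne_zero _ Nat.card_pos.ne'
  refine ⟨Finite.of_injective _ hinj, ?_⟩
  rw [he, ← hcard]
  exact Nat.card_le_card_of_injective _ hinj

end Fermat.Agent.S59.NumCrit.H12
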