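import Fermat.Agent.S59.NumCrit.NumCrit
import Fermat.Agent.S59.NumCrit.H12_Omega
import Fermat.Agent.S59.NumCrit.H90_OmegaFree

/-!
# S59 NUMCRIT: the numerical criterion in Diamond's form (congruence module of a module)

`nc1_diamond`: `Ω(M) = M/(M[𝔭] + M[I])` for a `T`-module `M`, finite free over `𝒪`, replaces `η_T`.
`card_omega_of_free` (in `H90_OmegaFree.lean`): `#Ω(T^d) = #(𝒪/η)^d`.
-/

set_option autoImplicit false

namespace Fermat.Agent.S59.NumCrit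

open MvPowerSeries

section diamond

variable {𝒪 : Type*} [CommRing 𝒪] [IsDomain 𝒪] [IsDiscreteValuationRing 𝒪]
  [Finite (IsLocalRing.ResidueField 𝒪)]
  {R T : Type*} [CommRing R] [Algebra 𝒪 R] [CommRing T] [Algebra 𝒪 T]
  [Module.Finite 𝒪 T] [Module.Free 𝒪 T] {n : ℕ}

/-- **NC1 in Diamond's form**: the congruence module `Ω(M) = M/(M[𝔭] + M[I])` of a `T`-module `M`
(finite free over `𝒪`, `rank M[𝔭] ≤ d`) replaces `η_T`:
`(#Φ_R)^d ≤ #Ω(M)` ⟹ `R ≅ T` complete intersection, and `(#Φ_R)^d = #Ω(M)`. -/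
theorem nc1_diamond [IsAdicComplete (IsLocalRing.maximalIdeal 𝒪) 𝒪]
    (γ : MvPowerSeries (Fin n) 𝒪 →ₐ[𝒪] R) (hγ : Function.Surjective γ)
    (φ : R →ₐ[𝒪] T) (hφ : Function.Surjective φ) (π : T →ₐ[𝒪] 𝒪)
    [Finite (RingHom.ker (π.comp φ)).Cotangent]
    {M : Type*} [AddCommGroup M] [Module T M] [Module 𝒪 M] [IsScalarTower 𝒪 T M]
    [Module.Finite 𝒪 M] [Module.Free 𝒪 M]
    (hη : eta π ≠ ⊥) (d : ℕ) (hd : 0 < d)
    (hrank : Module.finrank 𝒪
      ((Submodule.torsionBySet T M (RingHom.ker π : Set T)).restrictScalars 𝒪) ≤ d)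
    (hcard : Nat.card (RingHom.ker (π.comp φ)).Cotangent ^ d
      ≤ Nat.card (M ⧸ (Submodule.torsionBySet T M (RingHom.ker π : Set T)
        ⊔ Submodule.torsionBySet T M ((RingHom.ker π).annihilator : Set T)))) :
    Function.Bijective φ ∧
      (∃ g : Fin n → MvPowerSeries (Fin n) 𝒪,
        RingHom.ker (φ.comp γ) = Ideal.span (Set.range g)) ∧
      Nat.card (RingHom.ker π).Cotangent = Nat.card (𝒪 ⧸ eta π) ∧
      Nat.card (RingHom.ker (π.comp φ)).Cotangent = Nat.card (𝒪 ⧸ eta π) ∧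
      Nat.card (RingHom.ker (π.comp φ)).Cotangent ^ d
        = Nat.card (M ⧸ (Submodule.torsionBySet T M (RingHom.ker π : Set T)
          ⊔ Submodule.torsionBySet T M ((RingHom.ker π).annihilator : Set T))) := by
  obtain ⟨hfinΩ, hΩ⟩ := H12.card_omega_le π (M := M) hη
  -- `𝒪/η` is finite
  obtain ⟨e, he⟩ := (IsPrincipalIdealRing.principal (eta π)).principal
  have he0 : e ≠ 0 := by
    rintro rfl
    apply hη
    rw [he]
    simp
  have hfinη : Finite (𝒪 ⧸ eta π) := by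
    obtain ⟨k, -, hk⟩ := H8.exists_card_span_singleton he0
    apply Nat.finite_of_card_ne_zero
    have h1 : Nat.card (𝒪 ⧸ eta π) = Nat.card (𝒪 ⧸ Ideal.span {e}) := by
      rw [he]
    rw [h1, hk]
    exact pow_ne_zero _ (Nat.card_pos (α := IsLocalRing.ResidueField 𝒪)).ne'
  have hpos : 0 < Nat.card (𝒪 ⧸ eta π) := Nat.card_pos
  have h2 : Nat.card (𝒪 ⧸ eta π) ^ Module.finrank 𝒪
      ((Submodule.torsionBySet T M (RingHom.ker π : Set T)).restrictScalars 𝒪)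
      ≤ Nat.card (𝒪 ⧸ eta π) ^ d := Nat.pow_le_pow_right hpos hrank
  have h3 : Nat.card (RingHom.ker (π.comp φ)).Cotangent ^ d ≤ Nat.card (𝒪 ⧸ eta π) ^ d :=
    hcard.trans (hΩ.trans h2)
  have h4 : Nat.card (RingHom.ker (π.comp φ)).Cotangent ≤ Nat.card (𝒪 ⧸ eta π) :=
    (Nat.pow_le_pow_iff_left hd.ne').mp h3
  obtain ⟨hb, hg, hT, hR⟩ := nc1_complete γ hγ φ hφ π h4
  refine ⟨hb, hg, hT, hR, le_antisymm hcard ?_⟩
  rw [hR]
  exact hΩ.trans h2

end diamond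

end Fermat.Agent.S59.NumCrit
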