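import Fermat.Agent.S59.NumCrit.H90_Growth

/-!
# S59 NUMCRIT / RT-NONMIN, leaf GROWTH, second form

`card_omega_growth_tors`: as `card_omega_growth`, but the relation `α' ∘ α = e` (`e : 𝒪`) is
required on `M[𝔭]` only (needed for the step at `p`, where `α' ∘ α = u (A² - 1)` and `A` is a
scalar on the eigenspace only).
-/

set_option autoImplicit false
set_option linter.style.haveILetI false

open Module

namespace Fermat.Agent.S59.NumCrit.H90

/-- **GROWTH**, with the relation `α' ∘ α = e` required on `M[𝔭]` only: the congruence module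
grows by `e^d`, `d = rank M[𝔭]`. -/
theorem card_omega_growth_tors {𝒪 : Type*} [CommRing 𝒪] [IsDomain 𝒪] [IsDiscreteValuationRing 𝒪]
    [Finite (IsLocalRing.ResidueField 𝒪)]
    {T T' : Type*} [CommRing T] [Algebra 𝒪 T] [CommRing T'] [Algebra 𝒪 T']
    (θ : T' →ₐ[𝒪] T) (π : T →ₐ[𝒪] 𝒪)
    {M M' : Type*} [AddCommGroup M] [Module T M] [Module 𝒪 M] [IsScalarTower 𝒪 T M]
    [Module.Finite 𝒪 M] [Module.Free 𝒪 M]
    [AddCommGroup M'] [Module T' M'] [Module 𝒪 M'] [IsScalarTower 𝒪 T' M']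
    [Module.Finite 𝒪 M'] [Module.Free 𝒪 M']
    (hη : eta π ≠ ⊥) (hη' : eta (π.comp θ) ≠ ⊥)
    (α : M →ₗ[𝒪] M') (hα : ∀ (t : T') (m : M), α (θ t • m) = t • α m)
    (α' : M' →ₗ[𝒪] M) (hα' : ∀ (t : T') (m : M'), α' (t • m) = θ t • α' m)
    (hinj : Function.Injective α)
    (hsat : ∀ (a : 𝒪) (m : M'), a ≠ 0 → a • m ∈ LinearMap.range α → m ∈ LinearMap.range α)
    (hsurj : Function.Surjective α')
    (e : 𝒪) (hc : ∀ m ∈ Submodule.torsionBySet T M (RingHom.ker π : Set T), α' (α m) = e • m)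
    (hrank : Module.finrank 𝒪
        ((Submodule.torsionBySet T' M' (RingHom.ker (π.comp θ) : Set T')).restrictScalars 𝒪)
      ≤ Module.finrank 𝒪
        ((Submodule.torsionBySet T M (RingHom.ker π : Set T)).restrictScalars 𝒪)) :
    Nat.card (M ⧸ omegaSub π M) * Nat.card (𝒪 ⧸ Ideal.span {e}) ^ Module.finrank 𝒪
        ((Submodule.torsionBySet T M (RingHom.ker π : Set T)).restrictScalars 𝒪)
      ≤ Nat.card (M' ⧸ omegaSub (π.comp θ) M') := by
  classical
  set L : Submodule T M := Submodule.torsionBySet T M (RingHom.ker π : Set T) with hL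
  set K : Submodule T M := Submodule.torsionBySet T M ((RingHom.ker π).annihilator : Set T)
    with hK
  set L' : Submodule T' M' := Submodule.torsionBySet T' M' (RingHom.ker (π.comp θ) : Set T')
    with hL'
  set K' : Submodule T' M' :=
    Submodule.torsionBySet T' M' ((RingHom.ker (π.comp θ)).annihilator : Set T') with hK'
  set L𝒪 : Submodule 𝒪 M := L.restrictScalars 𝒪 with hL𝒪
  set K𝒪 : Submodule 𝒪 M := K.restrictScalars 𝒪 with hK𝒪
  -- the submodules `A = e L + K ≤ B = L + K` of `M` and `B' = L' + K'` of `M'`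
  set A : Submodule 𝒪 M := L𝒪.map (LinearMap.lsmul 𝒪 M e) ⊔ K𝒪 with hA
  set B : Submodule 𝒪 M := (L ⊔ K).restrictScalars 𝒪 with hB
  set B' : Submodule 𝒪 M' := (L' ⊔ K').restrictScalars 𝒪 with hB'
  have hLB : ∀ {x : M}, x ∈ L → x ∈ B := fun hx =>
    (Submodule.restrictScalars_mem 𝒪 (L ⊔ K) _).mpr (Submodule.mem_sup_left hx)
  have hKB : ∀ {x : M}, x ∈ K → x ∈ B := fun hx =>
    (Submodule.restrictScalars_mem 𝒪 (L ⊔ K) _).mpr (Submodule.mem_sup_right hx)
  have hKA : ∀ {x : M}, x ∈ K → x ∈ A := fun hx => Submodule.mem_sup_right hx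
  have hcLA : ∀ {x : M}, x ∈ L → e • x ∈ A := fun {x} hx =>
    Submodule.mem_sup_left ⟨x, hx, rfl⟩
  have hAB : A ≤ B := by
    refine sup_le ?_ ?_
    · rintro _ ⟨l, hl, rfl⟩
      exact hLB (L𝒪.smul_mem e hl)
    · intro x hx
      exact hKB hx
  -- `α'` maps `B'` into `A`
  have hα'B' : B' ≤ A.comap α' := by
    intro m hm
    obtain ⟨l', hl', k', hk', rfl⟩ := Submodule.mem_sup.mp
      ((Submodule.restrictScalars_mem 𝒪 (L' ⊔ K') _).mp hm)
    rw [Submodule.mem_comap, map_add]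
    refine A.add_mem ?_ ?_
    · obtain ⟨l, hl, rfl⟩ := exists_map_eq_of_mem_torsionBySet_ker hα hinj hsat hrank hl'
      rw [hc l hl]
      exact hcLA hl
    · exact hKA (map_mem_torsionBySet_ann hη' hα' hk')
  -- the induced surjection `Ω(M') → M / A`
  let g : (M' ⧸ B') →ₗ[𝒪] (M ⧸ A) := Submodule.mapQ B' A α' hα'B'
  have hg : Function.Surjective g := by
    intro x
    obtain ⟨m, rfl⟩ := A.mkQ_surjective x
    obtain ⟨m', rfl⟩ := hsurj m
    exact ⟨B'.mkQ m', rfl⟩
  obtain ⟨hfin, -⟩ := H12.card_omega_le (π.comp θ) (M := M') hη'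
  haveI : Finite (M' ⧸ B') :=
    Finite.of_equiv _ (Submodule.Quotient.restrictScalarsEquiv 𝒪 (L' ⊔ K')).symm.toEquiv
  have h1 : Nat.card (M ⧸ A) ≤ Nat.card (M' ⧸ B') := Nat.card_le_card_of_surjective g hg
  -- the surjection `M / A → M / B` and its kernel
  let f : (M ⧸ A) →ₗ[𝒪] (M ⧸ B) := Submodule.factor hAB
  have hf : Function.Surjective f := Submodule.factor_surjective hAB
  have h2 := card_eq_card_mul_card_ker f hf
  let u : L𝒪 →ₗ[𝒪] (M ⧸ A) := A.mkQ.comp L𝒪.subtype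
  have hku : LinearMap.ker u = H12.smulTop e L𝒪 := by
    ext x
    rw [LinearMap.mem_ker, H12.mem_smulTop]
    show A.mkQ (x : M) = 0 ↔ _
    rw [Submodule.mkQ_apply, Submodule.Quotient.mk_eq_zero]
    constructor
    · intro hx
      obtain ⟨y, ⟨l₁, hl₁, rfl⟩, k, hk, hyk⟩ := Submodule.mem_sup.mp hx
      have hk0 : k = 0 := by
        refine torsionBySet_ker_inf_ann hη ?_ hk
        have : k = (x : M) - e • l₁ := by
          rw [← hyk]
          show k = (e • l₁ + k) - e • l₁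
          abel
        rw [this]
        exact L𝒪.sub_mem x.2 (L𝒪.smul_mem e hl₁)
      refine ⟨⟨l₁, hl₁⟩, Subtype.ext ?_⟩
      rw [← hyk, hk0, add_zero]
      rfl
    · rintro ⟨y, rfl⟩
      exact hcLA y.2
  have hru : LinearMap.range u = LinearMap.ker f := by
    ext x
    rw [LinearMap.mem_range, LinearMap.mem_ker]
    constructor
    · rintro ⟨l, rfl⟩
      show Submodule.factor hAB (A.mkQ (l : M)) = 0
      rw [Submodule.factor_mk, Submodule.mkQ_apply, Submodule.Quotient.mk_eq_zero]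
      exact hLB l.2
    · intro hx
      obtain ⟨m, rfl⟩ := A.mkQ_surjective x
      have hm : m ∈ B := by
        have : Submodule.factor hAB (A.mkQ m) = 0 := hx
        rwa [Submodule.factor_mk, Submodule.mkQ_apply, Submodule.Quotient.mk_eq_zero] at this
      obtain ⟨l, hl, k, hk, rfl⟩ := Submodule.mem_sup.mp
        ((Submodule.restrictScalars_mem 𝒪 (L ⊔ K) _).mp hm)
      refine ⟨⟨l, hl⟩, ?_⟩
      show A.mkQ l = A.mkQ (l + k)
      have hk0 : A.mkQ k = 0 := by
        rw [Submodule.mkQ_apply, Submodule.Quotient.mk_eq_zero]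
        exact hKA hk
      rw [map_add, hk0, add_zero]
  have h3 : Nat.card (LinearMap.ker f)
      = Nat.card (𝒪 ⧸ Ideal.span {e}) ^ Module.finrank 𝒪 L𝒪 := by
    rw [← hru, card_range_eq_card_quotient_ker, hku, H12.card_quotient_smulTop]
  -- conclusion
  have h4 : Nat.card (M ⧸ omegaSub π M) = Nat.card (M ⧸ B) :=
    Nat.card_congr (Submodule.Quotient.restrictScalarsEquiv 𝒪 (L ⊔ K)).symm.toEquiv
  have h5 : Nat.card (M' ⧸ omegaSub (π.comp θ) M') = Nat.card (M' ⧸ B') :=
    Nat.card_congr (Submodule.Quotient.restrictScalarsEquiv 𝒪 (L' ⊔ K')).symm.toEquiv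
  rw [h4, h5, ← h3, ← h2]
  exact h1

end Fermat.Agent.S59.NumCrit.H90
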