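import Mathlib

/-!
# S59 NUMCRIT: shared definitions

`linPart n 𝒪` : the linear part `𝒪⟦X_1..X_n⟧ → 𝒪^n` of a power series;
`eta π` : the congruence ideal `π (Ann (ker π))` of an augmentation `π : A → 𝒪`.
-/

set_option autoImplicit false

namespace Fermat.Agent.S59.NumCrit

/-- the linear part of a power series: the coefficients of `X_1, …, X_n`. -/
noncomputable def linPart (n : ℕ) (𝒪 : Type*) [CommRing 𝒪] :
    MvPowerSeries (Fin n) 𝒪 →ₗ[𝒪] (Fin n → 𝒪) :=
  LinearMap.pi fun i => MvPowerSeries.coeff (R := 𝒪) (Finsupp.single i 1)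

theorem linPart_apply (n : ℕ) (𝒪 : Type*) [CommRing 𝒪] (f : MvPowerSeries (Fin n) 𝒪) (i : Fin n) :
    linPart n 𝒪 f i = MvPowerSeries.coeff (Finsupp.single i 1) f := rfl

/-- the congruence ideal `η = π (Ann (ker π))` of an augmentation `π : A → 𝒪`. -/
def eta {𝒪 A : Type*} [CommRing 𝒪] [CommRing A] [Algebra 𝒪 A] (π : A →ₐ[𝒪] 𝒪) : Ideal 𝒪 :=
  Ideal.map π (RingHom.ker π).annihilator

end Fermat.Agent.S59.NumCrit
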