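import Fermat.Agent.S59.NumCrit.H85_NC2
import Fermat.Agent.S59.NumCrit.H12_CardRows

/-!
# S59 NUMCRIT, NC2 (Tate), unconditional

`nc2`: helper85's `H85.nc2_of_card` with CARD' (`H12.card_quotient_span_rows`) plugged in.
-/

set_option autoImplicit false

open MvPowerSeries

namespace Fermat.Agent.S59.NumCrit.H12

/-- **NC2 (Tate)**: for a complete intersection `A = 𝒪⟦X₁, …, Xₙ⟧ / (g₁, …, gₙ)`, finite free over
the discrete valuation ring `𝒪`, with augmentation `π`: `#(ker π / (ker π)²) = #(𝒪 / η_π)`. -/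
theorem nc2 {𝒪 : Type*} [CommRing 𝒪] [IsDomain 𝒪] [IsDiscreteValuationRing 𝒪]
    [Finite (IsLocalRing.ResidueField 𝒪)]
    {A : Type*} [CommRing A] [Algebra 𝒪 A] [Module.Finite 𝒪 A] [Module.Free 𝒪 A] {n : ℕ}
    (ψ : MvPowerSeries (Fin n) 𝒪 →ₐ[𝒪] A) (hψ : Function.Surjective ψ) (π : A →ₐ[𝒪] 𝒪)
    (hπ : ∀ i, π (ψ (X i)) = 0)
    (g : Fin n → MvPowerSeries (Fin n) 𝒪) (hg : RingHom.ker ψ = Ideal.span (Set.range g)) :
    Nat.card (RingHom.ker π).Cotangent = Nat.card (𝒪 ⧸ eta π) :=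
  H85.nc2_of_card (fun B hB => card_quotient_span_rows n B hB) ψ hψ π hπ g hg

end Fermat.Agent.S59.NumCrit.H12
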