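import Mathlib

set_option autoImplicit false

/-!
# S59, NUMCRIT (helper85): the leaf DIM

`exists_X_pow_mem_ofList` : in `k⟦X_1, …, X_n⟧` a weakly regular sequence of length `n` of
power series without constant term generates an ideal containing a power of every variable.

Proof: `dim k⟦X⟧ ≤ n` (induction along `finSuccEquiv`, Krull's height theorem), so
`dim k⟦X⟧/(ys) ≤ 0` (`ringKrullDim_add_length_eq_ringKrullDim_of_isRegular`), so the quotient is
Artinian and its Jacobson radical, which contains the variables, is nilpotent.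
-/

noncomputable section

open MvPowerSeries

namespace Fermat.Agent.S59.NumCrit.H85

/-- `dim R⟦X⟧ ≤ dim R + 1` for a Noetherian ring `R`. -/
theorem ringKrullDim_powerSeries_le (R : Type*) [CommRing R] [IsNoetherianRing R] :
    ringKrullDim (PowerSeries R) ≤ ringKrullDim R + 1 := by
  have hX : ((({PowerSeries.X} : Finset (PowerSeries R)) : Set (PowerSeries R)))
      ⊆ Ring.jacobson (PowerSeries R) := by
    intro x hx
    rw [Finset.coe_singleton, Set.mem_singleton_iff] at hx
    subst hx
    rw [SetLike.mem_coe, ← Ideal.jacobson_bot, Ideal.mem_jacobson_bot]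
    intro y
    rw [PowerSeries.isUnit_iff_constantCoeff]
    simp
  have h1 := ringKrullDim_le_ringKrullDim_quotient_add_card
    ({PowerSeries.X} : Finset (PowerSeries R)) hX
  rw [Finset.coe_singleton, Finset.card_singleton] at h1
  have hker : RingHom.ker (PowerSeries.constantCoeff (R := R))
      = Ideal.span {PowerSeries.X} := by
    ext f
    rw [RingHom.mem_ker, Ideal.mem_span_singleton, PowerSeries.X_dvd_iff]
  have hsurj : Function.Surjective (PowerSeries.constantCoeff (R := R)) := fun r =>
    ⟨PowerSeries.C r, PowerSeries.constantCoeff_C r⟩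
  let e : (PowerSeries R ⧸ Ideal.span {(PowerSeries.X : PowerSeries R)}) ≃+* R :=
    (Ideal.quotEquivOfEq hker.symm).trans
      (RingHom.quotientKerEquivOfSurjective hsurj)
  rw [ringKrullDim_eq_of_ringEquiv e] at h1
  exact_mod_cast h1

/-- `dim R⟦X_1, …, X_n⟧ ≤ dim R + n` for a Noetherian ring `R`. -/
theorem ringKrullDim_mvPowerSeries_le (R : Type*) [CommRing R] [IsNoetherianRing R] (n : ℕ) :
    ringKrullDim (MvPowerSeries (Fin n) R) ≤ ringKrullDim R + n := by
  induction n with
  | zero =>
    rw [ringKrullDim_eq_of_ringEquiv (MvPowerSeries.isEmptyEquiv (Fin 0) R).toRingEquiv]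
    simp
  | succ n ih =>
    rw [ringKrullDim_eq_of_ringEquiv (MvPowerSeries.finSuccEquiv R n).toRingEquiv]
    refine (ringKrullDim_powerSeries_le (MvPowerSeries (Fin n) R)).trans ?_
    calc ringKrullDim (MvPowerSeries (Fin n) R) + 1
        ≤ ringKrullDim R + n + 1 := by gcongr
      _ = ringKrullDim R + ((n + 1 : ℕ) : WithBot ℕ∞) := by
          rw [add_assoc]; norm_cast

/-- **DIM.** -/
theorem exists_X_pow_mem_ofList {k : Type*} [Field k] (n : ℕ)
    (ys : List (MvPowerSeries (Fin n) k)) (hlen : ys.length = n)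
    (hmem : ∀ y ∈ ys, constantCoeff y = 0)
    (hreg : RingTheory.Sequence.IsWeaklyRegular (MvPowerSeries (Fin n) k) ys) :
    ∃ N : ℕ, ∀ i, (X i : MvPowerSeries (Fin n) k) ^ N ∈ Ideal.ofList ys := by
  -- the ideal is contained in the kernel of the constant coefficient
  have hle : Ideal.ofList ys ≤ RingHom.ker (constantCoeff (σ := Fin n) (R := k)) := by
    rw [Ideal.ofList, Ideal.span_le]
    intro y hy
    exact (RingHom.mem_ker).mpr (hmem y hy)
  have hne : Ideal.ofList ys ≠ ⊤ := by
    intro h
    have h1 : (1 : MvPowerSeries (Fin n) k) ∈ RingHom.ker (constantCoeff (σ := Fin n) (R := k)) :=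
      hle (h ▸ Submodule.mem_top)
    rw [RingHom.mem_ker, map_one] at h1
    exact one_ne_zero h1
  have hreg' : RingTheory.Sequence.IsRegular (MvPowerSeries (Fin n) k) ys :=
    ⟨hreg, by
      intro h
      apply hne
      rw [← Ideal.mul_top (Ideal.ofList ys)]
      exact h.symm⟩
  have h1 := ringKrullDim_add_length_eq_ringKrullDim_of_isRegular ys hreg'
  have h2 := ringKrullDim_mvPowerSeries_le k n
  rw [ringKrullDim_eq_zero_of_field, zero_add, ← h1, hlen] at h2
  -- the quotient has dimension `≤ 0`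
  have h3 : ringKrullDim (MvPowerSeries (Fin n) k ⧸ Ideal.ofList ys) ≤ 0 := by
    generalize ringKrullDim (MvPowerSeries (Fin n) k ⧸ Ideal.ofList ys) = d at h2
    induction d using WithBot.recBotCoe with
    | bot => exact bot_le
    | coe a =>
      have h4 : ((a + (n : ℕ∞) : ℕ∞) : WithBot ℕ∞) ≤ ((n : ℕ∞) : WithBot ℕ∞) := by
        exact_mod_cast h2
      have h5 : a + (n : ℕ∞) ≤ 0 + (n : ℕ∞) := by
        rw [zero_add]
        exact WithBot.coe_le_coe.mp h4
      have h6 : a ≤ 0 := (WithTop.add_le_add_iff_right (ENat.natCast_ne_top n)).mp h5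
      exact_mod_cast h6
  have : Ring.KrullDimLE 0 (MvPowerSeries (Fin n) k ⧸ Ideal.ofList ys) :=
    Ring.krullDimLE_iff.mpr (by exact_mod_cast h3)
  have : IsArtinianRing (MvPowerSeries (Fin n) k ⧸ Ideal.ofList ys) :=
    isArtinianRing_iff_krullDimLE_zero.mpr inferInstance
  obtain ⟨N, hN⟩ := IsArtinianRing.isNilpotent_jacobson_bot
    (R := MvPowerSeries (Fin n) k ⧸ Ideal.ofList ys)
  refine ⟨N, fun i => ?_⟩
  have hX : Ideal.Quotient.mk (Ideal.ofList ys) (X i)
      ∈ Ideal.jacobson (⊥ : Ideal (MvPowerSeries (Fin n) k ⧸ Ideal.ofList ys)) := by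
    rw [Ideal.mem_jacobson_bot]
    intro y
    obtain ⟨y, rfl⟩ := Ideal.Quotient.mk_surjective y
    rw [← map_mul, ← map_one (Ideal.Quotient.mk (Ideal.ofList ys)), ← map_add]
    apply IsUnit.map
    rw [MvPowerSeries.isUnit_iff_constantCoeff]
    simp
  have h7 := Ideal.pow_mem_pow hX N
  rw [hN, Ideal.zero_eq_bot, Ideal.mem_bot, ← map_pow, Ideal.Quotient.eq_zero_iff_mem] at h7
  exact h7

end Fermat.Agent.S59.NumCrit.H85

end
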