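import Fermat.Agent.S59.NumCrit.H90_CI

/-!
# S59 NUMCRIT (helper85): NC2 (Tate)

`nc2_of_card` : for a complete intersection `A = 𝒪⟦X_1..X_n⟧/(g_1..g_n)`, finite free over the
discrete valuation ring `𝒪`, with augmentation `π`:  `#Φ_A = #(𝒪/η_A)`
(the hypothesis `hcard` is CARD', the cardinality of `𝒪^n / rowspace B` for `det B ≠ 0`).
-/

set_option autoImplicit false
set_option linter.style.haveILetI false
set_option linter.unusedSectionVars false

namespace Fermat.Agent.S59.NumCrit.H85

open MvPowerSeries Fermat.Agent.S59.NumCrit.H90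

section lin

variable {𝒪 : Type*} [CommRing 𝒪] {A : Type*} [CommRing A] [Algebra 𝒪 A] {n : ℕ}
  {ψ : MvPowerSeries (Fin n) 𝒪 →ₐ[𝒪] A} {π : A →ₐ[𝒪] 𝒪}

/-- Step 1: the linear parts of the relations are the row space of `B = (ℓ(g_i))`. -/
theorem map_linPart_ker (hπ : ∀ i, π (ψ (X i)) = 0) (g : Fin n → MvPowerSeries (Fin n) 𝒪)
    (hg : RingHom.ker ψ = Ideal.span (Set.range g)) :
    Submodule.map (linPart n 𝒪) ((RingHom.ker ψ).restrictScalars 𝒪)
      = Submodule.span 𝒪 (Set.range fun i =>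
          (Matrix.of fun i => linPart n 𝒪 (g i) : Matrix (Fin n) (Fin n) 𝒪) i) := by
  have hgk : ∀ i, g i ∈ RingHom.ker ψ := fun i => by
    rw [hg]; exact Ideal.subset_span ⟨i, rfl⟩
  apply le_antisymm
  · rintro _ ⟨f, hf, rfl⟩
    have hf' : f ∈ Ideal.span (Set.range g) := by rw [← hg]; exact hf
    obtain ⟨c, rfl⟩ := (Ideal.mem_span_range_iff_exists_fun
      (R := MvPowerSeries (Fin n) 𝒪)).mp hf'
    rw [map_sum]
    refine Submodule.sum_mem _ fun i _ => ?_
    rw [linPart_mul _ _ (ker_psi_le hπ (hgk i))]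
    exact Submodule.smul_mem _ _ (Submodule.subset_span ⟨i, rfl⟩)
  · rw [Submodule.span_le]
    rintro _ ⟨i, rfl⟩
    exact ⟨g i, hgk i, rfl⟩

/-- an element of `η` kills the cotangent space. -/
theorem smul_mem_sq_of_mem_annihilator {t : A} (ht : t ∈ (RingHom.ker π).annihilator)
    {a : A} (ha : a ∈ RingHom.ker π) : (π t) • a ∈ (RingHom.ker π) ^ 2 := by
  have h1 : (π t) • a = (algebraMap 𝒪 A (π t) - t) * a + t * a := by
    rw [Algebra.smul_def]; ring
  have h2 : t * a = 0 := by
    have := (Submodule.mem_annihilator.mp ht) a ha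
    rwa [smul_eq_mul] at this
  have h3 : algebraMap 𝒪 A (π t) - t ∈ RingHom.ker π := by
    rw [RingHom.mem_ker, map_sub, AlgHom.commutes, Algebra.algebraMap_self, RingHom.id_apply,
      sub_self]
  rw [h1, h2, add_zero, pow_two]
  exact Ideal.mul_mem_mul h3 ha

end lin

section rows

variable {𝒪 : Type*} [CommRing 𝒪] [IsDomain 𝒪] {n : ℕ}

/-- if a nonzero scalar multiple of the whole space lies in the row space, `det B ≠ 0`. -/
theorem det_ne_zero_of_smul_mem (B : Matrix (Fin n) (Fin n) 𝒪) {e : 𝒪} (he : e ≠ 0)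
    (h : ∀ c : Fin n → 𝒪, e • c ∈ Submodule.span 𝒪 (Set.range fun i => B i)) : B.det ≠ 0 := by
  classical
  have h1 : ∀ i : Fin n, ∃ c : Fin n → 𝒪, ∑ j, c j • B j = e • (Pi.single i (1 : 𝒪)) := fun i =>
    (Submodule.mem_span_range_iff_exists_fun 𝒪).mp (h (Pi.single i 1))
  choose C hC using h1
  have h2 : (Matrix.of C) * B = e • (1 : Matrix (Fin n) (Fin n) 𝒪) := by
    ext i j
    have := congrFun (hC i) j
    rw [Finset.sum_apply] at this
    rw [Matrix.mul_apply, Matrix.smul_apply, Matrix.one_apply]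
    simp only [Pi.smul_apply, smul_eq_mul, Matrix.of_apply] at this ⊢
    rw [this, Pi.single_apply]
    by_cases hij : i = j
    · rw [if_pos hij, if_pos hij.symm]
    · rw [if_neg hij, if_neg (Ne.symm hij)]
  intro hB
  have h3 := congrArg Matrix.det h2
  rw [Matrix.det_mul, hB, mul_zero, Matrix.det_smul, Matrix.det_one, mul_one] at h3
  exact pow_ne_zero _ he h3.symm

/-- if `det B = 0` the quotient by the row space is infinite (`𝒪` an infinite domain). -/
theorem infinite_quotient_of_det_eq_zero [Infinite 𝒪] (B : Matrix (Fin n) (Fin n) 𝒪)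
    (hB : B.det = 0) :
    Infinite ((Fin n → 𝒪) ⧸ Submodule.span 𝒪 (Set.range fun i => B i)) := by
  classical
  obtain ⟨v, hv, hBv⟩ := Matrix.exists_mulVec_eq_zero_iff.mpr hB
  -- the functional `x ↦ x ⬝ v`
  let φ : (Fin n → 𝒪) →ₗ[𝒪] 𝒪 :=
    { toFun := fun x => x ⬝ᵥ v
      map_add' := fun x y => add_dotProduct x y v
      map_smul' := fun a x => by rw [smul_dotProduct]; rfl }
  have hφ : Submodule.span 𝒪 (Set.range fun i => B i) ≤ LinearMap.ker φ := by
    rw [Submodule.span_le]
    rintro _ ⟨i, rfl⟩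
    exact congrFun hBv i
  obtain ⟨i, hi⟩ : ∃ i, v i ≠ 0 := by
    by_contra hcon
    push Not at hcon
    exact hv (funext hcon)
  let φ' := (Submodule.span 𝒪 (Set.range fun i => B i)).liftQ φ hφ
  have hinj : Function.Injective (fun a : 𝒪 =>
      (Submodule.Quotient.mk (a • (Pi.single i (1 : 𝒪) : Fin n → 𝒪)) :
        (Fin n → 𝒪) ⧸ Submodule.span 𝒪 (Set.range fun i => B i))) := by
    intro a b hab
    have h1 := congrArg φ' hab
    simp only [φ', Submodule.liftQ_apply] at h1
    have h2 : ∀ a : 𝒪, φ (a • (Pi.single i (1 : 𝒪) : Fin n → 𝒪)) = a * v i := by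
      intro a
      show (a • (Pi.single i (1 : 𝒪) : Fin n → 𝒪)) ⬝ᵥ v = a * v i
      rw [smul_dotProduct, single_dotProduct, one_mul, smul_eq_mul]
    rw [h2, h2] at h1
    exact mul_right_cancel₀ hi h1
  exact Infinite.of_injective _ hinj

end rows

section main

variable {𝒪 : Type*} [CommRing 𝒪] [IsDomain 𝒪] [IsDiscreteValuationRing 𝒪]
  {A : Type*} [CommRing A] [Algebra 𝒪 A] [Module.Finite 𝒪 A] [Module.Free 𝒪 A] {n : ℕ}

/-- the element `ψ (det M)` is not divisible by a uniformiser. -/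
theorem psi_det_not_smul (ψ : MvPowerSeries (Fin n) 𝒪 →ₐ[𝒪] A) (hψ : Function.Surjective ψ)
    (M : Matrix (Fin n) (Fin n) (MvPowerSeries (Fin n) 𝒪))
    (hM : RingHom.ker ψ = Ideal.span (Set.range
      (M.mulVec fun k => (X k : MvPowerSeries (Fin n) 𝒪))))
    {ϖ : 𝒪} (hϖ : IsLocalRing.maximalIdeal 𝒪 = Ideal.span {ϖ}) :
    ¬ ∃ t : A, ψ M.det = ϖ • t := by
  rintro ⟨t, ht⟩
  have h1 := red_mem_of_psi_eq_smul hψ hϖ ht
  have h2 : Ideal.map (red 𝒪 n) (RingHom.ker ψ)
      = Ideal.span (Set.range ((M.map (red 𝒪 n)).mulVec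
          fun j => (X j : MvPowerSeries (Fin n) (IsLocalRing.ResidueField 𝒪)))) := by
    rw [hM, map_red_span_range]
    congr 2
    funext i
    exact (red_mulVec M i).symm
  obtain ⟨N, hN⟩ := exists_X_pow_mem_map n ψ
  have h3 : ∀ i, (X i : MvPowerSeries (Fin n) (IsLocalRing.ResidueField 𝒪)) ^ N
      ∈ Ideal.span (Set.range ((M.map (red 𝒪 n)).mulVec
          fun j => (X j : MvPowerSeries (Fin n) (IsLocalRing.ResidueField 𝒪)))) := by
    intro i
    rw [← h2]
    exact hN i
  have h4 := det_notMem_span N (M.map (red 𝒪 n)) h3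
  apply h4
  rw [← h2]
  have h5 : (M.map (red 𝒪 n)).det = red 𝒪 n M.det := by
    rw [RingHom.map_det]
    rfl
  rw [h5]
  exact h1

/-- **NC2 (Tate)**, modulo CARD'. -/
theorem nc2_of_card [Finite (IsLocalRing.ResidueField 𝒪)]
    (hcard : ∀ B : Matrix (Fin n) (Fin n) 𝒪, B.det ≠ 0 →
      Nat.card ((Fin n → 𝒪) ⧸ Submodule.span 𝒪 (Set.range fun i => B i))
        = Nat.card (𝒪 ⧸ Ideal.span {B.det}))
    (ψ : MvPowerSeries (Fin n) 𝒪 →ₐ[𝒪] A) (hψ : Function.Surjective ψ) (π : A →ₐ[𝒪] 𝒪)
    (hπ : ∀ i, π (ψ (X i)) = 0)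
    (g : Fin n → MvPowerSeries (Fin n) 𝒪) (hg : RingHom.ker ψ = Ideal.span (Set.range g)) :
    Nat.card (RingHom.ker π).Cotangent = Nat.card (𝒪 ⧸ eta π) := by
  classical
  have hgk : ∀ i, g i ∈ RingHom.ker ψ := fun i => by
    rw [hg]; exact Ideal.subset_span ⟨i, rfl⟩
  obtain ⟨M, hM⟩ := exists_matrix_mulVec g fun i => ker_psi_le hπ (hgk i)
  obtain ⟨B, hB⟩ : ∃ B : Matrix (Fin n) (Fin n) 𝒪, B = Matrix.of fun i => linPart n 𝒪 (g i) :=
    ⟨_, rfl⟩
  have hδ : π (ψ M.det) = B.det := by
    rw [pi_psi_det hπ, hM, hB]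
  -- the cotangent space
  obtain ⟨e⟩ := cotangent_linearEquiv n ψ hψ π hπ
  have hrow : Submodule.map (linPart n 𝒪) ((RingHom.ker ψ).restrictScalars 𝒪)
      = Submodule.span 𝒪 (Set.range fun i => B i) := by
    rw [hB]; exact map_linPart_ker hπ g hg
  have hcot : Nat.card (RingHom.ker π).Cotangent
      = Nat.card ((Fin n → 𝒪) ⧸ Submodule.span 𝒪 (Set.range fun i => B i)) :=
    Nat.card_congr (e.trans (Submodule.quotEquivOfEq _ _ hrow)).toEquiv
  have hann : ψ M.det ∈ (RingHom.ker π).annihilator :=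
    psi_det_mem_annihilator hψ hπ M (fun i => by rw [hM]; exact hgk i)
  -- `𝒪` is infinite
  haveI : Infinite 𝒪 := by
    by_contra hfin
    rw [not_infinite_iff_finite] at hfin
    exact IsDiscreteValuationRing.not_isField 𝒪 (Finite.isField_of_domain 𝒪)
  by_cases hdet : B.det = 0
  · -- both cardinalities vanish
    haveI := infinite_quotient_of_det_eq_zero B hdet
    rw [hcot, Nat.card_eq_zero_of_infinite]
    have heta : eta π = ⊥ := by
      rw [eq_bot_iff]
      intro a ha
      rw [mem_eta_iff] at ha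
      obtain ⟨t, ht, rfl⟩ := ha
      rw [Ideal.mem_bot]
      by_contra hne
      refine det_ne_zero_of_smul_mem B hne (fun c => ?_) hdet
      -- `π t • c` dies in the cotangent space
      have h1 : (e.trans (Submodule.quotEquivOfEq _ _ hrow)).symm
          (Submodule.Quotient.mk (π t • c)) = 0 := by
        rw [Submodule.Quotient.mk_smul, map_smul]
        obtain ⟨⟨a, ha⟩, hx⟩ := Ideal.toCotangent_surjective _
          ((e.trans (Submodule.quotEquivOfEq _ _ hrow)).symm (Submodule.Quotient.mk c))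
        rw [← hx, ← LinearMap.map_smul_of_tower, Ideal.toCotangent_eq_zero]
        exact smul_mem_sq_of_mem_annihilator ht ha
      have h2 := (LinearEquiv.map_eq_zero_iff _).mp h1
      exact (Submodule.Quotient.mk_eq_zero _).mp h2
    rw [heta]
    haveI : Infinite (𝒪 ⧸ (⊥ : Ideal 𝒪)) :=
      Infinite.of_injective _ (RingEquiv.quotientBot 𝒪).symm.injective
    rw [Nat.card_eq_zero_of_infinite]
  · -- `η = (δ)`
    rw [hcot, hcard B hdet]
    obtain ⟨ϖ, hϖ⟩ := IsDiscreteValuationRing.exists_irreducible 𝒪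
    have hϖ' : IsLocalRing.maximalIdeal 𝒪 = Ideal.span {ϖ} := hϖ.maximalIdeal_eq
    have hnot := psi_det_not_smul ψ hψ M (by rw [hM]; exact hg) hϖ'
    -- `π` is injective on the annihilator
    have hinj : ∀ t ∈ (RingHom.ker π).annihilator, π t = 0 → t = 0 := by
      intro t ht ht0
      have h1 : t * ψ M.det = 0 := by
        have := (Submodule.mem_annihilator.mp hann) t ((RingHom.mem_ker).mpr ht0)
        rwa [smul_eq_mul, mul_comm] at this
      have h2 : t * (ψ M.det - algebraMap 𝒪 A B.det) = 0 := by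
        have h3 : ψ M.det - algebraMap 𝒪 A B.det ∈ RingHom.ker π := by
          rw [RingHom.mem_ker, map_sub, hδ, AlgHom.commutes, Algebra.algebraMap_self,
            RingHom.id_apply, sub_self]
        have := (Submodule.mem_annihilator.mp ht) _ h3
        rwa [smul_eq_mul] at this
      have h4 : B.det • t = 0 := by
        rw [Algebra.smul_def, mul_comm]
        rw [mul_sub, h1, zero_sub, neg_eq_zero] at h2
        exact h2
      rcases smul_eq_zero.mp h4 with h | h
      · exact absurd h hdet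
      · exact h
    have heta : eta π = Ideal.span {B.det} := by
      apply le_antisymm
      · intro a ha
        rw [mem_eta_iff] at ha
        obtain ⟨t, ht, rfl⟩ := ha
        rw [Ideal.mem_span_singleton]
        rcases ValuationRing.dvd_total B.det (π t) with h | h
        · exact h
        · obtain ⟨c, hc⟩ := h
          by_cases hcu : IsUnit c
          · obtain ⟨u, rfl⟩ := hcu
            exact ⟨(u⁻¹ : 𝒪ˣ), by rw [hc, mul_assoc, Units.mul_inv, mul_one]⟩
          · exfalso
            have hcm : c ∈ IsLocalRing.maximalIdeal 𝒪 := (IsLocalRing.mem_maximalIdeal c).mpr hcu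
            rw [hϖ', Ideal.mem_span_singleton] at hcm
            obtain ⟨a', rfl⟩ := hcm
            apply hnot
            refine ⟨a' • t, ?_⟩
            have h5 : ψ M.det - (ϖ * a') • t = 0 := by
              apply hinj
              · exact Submodule.sub_mem _ hann (Submodule.smul_of_tower_mem _ _ ht)
              · rw [map_sub, hδ, map_smul, smul_eq_mul, hc]
                ring
            rw [smul_smul]
            exact sub_eq_zero.mp h5
      · rw [Ideal.span_le, Set.singleton_subset_iff, SetLike.mem_coe, hB]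
        exact det_linPart_mem_eta hψ hπ g hgk
    rw [heta]

end main

end Fermat.Agent.S59.NumCrit.H85
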