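import Mathlib

/-!
# S59 NUMCRIT, leaf AVOID (helper8): coset prime avoidance

`coset_prime_avoidance`: for an ideal `I` contained in none of finitely many prime ideals `q`, every
coset `c + I` contains an element lying in none of the `q`.
-/

set_option autoImplicit false

namespace Fermat.Agent.S59.NumCrit.H8

/-- **AVOID**: coset prime avoidance. -/
theorem coset_prime_avoidance {R : Type*} [CommRing R] (I : Ideal R) (c : R)
    (s : Finset (Ideal R)) (hs : ∀ q ∈ s, q.IsPrime) (hI : ∀ q ∈ s, ¬ I ≤ q) :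
    ∃ x ∈ I, ∀ q ∈ s, c + x ∉ q := by
  classical
  induction s using Finset.strongInduction with
  | H s ih =>
    rcases s.eq_empty_or_nonempty with rfl | hne
    · exact ⟨0, I.zero_mem, by simp⟩
    obtain ⟨q₀, hq₀s, hmin⟩ : ∃ q₀ ∈ s, ∀ q ∈ s, q ≤ q₀ → q = q₀ := by
      obtain ⟨q₀, hq₀⟩ := s.exists_minimal hne
      exact ⟨q₀, hq₀.1, fun q hq hle => le_antisymm hle (hq₀.2 hq hle)⟩
    obtain ⟨x', hx'I, hx'⟩ := ih (s.erase q₀) (Finset.erase_ssubset hq₀s)
      (fun q hq => hs q (Finset.mem_of_mem_erase hq))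
      (fun q hq => hI q (Finset.mem_of_mem_erase hq))
    by_cases hc : c + x' ∈ q₀
    · have hq₀prime := hs q₀ hq₀s
      obtain ⟨a, haI, haq⟩ : ∃ a ∈ I, a ∉ q₀ := SetLike.not_le_iff_exists.mp (hI q₀ hq₀s)
      have hb : ∀ q ∈ s.erase q₀, ∃ b ∈ q, b ∉ q₀ := by
        intro q hq
        have hq' := Finset.mem_erase.mp hq
        have : ¬ q ≤ q₀ := fun hle => hq'.1 (hmin q hq'.2 hle)
        exact SetLike.not_le_iff_exists.mp this
      choose! b hbq hbq₀ using hb
      have hyI : a * ∏ q ∈ s.erase q₀, b q ∈ I := I.mul_mem_right _ haI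
      have hyq : ∀ q ∈ s.erase q₀, a * ∏ q ∈ s.erase q₀, b q ∈ q := by
        intro q hq
        refine Ideal.mul_mem_left _ _ ?_
        rw [← Finset.mul_prod_erase _ _ hq]
        exact Ideal.mul_mem_right _ _ (hbq q hq)
      have hyq₀ : a * ∏ q ∈ s.erase q₀, b q ∉ q₀ := by
        intro h
        rcases hq₀prime.mem_or_mem h with h | h
        · exact haq h
        · obtain ⟨q, hq, hbq'⟩ := (hq₀prime.prod_mem_iff).mp h
          exact hbq₀ q hq hbq'
      refine ⟨x' + a * ∏ q ∈ s.erase q₀, b q, I.add_mem hx'I hyI, fun q hq => ?_⟩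
      by_cases hqq : q = q₀
      · subst hqq
        intro h
        apply hyq₀
        have := q.sub_mem h hc
        rwa [show c + (x' + a * ∏ q ∈ s.erase q, b q) - (c + x') = a * ∏ q ∈ s.erase q, b q by
          ring] at this
      · have hq' : q ∈ s.erase q₀ := Finset.mem_erase.mpr ⟨hqq, hq⟩
        intro h
        apply hx' q hq'
        have := q.sub_mem h (hyq q hq')
        rwa [show c + (x' + a * ∏ q ∈ s.erase q₀, b q) - a * ∏ q ∈ s.erase q₀, b q = c + x' by
          ring] at this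
    · refine ⟨x', hx'I, fun q hq => ?_⟩
      by_cases hqq : q = q₀
      · subst hqq
        exact hc
      · exact hx' q (Finset.mem_erase.mpr ⟨hqq, hq⟩)

end Fermat.Agent.S59.NumCrit.H8
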