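/-
S59 NUMCRIT, leaf KAP (helper8): Kaplansky's theorem (Commutative Rings, Thm 121): for two weakly
`M`-regular sequences of the same length inside an ideal `I`, the `I`-socles of the two quotients
are isomorphic.  Elementary proof (no `Ext`): one-element exchange + prime avoidance + moving a
regular element to the front.
-/
import Mathlib

set_option autoImplicit false

open Submodule

namespace Fermat.Agent.S59.NumCrit.H8

/-! ### Part 0: generalities -/

section General

variable {R : Type*} [CommRing R]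

/-- A linear relation which is bi-total and bi-injective gives a linear equivalence. -/
theorem nonempty_linearEquiv_of_rel {P Q : Type*} [AddCommGroup P] [Module R P]
    [AddCommGroup Q] [Module R Q] (Γ : Submodule R (P × Q))
    (h1 : ∀ p, ∃ q, (p, q) ∈ Γ) (h2 : ∀ q, ∃ p, (p, q) ∈ Γ)
    (h3 : ∀ q, ((0 : P), q) ∈ Γ → q = 0) (h4 : ∀ p, (p, (0 : Q)) ∈ Γ → p = 0) :
    Nonempty (P ≃ₗ[R] Q) := by
  let f : Γ →ₗ[R] P := (LinearMap.fst R P Q).comp Γ.subtype
  let g : Γ →ₗ[R] Q := (LinearMap.snd R P Q).comp Γ.subtype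
  have hf : Function.Bijective f := by
    constructor
    · rw [← LinearMap.ker_eq_bot, eq_bot_iff]
      rintro ⟨⟨p, q⟩, hγ⟩ h
      have hp : p = 0 := h
      subst hp
      have hq := h3 q hγ
      subst hq
      rfl
    · intro p
      obtain ⟨q, hq⟩ := h1 p
      exact ⟨⟨(p, q), hq⟩, rfl⟩
  have hg : Function.Bijective g := by
    constructor
    · rw [← LinearMap.ker_eq_bot, eq_bot_iff]
      rintro ⟨⟨p, q⟩, hγ⟩ h
      have hq : q = 0 := h
      subst hq
      have hp := h4 p hγ
      subst hp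
      rfl
    · intro q
      obtain ⟨p, hp⟩ := h2 q
      exact ⟨⟨(p, q), hp⟩, rfl⟩
  exact ⟨(LinearEquiv.ofBijective f hf).symm.trans (LinearEquiv.ofBijective g hg)⟩

/-- The socle functor `torsionBySet · I` transports along linear equivalences. -/
noncomputable def socEquiv (I : Ideal R) {A B : Type*} [AddCommGroup A] [Module R A]
    [AddCommGroup B] [Module R B] (e : A ≃ₗ[R] B) :
    torsionBySet R A (I : Set R) ≃ₗ[R] torsionBySet R B (I : Set R) :=
  LinearEquiv.ofSubmodules e _ _ (by
    ext b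
    simp only [Submodule.mem_map, mem_torsionBySet_iff, SetLike.coe_sort_coe, Subtype.forall]
    constructor
    · rintro ⟨a, ha, rfl⟩ r hr
      rw [← map_smul, ha r hr, map_zero]
    · intro hb
      refine ⟨e.symm b, fun r hr => ?_, e.apply_symm_apply b⟩
      rw [← map_smul, hb r hr, map_zero])

end General

/-! ### Part 1: one-element exchange -/

section Exchange

variable {R : Type*} [CommRing R] (I : Ideal R) {A : Type*} [AddCommGroup A] [Module R A]

theorem quotSMulTop_mk_eq_zero_iff (a : R) (u : A) :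
    (Submodule.Quotient.mk u : QuotSMulTop a A) = 0 ↔ ∃ w : A, a • w = u := by
  rw [Submodule.Quotient.mk_eq_zero, Submodule.mem_smul_pointwise_iff_exists]
  simp

theorem exch_total {a z : R} (ha : IsSMulRegular A a) (hzI : z ∈ I)
    (p : torsionBySet R (QuotSMulTop a A) (I : Set R)) :
    ∃ q : torsionBySet R (QuotSMulTop z A) (I : Set R), ∃ u v : A,
      (Submodule.Quotient.mk u : QuotSMulTop a A) = p.1 ∧
      (Submodule.Quotient.mk v : QuotSMulTop z A) = q.1 ∧ z • u = a • v := by
  obtain ⟨⟨pbar, hp⟩, rfl⟩ : ∃ p' : torsionBySet R (QuotSMulTop a A) (I : Set R), p' = p :=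
    ⟨p, rfl⟩
  obtain ⟨u, rfl⟩ := Submodule.Quotient.mk_surjective _ pbar
  rw [mem_torsionBySet_iff] at hp
  have hmul : ∀ r ∈ I, ∃ w : A, a • w = r • u := by
    intro r hr
    have := hp ⟨r, hr⟩
    rw [← quotSMulTop_mk_eq_zero_iff]
    exact this
  obtain ⟨v, hv⟩ := hmul z hzI
  refine ⟨⟨Submodule.Quotient.mk v, ?_⟩, u, v, rfl, rfl, hv.symm⟩
  rw [mem_torsionBySet_iff]
  rintro ⟨r, hr⟩
  obtain ⟨w, hw⟩ := hmul r hr
  change (Submodule.Quotient.mk (r • v) : QuotSMulTop z A) = 0
  rw [quotSMulTop_mk_eq_zero_iff]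
  refine ⟨w, ha ?_⟩
  change a • z • w = a • r • v
  rw [smul_comm a z w, hw, smul_comm z r u, ← hv, smul_comm]

theorem exch_inj {a z : R} (ha : IsSMulRegular A a) {u v : A}
    (hu : (Submodule.Quotient.mk u : QuotSMulTop a A) = 0) (h : z • u = a • v) :
    (Submodule.Quotient.mk v : QuotSMulTop z A) = 0 := by
  obtain ⟨w, rfl⟩ := (quotSMulTop_mk_eq_zero_iff a u).1 hu
  rw [quotSMulTop_mk_eq_zero_iff]
  refine ⟨w, ha ?_⟩
  change a • z • w = a • v
  rw [← h, smul_comm]

/-- the exchange relation -/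
def exchRel (a z : R) :
    Submodule R (torsionBySet R (QuotSMulTop a A) (I : Set R) ×
      torsionBySet R (QuotSMulTop z A) (I : Set R)) where
  carrier := {pq | ∃ u v : A, (Submodule.Quotient.mk u : QuotSMulTop a A) = pq.1.1 ∧
      (Submodule.Quotient.mk v : QuotSMulTop z A) = pq.2.1 ∧ z • u = a • v}
  zero_mem' := ⟨0, 0, rfl, rfl, by rw [smul_zero, smul_zero]⟩
  add_mem' := by
    rintro ⟨p, q⟩ ⟨p', q'⟩ ⟨u, v, hu, hv, h⟩ ⟨u', v', hu', hv', h'⟩
    refine ⟨u + u', v + v', ?_, ?_, ?_⟩
    · change (Submodule.Quotient.mk (u + u') : QuotSMulTop a A) = p.1 + p'.1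
      rw [Submodule.Quotient.mk_add, hu, hu']
    · change (Submodule.Quotient.mk (v + v') : QuotSMulTop z A) = q.1 + q'.1
      rw [Submodule.Quotient.mk_add, hv, hv']
    · rw [smul_add, smul_add, h, h']
  smul_mem' := by
    rintro r ⟨p, q⟩ ⟨u, v, hu, hv, h⟩
    refine ⟨r • u, r • v, ?_, ?_, ?_⟩
    · change (Submodule.Quotient.mk (r • u) : QuotSMulTop a A) = r • p.1
      rw [Submodule.Quotient.mk_smul, hu]
    · change (Submodule.Quotient.mk (r • v) : QuotSMulTop z A) = r • q.1
      rw [Submodule.Quotient.mk_smul, hv]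
    · rw [smul_comm z r u, smul_comm a r v, h]

/-- **One-element exchange**: if `a, z ∈ I` are both regular on `A` then the `I`-socles of
`A/aA` and `A/zA` are isomorphic. -/
theorem exchange {a z : R} (ha : IsSMulRegular A a) (hz : IsSMulRegular A z)
    (haI : a ∈ I) (hzI : z ∈ I) :
    Nonempty (torsionBySet R (QuotSMulTop a A) (I : Set R) ≃ₗ[R]
      torsionBySet R (QuotSMulTop z A) (I : Set R)) := by
  refine nonempty_linearEquiv_of_rel (exchRel I a z) ?_ ?_ ?_ ?_
  · intro p
    obtain ⟨q, u, v, hu, hv, h⟩ := exch_total I ha hzI p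
    exact ⟨q, u, v, hu, hv, h⟩
  · intro q
    obtain ⟨p, v, u, hv, hu, h⟩ := exch_total I hz haI q
    exact ⟨p, u, v, hu, hv, h.symm⟩
  · rintro q ⟨u, v, hu, hv, h⟩
    apply Subtype.ext
    rw [← hv]
    exact exch_inj ha hu h
  · rintro p ⟨u, v, hu, hv, h⟩
    apply Subtype.ext
    rw [← hu]
    exact exch_inj hz hv h.symm

end Exchange

/-! ### Part 2: prime avoidance -/

section Avoid

variable {R : Type*} [CommRing R] [IsNoetherianRing R] (I : Ideal R)
  {M : Type*} [AddCommGroup M] [Module R M] [Module.Finite R M]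

/-- If for each of finitely many quotients of `M` some element of `I` is regular on it, then a
single element of `I` is regular on all of them. -/
theorem exists_common_regular {ι : Type*} (s : Finset ι) (S : ι → Submodule R M)
    (h : ∀ k ∈ s, ∃ r ∈ I, IsSMulRegular (M ⧸ S k) r) :
    ∃ z ∈ I, ∀ k ∈ s, IsSMulRegular (M ⧸ S k) z := by
  classical
  by_contra hcon
  push Not at hcon
  let T : Set (Ideal R) := ⋃ k ∈ s, associatedPrimes R (M ⧸ S k)
  have hT : T.Finite :=
    Set.Finite.biUnion s.finite_toSet fun k _ => associatedPrimes.finite R (M ⧸ S k)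
  have hsub : (I : Set R) ⊆ ⋃ p ∈ T, (p : Set R) := by
    intro z hz
    obtain ⟨k, hk, hreg⟩ := hcon z hz
    have hz' : z ∈ ({r : R | IsSMulRegular (M ⧸ S k) r}ᶜ : Set R) := hreg
    rw [← biUnion_associatedPrimes_eq_compl_regular R (M ⧸ S k)] at hz'
    simp only [Set.mem_iUnion, exists_prop] at hz' ⊢
    obtain ⟨p, hp, hzp⟩ := hz'
    exact ⟨p, Set.mem_biUnion (Finset.mem_coe.2 hk) hp, hzp⟩
  have hprime : ∀ p ∈ T, p ≠ (⊤ : Ideal R) → p ≠ (⊤ : Ideal R) → p.IsPrime := by
    intro p hp _ _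
    simp only [T, Set.mem_iUnion, exists_prop] at hp
    obtain ⟨k, _, hpk⟩ := hp
    exact hpk.isPrime
  obtain ⟨p, hp, hIp⟩ := (Ideal.subset_union_prime_finite hT (f := fun p => p) ⊤ ⊤ hprime).1 hsub
  simp only [T, Set.mem_iUnion, exists_prop] at hp
  obtain ⟨k, hk, hpk⟩ := hp
  obtain ⟨r, hrI, hr⟩ := h k hk
  have hrp : r ∈ (⋃ q ∈ associatedPrimes R (M ⧸ S k), (q : Set R)) :=
    Set.mem_biUnion hpk (hIp hrI)
  rw [biUnion_associatedPrimes_eq_compl_regular R (M ⧸ S k)] at hrp
  exact hrp hr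

end Avoid

/-! ### Part 3: moving a regular element to the front -/

section Front

open RingTheory.Sequence
open scoped Pointwise

variable {R : Type*} [CommRing R]

/-- `(M/aM)/z(M/aM) ≃ M/(aM + zM)`. -/
noncomputable def quotQuotSMulTopEquiv (M : Type*) [AddCommGroup M] [Module R M] (a z : R) :
    QuotSMulTop z (QuotSMulTop a M) ≃ₗ[R]
      M ⧸ ((a • ⊤ : Submodule R M) ⊔ (z • ⊤ : Submodule R M)) :=
  quotEquivOfEq (z • ⊤ : Submodule R (QuotSMulTop a M))
      ((z • ⊤ : Submodule R M).map (a • ⊤ : Submodule R M).mkQ)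
      (by rw [map_pointwise_smul, Submodule.map_top, range_mkQ]) ≪≫ₗ
    quotientQuotientEquivQuotientSup (a • ⊤ : Submodule R M) (z • ⊤ : Submodule R M)

/-- `(M/aM)/z(M/aM) ≃ (M/zM)/a(M/zM)`. -/
noncomputable def quotSMulTopSwap (M : Type*) [AddCommGroup M] [Module R M] (a z : R) :
    QuotSMulTop z (QuotSMulTop a M) ≃ₗ[R] QuotSMulTop a (QuotSMulTop z M) :=
  quotQuotSMulTopEquiv M a z ≪≫ₗ quotEquivOfEq _ _ (sup_comm _ _) ≪≫ₗ
    (quotQuotSMulTopEquiv M z a).symm

/-- `M/(0)M ≃ M`. -/
noncomputable def quotOfListNilEquiv (M : Type*) [AddCommGroup M] [Module R M] :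
    (M ⧸ (Ideal.ofList ([] : List R) • ⊤ : Submodule R M)) ≃ₗ[R] M :=
  quotEquivOfEqBot _ (by rw [Ideal.ofList_nil, Submodule.bot_smul])

/-- swap lemma: if `a` is regular on `M` and `z` is regular on `M/aM` then `a` is regular on
`M/zM` (no local hypothesis needed). -/
theorem isSMulRegular_quotSMulTop_swap {M : Type*} [AddCommGroup M] [Module R M] {a z : R}
    (ha : IsSMulRegular M a) (hz : IsSMulRegular (QuotSMulTop a M) z) :
    IsSMulRegular (QuotSMulTop z M) a := by
  rw [isSMulRegular_quotient_iff_mem_of_smul_mem] at hz ⊢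
  intro x hx
  obtain ⟨w, -, hw⟩ := (Submodule.mem_smul_pointwise_iff_exists _ _ _).1 hx
  -- `z • w = a • x`
  have hw' : w ∈ (a • ⊤ : Submodule R M) := by
    refine hz w ?_
    rw [hw]
    exact Submodule.smul_mem_pointwise_smul x a ⊤ Submodule.mem_top
  obtain ⟨w', -, rfl⟩ := (Submodule.mem_smul_pointwise_iff_exists _ _ _).1 hw'
  have hx' : x = z • w' := by
    apply ha
    change a • x = a • z • w'
    rw [← hw, smul_comm]
  rw [hx']
  exact Submodule.smul_mem_pointwise_smul w' z ⊤ Submodule.mem_top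

/-- **Move to the front**: if `xs` is weakly regular on `M` and `z` is regular on all the
partial quotients `M/(x₁, …, xᵢ)M`, `0 ≤ i ≤ n`, then `z :: xs` is weakly regular on `M`. -/
theorem isWeaklyRegular_cons_of_regular_take (z : R) :
    ∀ (xs : List R) (M : Type*) [AddCommGroup M] [Module R M], IsWeaklyRegular M xs →
      (∀ i ≤ xs.length,
        IsSMulRegular (M ⧸ (Ideal.ofList (xs.take i) • ⊤ : Submodule R M)) z) →
      IsWeaklyRegular M (z :: xs) := by
  intro xs
  induction xs with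
  | nil =>
    intro M _ _ _ h
    have h0 := h 0 le_rfl
    rw [List.take_nil, (quotOfListNilEquiv M).isSMulRegular_congr] at h0
    exact (isWeaklyRegular_singleton_iff M z).2 h0
  | cons a as ih =>
    intro M _ _ hreg h
    obtain ⟨ha, has⟩ := (isWeaklyRegular_cons_iff M a as).1 hreg
    have hz0 : IsSMulRegular M z := by
      have h0 := h 0 (Nat.zero_le _)
      rw [List.take_zero, (quotOfListNilEquiv M).isSMulRegular_congr] at h0
      exact h0
    have hz' : ∀ j ≤ as.length,
        IsSMulRegular (QuotSMulTop a M ⧸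
          (Ideal.ofList (as.take j) • ⊤ : Submodule R (QuotSMulTop a M))) z := by
      intro j hj
      have h1 := h (j + 1) (by simpa using hj)
      rw [List.take_succ_cons,
        (quotOfListConsSMulTopEquivQuotSMulTopInner M a (as.take j)).isSMulRegular_congr] at h1
      exact h1
    have hIH := ih (QuotSMulTop a M) has hz'
    obtain ⟨hza, hzas⟩ := (isWeaklyRegular_cons_iff (QuotSMulTop a M) z as).1 hIH
    rw [isWeaklyRegular_cons_iff, isWeaklyRegular_cons_iff]
    refine ⟨hz0, isSMulRegular_quotSMulTop_swap ha hza, ?_⟩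
    exact ((quotSMulTopSwap M a z).isWeaklyRegular_congr as).1 hzas

end Front

/-! ### Part 4: the theorem -/

section Main

open RingTheory.Sequence
open scoped Pointwise

variable {R : Type*} [CommRing R]

theorem ofList_append_singleton (xs : List R) (x : R) :
    Ideal.ofList (xs ++ [x]) = Ideal.ofList (x :: xs) := by
  rw [Ideal.ofList_append, Ideal.ofList_singleton, Ideal.ofList_cons, sup_comm]

/-- `M/(xs ++ [x])M ≃ (M/xsM)/x(M/xsM)`. -/
noncomputable def quotAppendEquivOuter (M : Type*) [AddCommGroup M] [Module R M]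
    (xs : List R) (x : R) :
    (M ⧸ (Ideal.ofList (xs ++ [x]) • ⊤ : Submodule R M)) ≃ₗ[R]
      QuotSMulTop x (M ⧸ (Ideal.ofList xs • ⊤ : Submodule R M)) :=
  quotEquivOfEq _ _ (by rw [ofList_append_singleton]) ≪≫ₗ
    quotOfListConsSMulTopEquivQuotSMulTopOuter M x xs

/-- `M/(xs ++ [z])M ≃ (M/zM)/xs(M/zM)`. -/
noncomputable def quotAppendEquivInner (M : Type*) [AddCommGroup M] [Module R M]
    (xs : List R) (z : R) :
    (M ⧸ (Ideal.ofList (xs ++ [z]) • ⊤ : Submodule R M)) ≃ₗ[R]
      QuotSMulTop z M ⧸ (Ideal.ofList xs • ⊤ : Submodule R (QuotSMulTop z M)) :=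
  quotEquivOfEq _ _ (by rw [ofList_append_singleton]) ≪≫ₗ
    quotOfListConsSMulTopEquivQuotSMulTopInner M z xs

variable (I : Ideal R)

/-- exchange of the last element of a weakly regular sequence -/
theorem exchange_last {M : Type*} [AddCommGroup M] [Module R M] (xs : List R) {x z : R}
    (hxI : x ∈ I) (hzI : z ∈ I)
    (hx : IsSMulRegular (M ⧸ (Ideal.ofList xs • ⊤ : Submodule R M)) x)
    (hz : IsSMulRegular (M ⧸ (Ideal.ofList xs • ⊤ : Submodule R M)) z) :
    Nonempty (torsionBySet R (M ⧸ (Ideal.ofList (xs ++ [x]) • ⊤ : Submodule R M)) (I : Set R)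
      ≃ₗ[R]
      torsionBySet R (QuotSMulTop z M ⧸
        (Ideal.ofList xs • ⊤ : Submodule R (QuotSMulTop z M))) (I : Set R)) := by
  obtain ⟨e⟩ := exchange I hx hz hxI hzI
  exact ⟨socEquiv I (quotAppendEquivOuter M xs x) ≪≫ₗ e ≪≫ₗ
    socEquiv I ((quotAppendEquivOuter M xs z).symm ≪≫ₗ quotAppendEquivInner M xs z)⟩

theorem regular_take_of_isWeaklyRegular {M : Type*} [AddCommGroup M] [Module R M]
    (xs : List R) (x : R) (hxI : ∀ r ∈ xs ++ [x], r ∈ I)
    (h : IsWeaklyRegular M (xs ++ [x])) (i : ℕ) (hi : i ≤ xs.length) :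
    ∃ r ∈ I, IsSMulRegular (M ⧸ (Ideal.ofList (xs.take i) • ⊤ : Submodule R M)) r := by
  have hlt : i < (xs ++ [x]).length := by
    rw [List.length_append, List.length_singleton]
    omega
  have h1 := h.regular_mod_prev i hlt
  rw [List.take_append_of_le_length hi] at h1
  exact ⟨_, hxI _ (List.getElem_mem hlt), h1⟩

theorem kap_aux [IsNoetherianRing R] (n : ℕ) :
    ∀ (M : Type*) [AddCommGroup M] [Module R M] [Module.Finite R M]
    (xs ys : List R), xs.length = n → ys.length = n →
    (∀ x ∈ xs, x ∈ I) → (∀ y ∈ ys, y ∈ I) →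
    IsWeaklyRegular M xs → IsWeaklyRegular M ys →
    Nonempty (torsionBySet R (M ⧸ (Ideal.ofList xs • ⊤ : Submodule R M)) (I : Set R)
      ≃ₗ[R] torsionBySet R (M ⧸ (Ideal.ofList ys • ⊤ : Submodule R M)) (I : Set R)) := by
  classical
  induction n with
  | zero =>
    intro M _ _ _ xs ys hxl hyl _ _ _ _
    obtain rfl := List.length_eq_zero_iff.1 hxl
    obtain rfl := List.length_eq_zero_iff.1 hyl
    exact ⟨LinearEquiv.refl _ _⟩
  | succ n ih =>
    intro M _ _ _ xs ys hxl hyl hxI hyI hx hy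
    -- split off the last elements
    rcases List.eq_nil_or_concat xs with rfl | ⟨xs', x, hxs⟩
    · simp at hxl
    rcases List.eq_nil_or_concat ys with rfl | ⟨ys', y, hys⟩
    · simp at hyl
    rw [List.concat_eq_append] at hxs hys
    subst hxs hys
    have hxl' : xs'.length = n := by simpa using hxl
    have hyl' : ys'.length = n := by simpa using hyl
    -- a common regular element
    let s : Finset (Submodule R M) :=
      (Finset.range (n + 1)).image (fun i => (Ideal.ofList (xs'.take i) • ⊤ : Submodule R M)) ∪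
      (Finset.range (n + 1)).image (fun i => (Ideal.ofList (ys'.take i) • ⊤ : Submodule R M))
    obtain ⟨z, hzI, hz⟩ := exists_common_regular I s (fun N => N) (by
      intro N hN
      rcases Finset.mem_union.1 hN with h | h
      · obtain ⟨i, hi, rfl⟩ := Finset.mem_image.1 h
        exact regular_take_of_isWeaklyRegular I xs' x hxI hx i
          (by rw [hxl']; exact Nat.lt_succ_iff.1 (Finset.mem_range.1 hi))
      · obtain ⟨i, hi, rfl⟩ := Finset.mem_image.1 h
        exact regular_take_of_isWeaklyRegular I ys' y hyI hy i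
          (by rw [hyl']; exact Nat.lt_succ_iff.1 (Finset.mem_range.1 hi)))
    have hzx : ∀ i ≤ xs'.length,
        IsSMulRegular (M ⧸ (Ideal.ofList (xs'.take i) • ⊤ : Submodule R M)) z := fun i hi =>
      hz _ (Finset.mem_union_left _ (Finset.mem_image.2
        ⟨i, Finset.mem_range.2 (by omega), rfl⟩))
    have hzy : ∀ i ≤ ys'.length,
        IsSMulRegular (M ⧸ (Ideal.ofList (ys'.take i) • ⊤ : Submodule R M)) z := fun i hi =>
      hz _ (Finset.mem_union_right _ (Finset.mem_image.2
        ⟨i, Finset.mem_range.2 (by omega), rfl⟩))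
    -- the pieces
    obtain ⟨hxs', hxlast⟩ := (isWeaklyRegular_append_iff M xs' [x]).1 hx
    obtain ⟨hys', hylast⟩ := (isWeaklyRegular_append_iff M ys' [y]).1 hy
    rw [isWeaklyRegular_singleton_iff] at hxlast hylast
    have hzx' : IsSMulRegular (M ⧸ (Ideal.ofList xs' • ⊤ : Submodule R M)) z := by
      have := hzx xs'.length le_rfl
      rwa [List.take_length] at this
    have hzy' : IsSMulRegular (M ⧸ (Ideal.ofList ys' • ⊤ : Submodule R M)) z := by
      have := hzy ys'.length le_rfl
      rwa [List.take_length] at this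
    obtain ⟨e1⟩ := exchange_last I xs' (hxI x (by simp)) hzI hxlast hzx'
    obtain ⟨e2⟩ := exchange_last I ys' (hyI y (by simp)) hzI hylast hzy'
    have hfx := isWeaklyRegular_cons_of_regular_take z xs' M hxs' hzx
    have hfy := isWeaklyRegular_cons_of_regular_take z ys' M hys' hzy
    obtain ⟨e3⟩ := ih (QuotSMulTop z M) xs' ys' hxl' hyl'
      (fun r hr => hxI r (List.mem_append_left _ hr))
      (fun r hr => hyI r (List.mem_append_left _ hr))
      ((isWeaklyRegular_cons_iff M z xs').1 hfx).2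
      ((isWeaklyRegular_cons_iff M z ys').1 hfy).2
    exact ⟨e1 ≪≫ₗ e3 ≪≫ₗ e2.symm⟩

/-- **KAP** (Kaplansky, Commutative Rings, Thm 121). -/
theorem kaplansky_socle_equiv {R : Type*} [CommRing R] [IsNoetherianRing R] (I : Ideal R)
    {M : Type*} [AddCommGroup M] [Module R M] [Module.Finite R M]
    (xs ys : List R) (hlen : xs.length = ys.length)
    (hxI : ∀ x ∈ xs, x ∈ I) (hyI : ∀ y ∈ ys, y ∈ I)
    (hx : RingTheory.Sequence.IsWeaklyRegular M xs)
    (hy : RingTheory.Sequence.IsWeaklyRegular M ys) :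
    Nonempty (Submodule.torsionBySet R (M ⧸ (Ideal.ofList xs • (⊤ : Submodule R M))) (I : Set R)
      ≃ₗ[R] Submodule.torsionBySet R (M ⧸ (Ideal.ofList ys • (⊤ : Submodule R M))) (I : Set R)) :=
  kap_aux I ys.length M xs ys hlen rfl hxI hyI hx hy

end Main

end Fermat.Agent.S59.NumCrit.H8
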