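import Mathlib

/-!
# S59 NUMCRIT, leaf NIL: powers of the variables lie in the reduction of the kernel

`exists_X_pow_mem_map`: if `T` is a finite `𝒪`-algebra and `ψ : 𝒪⟦X_1..X_n⟧ → T` an algebra
homomorphism, then some power of every `X i` lies in the image of `ker ψ` in `k⟦X_1..X_n⟧`.
-/

set_option autoImplicit false

namespace Fermat.Agent.S59.NumCrit.H90

open MvPowerSeries

/-- a polynomial in one variable `X i` with non-zero lowest coefficient over a field divides a
power of `X i` in the power series ring. -/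
theorem X_pow_mem_of_aeval_mem {k : Type*} [Field k] {σ : Type*} (i : σ)
    (G : Polynomial k) (hG : G ≠ 0) (𝔞 : Ideal (MvPowerSeries σ k))
    (h : Polynomial.aeval (X i : MvPowerSeries σ k) G ∈ 𝔞) :
    (X i : MvPowerSeries σ k) ^ G.natDegree ∈ 𝔞 := by
  classical
  obtain ⟨H, hGH, hH⟩ := Polynomial.exists_eq_pow_rootMultiplicity_mul_and_not_dvd G hG 0
  set a := G.rootMultiplicity 0 with ha
  have hH0 : H.eval 0 ≠ 0 := by
    intro h0
    apply hH
    rw [Polynomial.dvd_iff_isRoot]
    exact h0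
  have hconst : constantCoeff (Polynomial.aeval (X i : MvPowerSeries σ k) H) = H.eval 0 := by
    rw [Polynomial.aeval_def, Polynomial.hom_eval₂, constantCoeff_X]
    have : (constantCoeff (σ := σ) (R := k)).comp (algebraMap k (MvPowerSeries σ k))
        = RingHom.id k := by
      ext x
      simp [MvPowerSeries.algebraMap_apply]
    rw [this]
    exact Polynomial.eval₂_id
  have hunit : IsUnit (Polynomial.aeval (X i : MvPowerSeries σ k) H) := by
    rw [MvPowerSeries.isUnit_iff_constantCoeff, hconst]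
    exact isUnit_iff_ne_zero.mpr hH0
  have h1 : Polynomial.aeval (X i : MvPowerSeries σ k) G
      = X i ^ a * Polynomial.aeval (X i : MvPowerSeries σ k) H := by
    conv_lhs => rw [hGH]
    rw [map_mul, map_pow, map_sub, Polynomial.aeval_X, Polynomial.aeval_C, map_zero, sub_zero]
  rw [h1] at h
  have h2 : (X i : MvPowerSeries σ k) ^ a ∈ 𝔞 := (Ideal.mul_unit_mem_iff_mem _ hunit).mp h
  have hH' : H ≠ 0 := by
    rintro rfl
    rw [mul_zero] at hGH
    exact hG hGH
  have hle : a ≤ G.natDegree := by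
    have : G.natDegree = a + H.natDegree := by
      conv_lhs => rw [hGH]
      rw [Polynomial.natDegree_mul (pow_ne_zero _ (Polynomial.X_sub_C_ne_zero 0)) hH',
        Polynomial.natDegree_pow, Polynomial.natDegree_X_sub_C, mul_one]
    omega
  obtain ⟨b, hb⟩ := Nat.exists_eq_add_of_le hle
  rw [hb, pow_add]
  exact Ideal.mul_mem_right _ _ h2

/-- **NIL**. -/
theorem exists_X_pow_mem_map {𝒪 T : Type*} [CommRing 𝒪] [IsLocalRing 𝒪] [CommRing T] [Algebra 𝒪 T]
    [Module.Finite 𝒪 T] (n : ℕ) (ψ : MvPowerSeries (Fin n) 𝒪 →ₐ[𝒪] T) :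
    ∃ N : ℕ, ∀ i, (X i : MvPowerSeries (Fin n) (IsLocalRing.ResidueField 𝒪)) ^ N
      ∈ Ideal.map (MvPowerSeries.map (IsLocalRing.residue 𝒪)) (RingHom.ker ψ) := by
  classical
  have hint : ∀ i : Fin n, ∃ F : Polynomial 𝒪, F.Monic ∧
      Polynomial.aeval (ψ (X i)) F = 0 := by
    intro i
    obtain ⟨F, hF, hF0⟩ := Algebra.IsIntegral.isIntegral (R := 𝒪) (ψ (X i))
    exact ⟨F, hF, by rw [Polynomial.aeval_def]; exact hF0⟩
  choose F hFm hF0 using hint
  have key : ∀ i, (X i : MvPowerSeries (Fin n) (IsLocalRing.ResidueField 𝒪)) ^ (F i).natDegree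
      ∈ Ideal.map (MvPowerSeries.map (IsLocalRing.residue 𝒪)) (RingHom.ker ψ) := by
    intro i
    have h1 : Polynomial.aeval (X i : MvPowerSeries (Fin n) 𝒪) (F i) ∈ RingHom.ker ψ := by
      rw [RingHom.mem_ker]
      have := Polynomial.aeval_algHom_apply ψ (X i : MvPowerSeries (Fin n) 𝒪) (F i)
      rw [← this, hF0 i]
    have h2 : MvPowerSeries.map (IsLocalRing.residue 𝒪)
        (Polynomial.aeval (X i : MvPowerSeries (Fin n) 𝒪) (F i))
        = Polynomial.aeval (X i : MvPowerSeries (Fin n) (IsLocalRing.ResidueField 𝒪))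
            ((F i).map (IsLocalRing.residue 𝒪)) := by
      rw [Polynomial.aeval_def, Polynomial.hom_eval₂, Polynomial.aeval_def, Polynomial.eval₂_map,
        map_X]
      congr 1
      ext x
      simp [MvPowerSeries.algebraMap_apply]
    have h3 := Ideal.mem_map_of_mem (MvPowerSeries.map (IsLocalRing.residue 𝒪)) h1
    rw [h2] at h3
    have hm : ((F i).map (IsLocalRing.residue 𝒪)).Monic := (hFm i).map _
    have := X_pow_mem_of_aeval_mem i _ hm.ne_zero _ h3
    rwa [(hFm i).natDegree_map] at this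
  refine ⟨∑ i, (F i).natDegree, fun i => ?_⟩
  have hle : (F i).natDegree ≤ ∑ i, (F i).natDegree :=
    Finset.single_le_sum (f := fun i => (F i).natDegree) (fun _ _ => Nat.zero_le _)
      (Finset.mem_univ i)
  obtain ⟨b, hb⟩ := Nat.exists_eq_add_of_le hle
  rw [hb, pow_add]
  exact Ideal.mul_mem_right _ _ (key i)

end Fermat.Agent.S59.NumCrit.H90
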