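import Mathlib

/-!
# S59 NUMCRIT, leaf RED: reduction of power series modulo the maximal ideal

`map_residue_surjective`, `ker_map_residue` for `MvPowerSeries.map (IsLocalRing.residue 𝒪)`.
-/

set_option autoImplicit false

namespace Fermat.Agent.S59.NumCrit.H90

open MvPowerSeries

theorem map_surjective_of_surjective {σ : Type*} {R S : Type*} [CommRing R] [CommRing S]
    (f : R →+* S) (hf : Function.Surjective f) :
    Function.Surjective (MvPowerSeries.map (σ := σ) f) := by
  intro φ
  choose g hg using hf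
  let θ : MvPowerSeries σ R := fun m => g (coeff m φ)
  have hθ : ∀ m, coeff m θ = g (coeff m φ) := fun m => rfl
  refine ⟨θ, ?_⟩
  ext m
  rw [coeff_map, hθ]
  exact hg _

/-- RED, surjectivity. -/
theorem map_residue_surjective (σ : Type*) (𝒪 : Type*) [CommRing 𝒪] [IsLocalRing 𝒪] :
    Function.Surjective (MvPowerSeries.map (σ := σ) (IsLocalRing.residue 𝒪)) :=
  map_surjective_of_surjective _ IsLocalRing.residue_surjective

/-- RED, the kernel. -/
theorem ker_map_residue (σ : Type*) {𝒪 : Type*} [CommRing 𝒪] [IsLocalRing 𝒪] {ϖ : 𝒪}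
    (hϖ : IsLocalRing.maximalIdeal 𝒪 = Ideal.span {ϖ}) :
    RingHom.ker (MvPowerSeries.map (σ := σ) (IsLocalRing.residue 𝒪))
      = Ideal.span {(C ϖ : MvPowerSeries σ 𝒪)} := by
  apply le_antisymm
  · intro f hf
    rw [RingHom.mem_ker] at hf
    have h1 : ∀ m, ∃ a : 𝒪, coeff m f = ϖ * a := by
      intro m
      have h2 : IsLocalRing.residue 𝒪 (coeff m f) = 0 := by
        rw [← coeff_map, hf, map_zero]
      have h3 : coeff m f ∈ IsLocalRing.maximalIdeal 𝒪 := by
        rwa [IsLocalRing.residue_eq_zero_iff] at h2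
      rw [hϖ, Ideal.mem_span_singleton'] at h3
      obtain ⟨a, ha⟩ := h3
      exact ⟨a, by rw [← ha, mul_comm]⟩
    choose a ha using h1
    rw [Ideal.mem_span_singleton']
    let θ : MvPowerSeries σ 𝒪 := fun m => a m
    have hθ : ∀ m, coeff m θ = a m := fun m => rfl
    refine ⟨θ, ?_⟩
    ext m
    rw [mul_comm, ← smul_eq_C_mul, ha m, map_smul, hθ, smul_eq_mul]
  · rw [Ideal.span_le, Set.singleton_subset_iff, SetLike.mem_coe, RingHom.mem_ker, map_C]
    have : IsLocalRing.residue 𝒪 ϖ = 0 := by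
      rw [IsLocalRing.residue_eq_zero_iff, hϖ]
      exact Ideal.mem_span_singleton_self ϖ
    rw [this, map_zero]

end Fermat.Agent.S59.NumCrit.H90
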