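import Fermat.Agent.S59.NumCrit.H90_Fit
import Fermat.Agent.S59.NumCrit.H90_Red
import Fermat.Agent.S59.NumCrit.H90_Nil

/-!
# S59 NUMCRIT: the complete-intersection lemma over `𝒪`

`ci_lemma`: `T = 𝒪⟦X⟧/I` finite free over the discrete valuation ring `𝒪`, with augmentation `π`;
if `c_1..c_n ∈ I` have linear parts with `η_T = (det ℓ(c))`, `det ℓ(c) ≠ 0`, then `I` is generated by
`n` elements `g_i` with `ℓ(g_i) = ℓ(c_i)`.

The two inputs over the residue field `k` are the properties `RegProp k n` (regular lifts) and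
`CoreProp k n` (an ideal containing a regular sequence `M X` but not `det M` is generated by it).
-/

set_option autoImplicit false

namespace Fermat.Agent.S59.NumCrit.H90

open MvPowerSeries

/-- (REG) for `k⟦X_1..X_n⟧`. -/
def RegProp (k : Type*) [Field k] (n : ℕ) : Prop :=
  ∀ 𝔞 : Ideal (MvPowerSeries (Fin n) k), 𝔞 ≠ ⊤ →
    (∃ N : ℕ, ∀ i, (X i : MvPowerSeries (Fin n) k) ^ N ∈ 𝔞) →
    ∀ c : Fin n → MvPowerSeries (Fin n) k, (∀ i, c i ∈ 𝔞) →
    ∃ y : Fin n → MvPowerSeries (Fin n) k,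
      (∀ i, y i - c i ∈ Ideal.span (Set.range fun j => (X j : MvPowerSeries (Fin n) k)) * 𝔞) ∧
      RingTheory.Sequence.IsWeaklyRegular (MvPowerSeries (Fin n) k) (List.ofFn y)

/-- (CORE) for `k⟦X_1..X_n⟧`. -/
def CoreProp (k : Type*) [Field k] (n : ℕ) : Prop :=
  ∀ 𝔞 : Ideal (MvPowerSeries (Fin n) k), 𝔞 ≠ ⊤ →
    ∀ M : Matrix (Fin n) (Fin n) (MvPowerSeries (Fin n) k),
      (∀ i, M.mulVec (fun j => (X j : MvPowerSeries (Fin n) k)) i ∈ 𝔞) →
      RingTheory.Sequence.IsWeaklyRegular (MvPowerSeries (Fin n) k)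
        (List.ofFn (M.mulVec fun j => (X j : MvPowerSeries (Fin n) k))) →
      M.det ∉ 𝔞 → 𝔞 = Ideal.span (Set.range (M.mulVec fun j => (X j : MvPowerSeries (Fin n) k)))

/-- reduction modulo the maximal ideal of `𝒪`. -/
noncomputable abbrev red (𝒪 : Type*) [CommRing 𝒪] [IsLocalRing 𝒪] (n : ℕ) :
    MvPowerSeries (Fin n) 𝒪 →+* MvPowerSeries (Fin n) (IsLocalRing.ResidueField 𝒪) :=
  MvPowerSeries.map (IsLocalRing.residue 𝒪)

section general

variable {𝒪 : Type*} [CommRing 𝒪] [IsLocalRing 𝒪]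
  {T : Type*} [CommRing T] [Algebra 𝒪 T] {n : ℕ}
  {ψ : MvPowerSeries (Fin n) 𝒪 →ₐ[𝒪] T} {π : T →ₐ[𝒪] 𝒪}

theorem red_surjective : Function.Surjective (red 𝒪 n) := map_residue_surjective _ _

theorem map_ker_ne_top (hπ : ∀ i, π (ψ (X i)) = 0) :
    Ideal.map (red 𝒪 n) (RingHom.ker ψ) ≠ ⊤ := by
  intro h
  have h1 : (1 : MvPowerSeries (Fin n) (IsLocalRing.ResidueField 𝒪))
      ∈ Ideal.map (red 𝒪 n) (RingHom.ker ψ) := by rw [h]; trivial
  obtain ⟨f, hf, hf1⟩ := (Ideal.mem_map_iff_of_surjective _ red_surjective).mp h1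
  have := congrArg constantCoeff hf1
  rw [constantCoeff_map, ker_psi_le hπ hf, map_zero, map_one] at this
  exact zero_ne_one this

theorem constantCoeff_eq_zero_of_mem_span_X {R : Type*} [CommRing R] {σ : Type*}
    {x : MvPowerSeries σ R}
    (hx : x ∈ Ideal.span (Set.range fun j => (X j : MvPowerSeries σ R))) :
    constantCoeff x = 0 := by
  have : Ideal.span (Set.range fun j => (X j : MvPowerSeries σ R))
      ≤ RingHom.ker (constantCoeff (σ := σ) (R := R)) := by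
    rw [Ideal.span_le]
    rintro _ ⟨j, rfl⟩
    exact constantCoeff_X j
  exact this hx

omit [IsLocalRing 𝒪] in
theorem linPart_eq_zero_of_mem_mul (hπ : ∀ i, π (ψ (X i)) = 0)
    {e : MvPowerSeries (Fin n) 𝒪}
    (he : e ∈ Ideal.span (Set.range fun j => (X j : MvPowerSeries (Fin n) 𝒪)) * RingHom.ker ψ) :
    linPart n 𝒪 e = 0 := by
  refine Submodule.mul_induction_on he ?_ ?_
  · intro x hx u hu
    rw [linPart_mul x u (ker_psi_le hπ hu), constantCoeff_eq_zero_of_mem_span_X hx, zero_smul]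
  · intro x y hx hy
    rw [map_add, hx, hy, add_zero]

theorem map_red_span_X_mul (I : Ideal (MvPowerSeries (Fin n) 𝒪)) :
    Ideal.map (red 𝒪 n) (Ideal.span (Set.range fun j => (X j : MvPowerSeries (Fin n) 𝒪)) * I)
      = Ideal.span (Set.range fun j =>
          (X j : MvPowerSeries (Fin n) (IsLocalRing.ResidueField 𝒪))) * Ideal.map (red 𝒪 n) I := by
  rw [Ideal.map_mul, Ideal.map_span]
  congr 2
  ext x
  constructor
  · rintro ⟨_, ⟨j, rfl⟩, rfl⟩
    exact ⟨j, (map_X _ j).symm⟩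
  · rintro ⟨j, rfl⟩
    exact ⟨X j, ⟨j, rfl⟩, map_X _ j⟩

theorem map_red_span_range (g : Fin n → MvPowerSeries (Fin n) 𝒪) :
    Ideal.map (red 𝒪 n) (Ideal.span (Set.range g))
      = Ideal.span (Set.range fun i => red 𝒪 n (g i)) := by
  rw [Ideal.map_span]
  congr 1
  ext x
  constructor
  · rintro ⟨_, ⟨j, rfl⟩, rfl⟩
    exact ⟨j, rfl⟩
  · rintro ⟨j, rfl⟩
    exact ⟨g j, ⟨j, rfl⟩, rfl⟩

theorem red_mulVec (M : Matrix (Fin n) (Fin n) (MvPowerSeries (Fin n) 𝒪)) (i : Fin n) :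
    (M.map (red 𝒪 n)).mulVec
        (fun j => (X j : MvPowerSeries (Fin n) (IsLocalRing.ResidueField 𝒪))) i
      = red 𝒪 n (M.mulVec (fun j => (X j : MvPowerSeries (Fin n) 𝒪)) i) := by
  simp only [Matrix.mulVec, dotProduct, Matrix.map_apply, map_sum, map_mul, map_X]

/-- lifting the regular modification. -/
theorem exists_lift_regular (hπ : ∀ i, π (ψ (X i)) = 0)
    (c : Fin n → MvPowerSeries (Fin n) 𝒪) (hc : ∀ i, c i ∈ RingHom.ker ψ)
    (y : Fin n → MvPowerSeries (Fin n) (IsLocalRing.ResidueField 𝒪))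
    (hy : ∀ i, y i - red 𝒪 n (c i)
      ∈ Ideal.span (Set.range fun j =>
          (X j : MvPowerSeries (Fin n) (IsLocalRing.ResidueField 𝒪)))
        * Ideal.map (red 𝒪 n) (RingHom.ker ψ)) :
    ∃ g : Fin n → MvPowerSeries (Fin n) 𝒪, (∀ i, g i ∈ RingHom.ker ψ) ∧
      (∀ i, linPart n 𝒪 (g i) = linPart n 𝒪 (c i)) ∧ ∀ i, red 𝒪 n (g i) = y i := by
  have h1 : ∀ i, ∃ e ∈ Ideal.span (Set.range fun j => (X j : MvPowerSeries (Fin n) 𝒪))
      * RingHom.ker ψ, red 𝒪 n e = y i - red 𝒪 n (c i) := by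
    intro i
    have := hy i
    rw [← map_red_span_X_mul] at this
    exact (Ideal.mem_map_iff_of_surjective _ red_surjective).mp this
  choose e he hey using h1
  refine ⟨fun i => c i + e i, fun i => ?_, fun i => ?_, fun i => ?_⟩
  · have h2 : Ideal.span (Set.range fun j => (X j : MvPowerSeries (Fin n) 𝒪)) * RingHom.ker ψ
        ≤ RingHom.ker ψ := Ideal.mul_le_right
    have h3 : e i ∈ RingHom.ker ψ := h2 (he i)
    show c i + e i ∈ RingHom.ker ψ
    exact Ideal.add_mem _ (hc i) h3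
  · show linPart n 𝒪 (c i + e i) = linPart n 𝒪 (c i)
    rw [map_add, linPart_eq_zero_of_mem_mul hπ (he i), add_zero]
  · show red 𝒪 n (c i + e i) = y i
    rw [map_add, hey i]
    ring

end general

section dvr

variable {𝒪 : Type*} [CommRing 𝒪] [IsDomain 𝒪] [IsDiscreteValuationRing 𝒪]
  {T : Type*} [CommRing T] [Algebra 𝒪 T] {n : ℕ}
  {ψ : MvPowerSeries (Fin n) 𝒪 →ₐ[𝒪] T} {π : T →ₐ[𝒪] 𝒪}

omit [IsDomain 𝒪] [IsDiscreteValuationRing 𝒪] in
theorem psi_C_mul (a : 𝒪) (h : MvPowerSeries (Fin n) 𝒪) : ψ (C a * h) = a • ψ h := by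
  rw [← smul_eq_C_mul, map_smul]

/-- (B1) -/
theorem exists_psi_eq_smul_of_red_mem {ϖ : 𝒪} (hϖ : IsLocalRing.maximalIdeal 𝒪 = Ideal.span {ϖ})
    {d : MvPowerSeries (Fin n) 𝒪}
    (hd : red 𝒪 n d ∈ Ideal.map (red 𝒪 n) (RingHom.ker ψ)) :
    ∃ t : T, ψ d = ϖ • t := by
  obtain ⟨f, hf, hfd⟩ := (Ideal.mem_map_iff_of_surjective _ red_surjective).mp hd
  have h1 : d - f ∈ RingHom.ker (red 𝒪 n) := by
    rw [RingHom.mem_ker, map_sub, hfd, sub_self]
  rw [ker_map_residue (Fin n) hϖ, Ideal.mem_span_singleton'] at h1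
  obtain ⟨h, hh⟩ := h1
  refine ⟨ψ h, ?_⟩
  have h2 : d = C ϖ * h + f := by
    rw [mul_comm, hh]; ring
  rw [h2, map_add, (RingHom.mem_ker).mp hf, add_zero, psi_C_mul]

/-- (B2) -/
theorem red_mem_of_psi_eq_smul (hψ : Function.Surjective ψ) {ϖ : 𝒪}
    (hϖ : IsLocalRing.maximalIdeal 𝒪 = Ideal.span {ϖ})
    {d : MvPowerSeries (Fin n) 𝒪} {t : T} (hd : ψ d = ϖ • t) :
    red 𝒪 n d ∈ Ideal.map (red 𝒪 n) (RingHom.ker ψ) := by
  obtain ⟨h, rfl⟩ := hψ t
  have h1 : d - C ϖ * h ∈ RingHom.ker ψ := by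
    rw [RingHom.mem_ker, map_sub, psi_C_mul, hd, sub_self]
  have h2 : red 𝒪 n (C ϖ * h) = 0 := by
    rw [← RingHom.mem_ker, ker_map_residue (Fin n) hϖ]
    exact Ideal.mul_mem_right _ _ (Ideal.mem_span_singleton_self _)
  have h3 := Ideal.mem_map_of_mem (red 𝒪 n) h1
  rwa [map_sub, h2, sub_zero] at h3

/-- (B3): a generator of `Ann (ker π)` mapping to a generator of `η` is not divisible by `ϖ`. -/
theorem not_exists_eq_smul [Module.Free 𝒪 T] {ϖ : 𝒪}
    (hϖ : IsLocalRing.maximalIdeal 𝒪 = Ideal.span {ϖ}) {t₀ : T}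
    (ht₀ : t₀ ∈ (RingHom.ker π).annihilator) {δ : 𝒪} (hδ : δ ≠ 0) (hπt : π t₀ = δ)
    (hη : eta π = Ideal.span {δ}) : ¬ ∃ t : T, t₀ = ϖ • t := by
  rintro ⟨t, rfl⟩
  have hϖ0 : ϖ ≠ 0 := by
    rintro rfl
    have : IsLocalRing.maximalIdeal 𝒪 = ⊥ := by rw [hϖ]; simp
    exact IsDiscreteValuationRing.not_a_field 𝒪 this
  have ht : t ∈ (RingHom.ker π).annihilator := by
    rw [Submodule.mem_annihilator] at ht₀ ⊢
    intro x hx
    have := ht₀ x hx
    rw [smul_assoc] at this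
    exact (smul_eq_zero.mp this).resolve_left hϖ0
  have h1 : π t ∈ eta π := mem_eta_iff.mpr ⟨t, ht, rfl⟩
  rw [hη, Ideal.mem_span_singleton'] at h1
  obtain ⟨a, ha⟩ := h1
  rw [map_smul, ← ha, smul_eq_mul] at hπt
  have h2 : δ * (ϖ * a - 1) = 0 := by
    linear_combination hπt
  have h3 : ϖ * a = 1 := by
    rcases mul_eq_zero.mp h2 with h | h
    · exact absurd h hδ
    · exact sub_eq_zero.mp h
  have h4 : ϖ ∈ IsLocalRing.maximalIdeal 𝒪 := by
    rw [hϖ]; exact Ideal.mem_span_singleton_self _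
  exact (IsLocalRing.mem_maximalIdeal ϖ).mp h4 (IsUnit.of_mul_eq_one a h3)

/-- (E): Nakayama step. -/
theorem ker_eq_span_of_map_eq [Module.Free 𝒪 T] {ϖ : 𝒪}
    (hϖ : IsLocalRing.maximalIdeal 𝒪 = Ideal.span {ϖ})
    (g : Fin n → MvPowerSeries (Fin n) 𝒪) (hg : ∀ i, g i ∈ RingHom.ker ψ)
    (h : Ideal.map (red 𝒪 n) (RingHom.ker ψ) = Ideal.span (Set.range fun i => red 𝒪 n (g i))) :
    RingHom.ker ψ = Ideal.span (Set.range g) := by
  have hϖ0 : ϖ ≠ 0 := by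
    rintro rfl
    have : IsLocalRing.maximalIdeal 𝒪 = ⊥ := by rw [hϖ]; simp
    exact IsDiscreteValuationRing.not_a_field 𝒪 this
  have hle : Ideal.span (Set.range g) ≤ RingHom.ker ψ := by
    rw [Ideal.span_le]
    rintro _ ⟨i, rfl⟩
    exact hg i
  refine le_antisymm ?_ hle
  have hfg : (RingHom.ker ψ : Ideal (MvPowerSeries (Fin n) 𝒪)).FG :=
    (isNoetherianRing_iff_ideal_fg _).mp inferInstance _
  have hjac : Ideal.span {(C ϖ : MvPowerSeries (Fin n) 𝒪)}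
      ≤ (⊥ : Ideal (MvPowerSeries (Fin n) 𝒪)).jacobson := by
    rw [IsLocalRing.jacobson_eq_maximalIdeal ⊥ bot_ne_top, Ideal.span_le,
      Set.singleton_subset_iff, SetLike.mem_coe, IsLocalRing.mem_maximalIdeal, mem_nonunits_iff,
      MvPowerSeries.isUnit_iff_constantCoeff, constantCoeff_C]
    have h4 : ϖ ∈ IsLocalRing.maximalIdeal 𝒪 := by
      rw [hϖ]; exact Ideal.mem_span_singleton_self _
    exact (IsLocalRing.mem_maximalIdeal ϖ).mp h4
  refine Submodule.le_of_le_smul_of_le_jacobson_bot hfg hjac ?_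
  intro f hf
  have h1 : red 𝒪 n f ∈ Ideal.map (red 𝒪 n) (Ideal.span (Set.range g)) := by
    rw [map_red_span_range, ← h]
    exact Ideal.mem_map_of_mem _ hf
  obtain ⟨u, hu, huf⟩ := (Ideal.mem_map_iff_of_surjective _ red_surjective).mp h1
  have h2 : f - u ∈ RingHom.ker (red 𝒪 n) := by
    rw [RingHom.mem_ker, map_sub, huf, sub_self]
  rw [ker_map_residue (Fin n) hϖ, Ideal.mem_span_singleton'] at h2
  obtain ⟨v, hv⟩ := h2
  have hv' : v ∈ RingHom.ker ψ := by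
    have h3 : ψ (C ϖ * v) = 0 := by
      rw [mul_comm, hv, map_sub, (RingHom.mem_ker).mp hf, (RingHom.mem_ker).mp (hle hu), sub_zero]
    rw [psi_C_mul] at h3
    exact (RingHom.mem_ker).mpr ((smul_eq_zero.mp h3).resolve_left hϖ0)
  have h4 : f = u + C ϖ * v := by rw [mul_comm, hv]; ring
  rw [h4]
  refine Submodule.add_mem_sup hu ?_
  rw [smul_eq_mul]
  exact Ideal.mul_mem_mul (Ideal.mem_span_singleton_self _) hv'

/-- **the complete-intersection lemma**. -/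
theorem ci_lemma [Module.Finite 𝒪 T] [Module.Free 𝒪 T]
    (hREG : RegProp (IsLocalRing.ResidueField 𝒪) n)
    (hCORE : CoreProp (IsLocalRing.ResidueField 𝒪) n)
    (hψ : Function.Surjective ψ) (hπ : ∀ i, π (ψ (X i)) = 0)
    (c : Fin n → MvPowerSeries (Fin n) 𝒪) (hc : ∀ i, c i ∈ RingHom.ker ψ)
    (hdet : (Matrix.of fun i => linPart n 𝒪 (c i)).det ≠ 0)
    (hη : eta π = Ideal.span {(Matrix.of fun i => linPart n 𝒪 (c i)).det}) :
    ∃ g : Fin n → MvPowerSeries (Fin n) 𝒪, (∀ i, g i ∈ RingHom.ker ψ) ∧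
      (∀ i, linPart n 𝒪 (g i) = linPart n 𝒪 (c i)) ∧
      RingHom.ker ψ = Ideal.span (Set.range g) := by
  obtain ⟨ϖ, hϖirr⟩ := IsDiscreteValuationRing.exists_irreducible 𝒪
  have hϖ : IsLocalRing.maximalIdeal 𝒪 = Ideal.span {ϖ} :=
    (IsDiscreteValuationRing.irreducible_iff_uniformizer ϖ).1 hϖirr
  have h𝔞 := map_ker_ne_top (ψ := ψ) hπ
  have hN := exists_X_pow_mem_map n ψ
  obtain ⟨y, hy, hyreg⟩ := hREG _ h𝔞 hN (fun i => red 𝒪 n (c i))
    (fun i => Ideal.mem_map_of_mem _ (hc i))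
  obtain ⟨g, hgker, hglin, hgy⟩ := exists_lift_regular hπ c hc y hy
  refine ⟨g, hgker, hglin, ?_⟩
  obtain ⟨M, hM⟩ := exists_matrix_mulVec g fun i => ker_psi_le hπ (hgker i)
  have hMy : (M.map (red 𝒪 n)).mulVec
      (fun j => (X j : MvPowerSeries (Fin n) (IsLocalRing.ResidueField 𝒪))) = y := by
    funext i
    rw [red_mulVec, hM, hgy]
  have hdetM : π (ψ M.det) = (Matrix.of fun i => linPart n 𝒪 (c i)).det := by
    rw [pi_psi_det hπ, hM]
    congr 1
    ext i j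
    rw [Matrix.of_apply, Matrix.of_apply, hglin]
  have hann : ψ M.det ∈ (RingHom.ker π).annihilator :=
    psi_det_mem_annihilator hψ hπ M (fun i => by rw [hM]; exact hgker i)
  have hnot : (M.map (red 𝒪 n)).det ∉ Ideal.map (red 𝒪 n) (RingHom.ker ψ) := by
    intro hmem
    have h1 : (M.map (red 𝒪 n)).det = red 𝒪 n M.det := by
      rw [RingHom.map_det]
      rfl
    rw [h1] at hmem
    exact not_exists_eq_smul hϖ hann hdet hdetM hη (exists_psi_eq_smul_of_red_mem hϖ hmem)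
  have hcore := hCORE _ h𝔞 (M.map (red 𝒪 n))
    (fun i => by rw [hMy, ← hgy]; exact Ideal.mem_map_of_mem _ (hgker i))
    (by rw [hMy]; exact hyreg) hnot
  rw [hMy] at hcore
  refine ker_eq_span_of_map_eq hϖ g hgker ?_
  rw [hcore]
  congr 2
  funext i
  exact (hgy i).symm

end dvr

end Fermat.Agent.S59.NumCrit.H90
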