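import Fermat.Agent.S59.NumCrit.H90_Lin

/-!
# S59 NUMCRIT, (L1) and (UNI)

* `psi_det_mem_annihilator`, `det_linPart_mem_eta`: for `g_i ∈ ker ψ`, `g = M X`, the element
  `ψ (det M)` annihilates `ker π` and `π (ψ (det M)) = det (ℓ(g_i))`; so `det (ℓ(g_i)) ∈ η`.
* `mem_span_of_linPart_eq`: if `g'_i ∈ (g)` and `ℓ(g'_i) = ℓ(g_i)` with `det ℓ(g) ≠ 0`,
  then `g_i ∈ (g')`.
-/

set_option autoImplicit false

namespace Fermat.Agent.S59.NumCrit.H90

open MvPowerSeries

section fit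

variable {𝒪 A : Type*} [CommRing 𝒪] [CommRing A] [Algebra 𝒪 A] {n : ℕ}
  {ψ : MvPowerSeries (Fin n) 𝒪 →ₐ[𝒪] A} {π : A →ₐ[𝒪] 𝒪}

/-- Cramer: `ψ (det M)` kills the augmentation ideal when `M X ⊂ ker ψ`. -/
theorem psi_det_mem_annihilator (hψ : Function.Surjective ψ) (hπ : ∀ i, π (ψ (X i)) = 0)
    (M : Matrix (Fin n) (Fin n) (MvPowerSeries (Fin n) 𝒪))
    (hM : ∀ i, M.mulVec (fun k => (X k : MvPowerSeries (Fin n) 𝒪)) i ∈ RingHom.ker ψ) :
    ψ M.det ∈ (RingHom.ker π).annihilator := by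
  rw [Submodule.mem_annihilator]
  intro a ha
  obtain ⟨f, rfl⟩ := hψ a
  have hf : constantCoeff f = 0 := by
    rw [← pi_psi_eq_constantCoeff hπ f]; exact ha
  obtain ⟨c, rfl⟩ := exists_eq_sum_mul_X f hf
  rw [smul_eq_mul, ← map_mul, ← RingHom.mem_ker, Finset.mul_sum]
  refine Ideal.sum_mem _ fun j _ => ?_
  have : M.det * (c j * X j) = c j * (M.det * X j) := by ring
  rw [this]
  exact Ideal.mul_mem_left _ _ (det_mul_mem_span M _ j _ hM)

theorem pi_psi_det (hπ : ∀ i, π (ψ (X i)) = 0)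
    (M : Matrix (Fin n) (Fin n) (MvPowerSeries (Fin n) 𝒪)) :
    π (ψ M.det) = (Matrix.of fun i =>
      linPart n 𝒪 (M.mulVec (fun k => (X k : MvPowerSeries (Fin n) 𝒪)) i)).det := by
  rw [pi_psi_eq_constantCoeff hπ, RingHom.map_det]
  congr 1
  ext i j
  rw [Matrix.of_apply, linPart_mulVec]
  rfl

theorem mem_eta_iff {a : 𝒪} :
    a ∈ eta π ↔ ∃ t ∈ (RingHom.ker π).annihilator, π t = a := by
  unfold eta
  have hsurj : Function.Surjective π := fun a => ⟨algebraMap 𝒪 A a, by rw [π.commutes]; rfl⟩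
  rw [Ideal.mem_map_iff_of_surjective π hsurj]

/-- (L1): the determinant of the linear parts of `n` relations lies in `η`. -/
theorem det_linPart_mem_eta (hψ : Function.Surjective ψ) (hπ : ∀ i, π (ψ (X i)) = 0)
    (g : Fin n → MvPowerSeries (Fin n) 𝒪) (hg : ∀ i, g i ∈ RingHom.ker ψ) :
    (Matrix.of fun i => linPart n 𝒪 (g i)).det ∈ eta π := by
  obtain ⟨M, hM⟩ := exists_matrix_mulVec g fun i => ker_psi_le hπ (hg i)
  rw [mem_eta_iff]
  refine ⟨ψ M.det, psi_det_mem_annihilator hψ hπ M (fun i => by rw [hM]; exact hg i), ?_⟩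
  rw [pi_psi_det hπ, hM]

end fit

section uni

variable {𝒪 : Type*} [CommRing 𝒪] [IsDomain 𝒪] {n : ℕ}

/-- (UNI): relations with the same (independent) linear parts generate the same ideal. -/
theorem mem_span_of_linPart_eq (g g' : Fin n → MvPowerSeries (Fin n) 𝒪)
    (hg : ∀ i, constantCoeff (g i) = 0)
    (hdet : (Matrix.of fun i => linPart n 𝒪 (g i)).det ≠ 0)
    (hmem : ∀ i, g' i ∈ Ideal.span (Set.range g))
    (hlin : ∀ i, linPart n 𝒪 (g' i) = linPart n 𝒪 (g i)) (j : Fin n) :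
    g j ∈ Ideal.span (Set.range g') := by
  classical
  have hU : ∀ i, ∃ c : Fin n → MvPowerSeries (Fin n) 𝒪, ∑ k, c k * g k = g' i := fun i =>
    (Ideal.mem_span_range_iff_exists_fun (R := MvPowerSeries (Fin n) 𝒪)).mp (hmem i)
  choose U hU using hU
  let U' : Matrix (Fin n) (Fin n) (MvPowerSeries (Fin n) 𝒪) := Matrix.of U
  let B : Matrix (Fin n) (Fin n) 𝒪 := Matrix.of fun i => linPart n 𝒪 (g i)
  let U₀ : Matrix (Fin n) (Fin n) 𝒪 := U'.map constantCoeff
  -- `U₀ B = B`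
  have h1 : U₀ * B = B := by
    ext i j
    have := congrFun (hlin i) j
    rw [← hU i, map_sum] at this
    simp_rw [linPart_mul _ _ (hg _)] at this
    rw [Matrix.mul_apply]
    simpa [U₀, U', B] using this
  have h2 : U₀ = 1 := by
    have h3 : (U₀ - 1) * B = 0 := by rw [sub_mul, h1, one_mul, sub_self]
    have h4 : (U₀ - 1) * (B * B.adjugate) = 0 := by rw [← mul_assoc, h3, zero_mul]
    rw [Matrix.mul_adjugate, Matrix.mul_smul, mul_one] at h4
    have h5 : U₀ - 1 = 0 := by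
      ext i j
      have := congrFun (congrFun h4 i) j
      simp only [Matrix.smul_apply, Matrix.zero_apply, smul_eq_mul] at this
      rcases mul_eq_zero.mp this with h | h
      · exact absurd h hdet
      · simpa using h
    exact sub_eq_zero.mp h5
  have h6 : IsUnit U'.det := by
    rw [MvPowerSeries.isUnit_iff_constantCoeff, RingHom.map_det]
    have : (constantCoeff (σ := Fin n) (R := 𝒪)).mapMatrix U' = U₀ := rfl
    rw [this, h2, Matrix.det_one]
    exact isUnit_one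
  have h7 : U'.det * g j ∈ Ideal.span (Set.range g') := by
    refine det_mul_mem_span U' g j _ fun i => ?_
    have : U'.mulVec g i = g' i := hU i
    rw [this]
    exact Ideal.subset_span ⟨i, rfl⟩
  exact (Ideal.unit_mul_mem_iff_mem _ h6).mp h7

end uni

end Fermat.Agent.S59.NumCrit.H90
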