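import Fermat.Agent.S59.NumCrit.H90_OmegaFree
import Fermat.Agent.S59.NumCrit.H12_Omega

/-!
# S59 NUMCRIT / RT-NONMIN, leaf GROWTH: the congruence module grows

Diamond / Wiles (Ch. 2), pure algebra.  `θ : T' → T`, augmentations `π : T → 𝒪`, `π' = π ∘ θ`,
modules `M` over `T` and `M'` over `T'` (finite free over the discrete valuation ring `𝒪`),
`α : M → M'` injective with saturated image, `α' : M' → M` onto, both `T'`-linear, and
`α' ∘ α = c` for some `c : T`.  If `rank M'[𝔭'] ≤ rank M[𝔭]` then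
`#Ω(M) · #(𝒪/π(c))^d ≤ #Ω(M')`, `d = rank M[𝔭]` (`card_omega_growth`).
-/

set_option autoImplicit false
set_option linter.style.haveILetI false

open Module

namespace Fermat.Agent.S59.NumCrit.H90

/-- Lagrange for a surjective linear map, in terms of `Nat.card`. -/
theorem card_eq_card_mul_card_ker {𝒪 : Type*} [CommRing 𝒪] {G H : Type*} [AddCommGroup G]
    [AddCommGroup H] [Module 𝒪 G] [Module 𝒪 H] (f : G →ₗ[𝒪] H) (hf : Function.Surjective f) :
    Nat.card G = Nat.card H * Nat.card (LinearMap.ker f) := by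
  have h1 := AddSubgroup.card_eq_card_quotient_mul_card_addSubgroup (LinearMap.ker f).toAddSubgroup
  have h2 : Nat.card (G ⧸ (LinearMap.ker f).toAddSubgroup) = Nat.card H :=
    Nat.card_congr (f.quotKerEquivOfSurjective hf).toEquiv
  rw [h2] at h1
  exact h1

/-- the cardinality of the range is that of the quotient by the kernel. -/
theorem card_range_eq_card_quotient_ker {𝒪 : Type*} [CommRing 𝒪] {G H : Type*} [AddCommGroup G]
    [AddCommGroup H] [Module 𝒪 G] [Module 𝒪 H] (f : G →ₗ[𝒪] H) :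
    Nat.card (LinearMap.range f) = Nat.card (G ⧸ LinearMap.ker f) :=
  Nat.card_congr f.quotKerEquivRange.symm.toEquiv

section growth

variable {𝒪 : Type*} [CommRing 𝒪] [IsDomain 𝒪]
  {T : Type*} [CommRing T] [Algebra 𝒪 T] {π : T →ₐ[𝒪] 𝒪}
  {M : Type*} [AddCommGroup M] [Module T M] [Module 𝒪 M] [IsScalarTower 𝒪 T M]
  [Module.Free 𝒪 M]

/-- `M[𝔭] ∩ M[I] = 0` when `η ≠ 0` and `M` is torsion-free. -/
theorem torsionBySet_ker_inf_ann (hη : eta π ≠ ⊥) {x : M}
    (hx : x ∈ Submodule.torsionBySet T M (RingHom.ker π : Set T))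
    (hx' : x ∈ Submodule.torsionBySet T M ((RingHom.ker π).annihilator : Set T)) : x = 0 := by
  obtain ⟨e, he, he0⟩ := Submodule.exists_mem_ne_zero_of_ne_bot hη
  obtain ⟨i, hi, rfl⟩ := mem_eta_iff.mp he
  have h1 : i • x = 0 := H12.smul_eq_zero_of_mem_torsionBySet_ann hi hx'
  rw [H12.smul_eq_of_mem_torsionBySet_ker i hx] at h1
  rcases smul_eq_zero.mp h1 with h | h
  · exact absurd h he0
  · exact h

/-- `M[𝔭]` is saturated in `M`. -/
theorem mem_torsionBySet_of_smul_mem {s : Set T} {a : 𝒪} (ha : a ≠ 0) {m : M}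
    (hm : a • m ∈ Submodule.torsionBySet T M s) : m ∈ Submodule.torsionBySet T M s := by
  haveI : SMulCommClass 𝒪 T M := IsScalarTower.to_smulCommClass
  rw [Submodule.mem_torsionBySet_iff] at hm ⊢
  intro t
  have h := hm t
  have h' : (t : T) • a • m = 0 := h
  rw [smul_comm] at h'
  rcases smul_eq_zero.mp h' with h0 | h0
  · exact absurd h0 ha
  · exact h0

end growth

section growth2

variable {𝒪 : Type*} [CommRing 𝒪] [IsDomain 𝒪]
  {T T' : Type*} [CommRing T] [Algebra 𝒪 T] [CommRing T'] [Algebra 𝒪 T']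
  {θ : T' →ₐ[𝒪] T} {π : T →ₐ[𝒪] 𝒪}
  {M M' : Type*} [AddCommGroup M] [Module T M] [Module 𝒪 M] [IsScalarTower 𝒪 T M]
  [AddCommGroup M'] [Module T' M'] [Module 𝒪 M'] [IsScalarTower 𝒪 T' M']

omit [IsDomain 𝒪] [IsScalarTower 𝒪 T M] [IsScalarTower 𝒪 T' M'] in
/-- `α (M[𝔭]) ⊆ M'[𝔭']`. -/
theorem map_mem_torsionBySet_ker {α : M →ₗ[𝒪] M'}
    (hα : ∀ (t : T') (m : M), α (θ t • m) = t • α m) {l : M}
    (hl : l ∈ Submodule.torsionBySet T M (RingHom.ker π : Set T)) :
    α l ∈ Submodule.torsionBySet T' M' (RingHom.ker (π.comp θ) : Set T') := by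
  rw [Submodule.mem_torsionBySet_iff] at hl ⊢
  rintro ⟨t, ht⟩
  show t • α l = 0
  have h1 : θ t ∈ RingHom.ker π := by
    have ht' : t ∈ RingHom.ker (π.comp θ) := ht
    rw [RingHom.mem_ker] at ht' ⊢
    exact ht'
  have h2 : θ t • l = 0 := hl ⟨θ t, h1⟩
  rw [← hα, h2, map_zero]

/-- `α' (M'[I']) ⊆ M[I]` (automatic, as `η' ≠ 0` and `M` is torsion-free). -/
theorem map_mem_torsionBySet_ann [Module.Free 𝒪 M] (hη' : eta (π.comp θ) ≠ ⊥)
    {α' : M' →ₗ[𝒪] M} (hα' : ∀ (t : T') (m : M'), α' (t • m) = θ t • α' m) {k : M'}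
    (hk : k ∈ Submodule.torsionBySet T' M' ((RingHom.ker (π.comp θ)).annihilator : Set T')) :
    α' k ∈ Submodule.torsionBySet T M ((RingHom.ker π).annihilator : Set T) := by
  haveI : SMulCommClass 𝒪 T M := IsScalarTower.to_smulCommClass
  obtain ⟨e, he, he0⟩ := Submodule.exists_mem_ne_zero_of_ne_bot hη'
  obtain ⟨i, hi, rfl⟩ := mem_eta_iff.mp he
  rw [Submodule.mem_torsionBySet_iff]
  rintro ⟨j, hj⟩
  show j • α' k = 0
  -- `i • k = 0`
  have h1 : i • k = 0 := H12.smul_eq_zero_of_mem_torsionBySet_ann hi hk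
  -- `t := i - π' i ∈ 𝔭'`, so `θ t ∈ 𝔭` and `j * θ t = 0`
  have h2 : θ (i - algebraMap 𝒪 T' ((π.comp θ) i)) ∈ RingHom.ker π := by
    have := H12.sub_algebraMap_mem_ker (π := π.comp θ) i
    rw [RingHom.mem_ker] at this ⊢
    exact this
  have h3 : j * θ (i - algebraMap 𝒪 T' ((π.comp θ) i)) = 0 := by
    have := Submodule.mem_annihilator.mp hj _ h2
    rwa [smul_eq_mul] at this
  have h4 : θ (i - algebraMap 𝒪 T' ((π.comp θ) i)) • α' k = - ((π.comp θ) i • α' k) := by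
    rw [← hα', sub_smul, h1, zero_sub, algebraMap_smul, map_neg, map_smul]
  have h5 : (π.comp θ) i • (j • α' k) = 0 := by
    rw [smul_comm, ← neg_eq_zero, ← smul_neg, ← h4, smul_smul, h3, zero_smul]
  rcases smul_eq_zero.mp h5 with h | h
  · exact absurd h he0
  · exact h

/-- `M'[𝔭'] ⊆ α (M[𝔭])`: the image of `M[𝔭]` is saturated of full rank. -/
theorem exists_map_eq_of_mem_torsionBySet_ker [IsDiscreteValuationRing 𝒪]
    [Module.Free 𝒪 M] [Module.Finite 𝒪 M'] [Module.Free 𝒪 M']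
    {α : M →ₗ[𝒪] M'} (hα : ∀ (t : T') (m : M), α (θ t • m) = t • α m)
    (hinj : Function.Injective α)
    (hsat : ∀ (a : 𝒪) (m : M'), a ≠ 0 → a • m ∈ LinearMap.range α → m ∈ LinearMap.range α)
    (hrank : Module.finrank 𝒪
        ((Submodule.torsionBySet T' M' (RingHom.ker (π.comp θ) : Set T')).restrictScalars 𝒪)
      ≤ Module.finrank 𝒪
        ((Submodule.torsionBySet T M (RingHom.ker π : Set T)).restrictScalars 𝒪))
    {l' : M'} (hl' : l' ∈ Submodule.torsionBySet T' M' (RingHom.ker (π.comp θ) : Set T')) :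
    ∃ l ∈ Submodule.torsionBySet T M (RingHom.ker π : Set T), α l = l' := by
  set L : Submodule 𝒪 M :=
    (Submodule.torsionBySet T M (RingHom.ker π : Set T)).restrictScalars 𝒪 with hL
  set L' : Submodule 𝒪 M' :=
    (Submodule.torsionBySet T' M' (RingHom.ker (π.comp θ) : Set T')).restrictScalars 𝒪 with hL'
  set N : Submodule 𝒪 M' := L.map α with hN
  have hNL : N ≤ L' := by
    rintro _ ⟨l, hl, rfl⟩
    exact map_mem_torsionBySet_ker hα hl
  have h1 : Module.finrank 𝒪 N = Module.finrank 𝒪 L :=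
    (Submodule.equivMapOfInjective α hinj L).finrank_eq.symm
  set N' : Submodule 𝒪 L' := N.comap L'.subtype with hN'
  have h2 : Module.finrank 𝒪 N' = Module.finrank 𝒪 N :=
    (Submodule.comapSubtypeEquivOfLe hNL).finrank_eq
  have h3 := Submodule.finrank_quotient_add_finrank N'
  have h4 : Module.finrank 𝒪 (L' ⧸ N') = 0 := by omega
  obtain ⟨a, ha, hax⟩ := Module.finrank_eq_zero_iff.mp h4 (N'.mkQ ⟨l', hl'⟩)
  rw [← map_smul, Submodule.mkQ_apply, Submodule.Quotient.mk_eq_zero] at hax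
  obtain ⟨l, hl, hlα⟩ : ∃ l ∈ L, α l = a • l' := hax
  obtain ⟨m, hm⟩ := hsat a l' ha ⟨l, hlα⟩
  refine ⟨m, ?_, hm⟩
  have h5 : a • m = l := by
    apply hinj
    rw [map_smul, hm, hlα]
  have h6 : a • m ∈ Submodule.torsionBySet T M (RingHom.ker π : Set T) := by
    rw [h5]
    exact hl
  exact mem_torsionBySet_of_smul_mem ha h6

end growth2

/-- **GROWTH** (Diamond / Wiles Ch. 2, pure algebra): the congruence module grows by
`π(c)^d`, `d = rank M[𝔭]`. -/
theorem card_omega_growth {𝒪 : Type*} [CommRing 𝒪] [IsDomain 𝒪] [IsDiscreteValuationRing 𝒪]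
    [Finite (IsLocalRing.ResidueField 𝒪)]
    {T T' : Type*} [CommRing T] [Algebra 𝒪 T] [CommRing T'] [Algebra 𝒪 T']
    (θ : T' →ₐ[𝒪] T) (π : T →ₐ[𝒪] 𝒪)
    {M M' : Type*} [AddCommGroup M] [Module T M] [Module 𝒪 M] [IsScalarTower 𝒪 T M]
    [Module.Finite 𝒪 M] [Module.Free 𝒪 M]
    [AddCommGroup M'] [Module T' M'] [Module 𝒪 M'] [IsScalarTower 𝒪 T' M']
    [Module.Finite 𝒪 M'] [Module.Free 𝒪 M']
    (hη : eta π ≠ ⊥) (hη' : eta (π.comp θ) ≠ ⊥)
    (α : M →ₗ[𝒪] M') (hα : ∀ (t : T') (m : M), α (θ t • m) = t • α m)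
    (α' : M' →ₗ[𝒪] M) (hα' : ∀ (t : T') (m : M'), α' (t • m) = θ t • α' m)
    (hinj : Function.Injective α)
    (hsat : ∀ (a : 𝒪) (m : M'), a ≠ 0 → a • m ∈ LinearMap.range α → m ∈ LinearMap.range α)
    (hsurj : Function.Surjective α')
    (c : T) (hc : ∀ m : M, α' (α m) = c • m)
    (hrank : Module.finrank 𝒪
        ((Submodule.torsionBySet T' M' (RingHom.ker (π.comp θ) : Set T')).restrictScalars 𝒪)
      ≤ Module.finrank 𝒪
        ((Submodule.torsionBySet T M (RingHom.ker π : Set T)).restrictScalars 𝒪)) :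
    Nat.card (M ⧸ omegaSub π M) * Nat.card (𝒪 ⧸ Ideal.span {π c}) ^ Module.finrank 𝒪
        ((Submodule.torsionBySet T M (RingHom.ker π : Set T)).restrictScalars 𝒪)
      ≤ Nat.card (M' ⧸ omegaSub (π.comp θ) M') := by
  classical
  set L : Submodule T M := Submodule.torsionBySet T M (RingHom.ker π : Set T) with hL
  set K : Submodule T M := Submodule.torsionBySet T M ((RingHom.ker π).annihilator : Set T)
    with hK
  set L' : Submodule T' M' := Submodule.torsionBySet T' M' (RingHom.ker (π.comp θ) : Set T')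
    with hL'
  set K' : Submodule T' M' :=
    Submodule.torsionBySet T' M' ((RingHom.ker (π.comp θ)).annihilator : Set T') with hK'
  set L𝒪 : Submodule 𝒪 M := L.restrictScalars 𝒪 with hL𝒪
  set K𝒪 : Submodule 𝒪 M := K.restrictScalars 𝒪 with hK𝒪
  -- the submodules `A = π(c) L + K ≤ B = L + K` of `M` and `B' = L' + K'` of `M'`
  set A : Submodule 𝒪 M := L𝒪.map (LinearMap.lsmul 𝒪 M (π c)) ⊔ K𝒪 with hA
  set B : Submodule 𝒪 M := (L ⊔ K).restrictScalars 𝒪 with hB
  set B' : Submodule 𝒪 M' := (L' ⊔ K').restrictScalars 𝒪 with hB'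
  have hLB : ∀ {x : M}, x ∈ L → x ∈ B := fun hx =>
    (Submodule.restrictScalars_mem 𝒪 (L ⊔ K) _).mpr (Submodule.mem_sup_left hx)
  have hKB : ∀ {x : M}, x ∈ K → x ∈ B := fun hx =>
    (Submodule.restrictScalars_mem 𝒪 (L ⊔ K) _).mpr (Submodule.mem_sup_right hx)
  have hKA : ∀ {x : M}, x ∈ K → x ∈ A := fun hx => Submodule.mem_sup_right hx
  have hcLA : ∀ {x : M}, x ∈ L → π c • x ∈ A := fun {x} hx =>
    Submodule.mem_sup_left ⟨x, hx, rfl⟩
  have hAB : A ≤ B := by
    refine sup_le ?_ ?_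
    · rintro _ ⟨l, hl, rfl⟩
      exact hLB (L𝒪.smul_mem (π c) hl)
    · intro x hx
      exact hKB hx
  -- `α'` maps `B'` into `A`
  have hα'B' : B' ≤ A.comap α' := by
    intro m hm
    obtain ⟨l', hl', k', hk', rfl⟩ := Submodule.mem_sup.mp
      ((Submodule.restrictScalars_mem 𝒪 (L' ⊔ K') _).mp hm)
    rw [Submodule.mem_comap, map_add]
    refine A.add_mem ?_ ?_
    · obtain ⟨l, hl, rfl⟩ := exists_map_eq_of_mem_torsionBySet_ker hα hinj hsat hrank hl'
      rw [hc, H12.smul_eq_of_mem_torsionBySet_ker c hl]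
      exact hcLA hl
    · exact hKA (map_mem_torsionBySet_ann hη' hα' hk')
  -- the induced surjection `Ω(M') → M / A`
  let g : (M' ⧸ B') →ₗ[𝒪] (M ⧸ A) := Submodule.mapQ B' A α' hα'B'
  have hg : Function.Surjective g := by
    intro x
    obtain ⟨m, rfl⟩ := A.mkQ_surjective x
    obtain ⟨m', rfl⟩ := hsurj m
    exact ⟨B'.mkQ m', rfl⟩
  obtain ⟨hfin, -⟩ := H12.card_omega_le (π.comp θ) (M := M') hη'
  haveI : Finite (M' ⧸ B') :=
    Finite.of_equiv _ (Submodule.Quotient.restrictScalarsEquiv 𝒪 (L' ⊔ K')).symm.toEquiv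
  have h1 : Nat.card (M ⧸ A) ≤ Nat.card (M' ⧸ B') := Nat.card_le_card_of_surjective g hg
  -- the surjection `M / A → M / B` and its kernel
  let f : (M ⧸ A) →ₗ[𝒪] (M ⧸ B) := Submodule.factor hAB
  have hf : Function.Surjective f := Submodule.factor_surjective hAB
  have h2 := card_eq_card_mul_card_ker f hf
  let u : L𝒪 →ₗ[𝒪] (M ⧸ A) := A.mkQ.comp L𝒪.subtype
  have hku : LinearMap.ker u = H12.smulTop (π c) L𝒪 := by
    ext x
    rw [LinearMap.mem_ker, H12.mem_smulTop]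
    show A.mkQ (x : M) = 0 ↔ _
    rw [Submodule.mkQ_apply, Submodule.Quotient.mk_eq_zero]
    constructor
    · intro hx
      obtain ⟨y, ⟨l₁, hl₁, rfl⟩, k, hk, hyk⟩ := Submodule.mem_sup.mp hx
      have hk0 : k = 0 := by
        refine torsionBySet_ker_inf_ann hη ?_ hk
        have : k = (x : M) - π c • l₁ := by
          rw [← hyk]
          show k = (π c • l₁ + k) - π c • l₁
          abel
        rw [this]
        exact L𝒪.sub_mem x.2 (L𝒪.smul_mem (π c) hl₁)
      refine ⟨⟨l₁, hl₁⟩, Subtype.ext ?_⟩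
      rw [← hyk, hk0, add_zero]
      rfl
    · rintro ⟨y, rfl⟩
      exact hcLA y.2
  have hru : LinearMap.range u = LinearMap.ker f := by
    ext x
    rw [LinearMap.mem_range, LinearMap.mem_ker]
    constructor
    · rintro ⟨l, rfl⟩
      show Submodule.factor hAB (A.mkQ (l : M)) = 0
      rw [Submodule.factor_mk, Submodule.mkQ_apply, Submodule.Quotient.mk_eq_zero]
      exact hLB l.2
    · intro hx
      obtain ⟨m, rfl⟩ := A.mkQ_surjective x
      have hm : m ∈ B := by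
        have : Submodule.factor hAB (A.mkQ m) = 0 := hx
        rwa [Submodule.factor_mk, Submodule.mkQ_apply, Submodule.Quotient.mk_eq_zero] at this
      obtain ⟨l, hl, k, hk, rfl⟩ := Submodule.mem_sup.mp
        ((Submodule.restrictScalars_mem 𝒪 (L ⊔ K) _).mp hm)
      refine ⟨⟨l, hl⟩, ?_⟩
      show A.mkQ l = A.mkQ (l + k)
      have hk0 : A.mkQ k = 0 := by
        rw [Submodule.mkQ_apply, Submodule.Quotient.mk_eq_zero]
        exact hKA hk
      rw [map_add, hk0, add_zero]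
  have h3 : Nat.card (LinearMap.ker f)
      = Nat.card (𝒪 ⧸ Ideal.span {π c}) ^ Module.finrank 𝒪 L𝒪 := by
    rw [← hru, card_range_eq_card_quotient_ker, hku, H12.card_quotient_smulTop]
  -- conclusion
  have h4 : Nat.card (M ⧸ omegaSub π M) = Nat.card (M ⧸ B) :=
    Nat.card_congr (Submodule.Quotient.restrictScalarsEquiv 𝒪 (L ⊔ K)).symm.toEquiv
  have h5 : Nat.card (M' ⧸ omegaSub (π.comp θ) M') = Nat.card (M' ⧸ B') :=
    Nat.card_congr (Submodule.Quotient.restrictScalarsEquiv 𝒪 (L' ⊔ K')).symm.toEquiv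
  rw [h4, h5, ← h3, ← h2]
  exact h1

end Fermat.Agent.S59.NumCrit.H90
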