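import Fermat.Agent.S59.NumCrit.H90_CI
import Fermat.Agent.S59.NumCrit.H8_Avoid

/-!
# S59 NUMCRIT: the two properties over the residue field

`regProp_of : KapProp k⟦X⟧ 𝔪 → RegProp k n` (regular lifts by coset prime avoidance) and
`coreProp_of : KapProp k⟦X⟧ 𝔪 → DimProp k n → CoreProp k n` (an ideal containing a regular sequence
`M X` of length `n` but not `det M` is generated by it).  Here `KapProp` is the statement of
Kaplansky's theorem on socles (leaf KAP) and `DimProp` the statement of leaf DIM.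
-/

set_option autoImplicit false

namespace Fermat.Agent.S59.NumCrit.H90

open MvPowerSeries RingTheory.Sequence

section vars

variable (n : ℕ) (R : Type*) [CommRing R]

/-- the list of variables. -/
noncomputable def varSeq : List (MvPowerSeries (Fin n) R) :=
  List.ofFn fun i : Fin n => (X i : MvPowerSeries (Fin n) R)

@[simp] theorem length_varSeq : (varSeq n R).length = n := by simp [varSeq]

variable {n R}

theorem getElem_varSeq (i : ℕ) (hi : i < (varSeq n R).length) :
    (varSeq n R)[i] = (X ⟨i, by simpa using hi⟩ : MvPowerSeries (Fin n) R) := by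
  simp [varSeq]

theorem ofList_take_varSeq (m : ℕ) :
    Ideal.ofList ((varSeq n R).take m)
      = powIdeal 1 ((Finset.univ.filter fun j : Fin n => (j : ℕ) < m : Finset (Fin n)) : Set (Fin n)) := by
  unfold Ideal.ofList powIdeal
  congr 1
  ext g
  simp only [Set.mem_ofPred_eq, Set.mem_image, Finset.coe_filter, Finset.mem_univ, true_and, pow_one]
  rw [List.mem_take_iff_getElem]
  constructor
  · rintro ⟨k, hk, rfl⟩
    simp only [length_varSeq, lt_inf_iff] at hk
    refine ⟨⟨k, hk.2⟩, hk.1, ?_⟩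
    rw [getElem_varSeq]
  · rintro ⟨j, hj, rfl⟩
    refine ⟨j, ?_, ?_⟩
    · simp only [length_varSeq, lt_inf_iff]
      exact ⟨hj, j.2⟩
    · rw [getElem_varSeq]

theorem isWeaklyRegular_varSeq : IsWeaklyRegular (MvPowerSeries (Fin n) R) (varSeq n R) := by
  classical
  rw [isWeaklyRegular_iff_Fin]
  intro i
  rw [isSMulRegular_quotient_iff_mem_of_smul_mem]
  intro f hf
  rw [smul_eq_mul, Ideal.mul_top] at hf ⊢
  rw [ofList_take_varSeq] at hf ⊢
  have hi : (i : ℕ) < n := by
    have := i.2
    simpa using this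
  have hget : (varSeq n R)[i] = (X (⟨i, hi⟩ : Fin n) : MvPowerSeries (Fin n) R) := by
    rw [Fin.getElem_fin, getElem_varSeq]
  rw [hget, smul_eq_mul] at hf
  refine mem_powIdeal_of_X_pow_mul_mem 1 _ ⟨i, hi⟩ (by simp) f ?_
  rw [pow_one]
  exact hf

theorem ofList_varSeq :
    Ideal.ofList (varSeq n R) = Ideal.span (Set.range fun j => (X j : MvPowerSeries (Fin n) R)) := by
  unfold Ideal.ofList varSeq
  congr 1
  ext g
  simp [List.mem_ofFn]

theorem ofList_ofFn {A : Type*} [CommRing A] (y : Fin n → A) :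
    Ideal.ofList (List.ofFn y) = Ideal.span (Set.range y) := by
  unfold Ideal.ofList
  congr 1
  ext g
  simp [List.mem_ofFn]

theorem mem_span_X_iff (f : MvPowerSeries (Fin n) R) :
    f ∈ Ideal.span (Set.range fun j => (X j : MvPowerSeries (Fin n) R)) ↔ constantCoeff f = 0 := by
  constructor
  · exact constantCoeff_eq_zero_of_mem_span_X
  · intro h
    obtain ⟨c, rfl⟩ := exists_eq_sum_mul_X f h
    exact Ideal.sum_mem _ fun i _ => Ideal.mul_mem_left _ _ (Ideal.subset_span ⟨i, rfl⟩)

end vars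

section field

variable {n : ℕ} {k : Type*} [Field k]

theorem maximalIdeal_eq_span_X :
    IsLocalRing.maximalIdeal (MvPowerSeries (Fin n) k)
      = Ideal.span (Set.range fun j => (X j : MvPowerSeries (Fin n) k)) := by
  ext f
  rw [mem_span_X_iff, IsLocalRing.mem_maximalIdeal, mem_nonunits_iff,
    MvPowerSeries.isUnit_iff_constantCoeff, isUnit_iff_ne_zero, not_not]

end field

section kside

variable {n : ℕ} {k : Type*} [Field k]

/-- the statement of Kaplansky's theorem for the ring itself. -/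
def KapProp (R : Type*) [CommRing R] (I : Ideal R) : Prop :=
  ∀ xs ys : List R, xs.length = ys.length → (∀ x ∈ xs, x ∈ I) → (∀ y ∈ ys, y ∈ I) →
    IsWeaklyRegular R xs → IsWeaklyRegular R ys →
    Nonempty (Submodule.torsionBySet R (R ⧸ (Ideal.ofList xs • (⊤ : Submodule R R))) (I : Set R)
      ≃ₗ[R] Submodule.torsionBySet R (R ⧸ (Ideal.ofList ys • (⊤ : Submodule R R))) (I : Set R))

/-- the statement (DIM). -/
def DimProp (k : Type*) [Field k] (n : ℕ) : Prop :=
  ∀ ys : List (MvPowerSeries (Fin n) k), ys.length = n → (∀ y ∈ ys, constantCoeff y = 0) →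
    IsWeaklyRegular (MvPowerSeries (Fin n) k) ys →
    ∃ N : ℕ, ∀ i, (X i : MvPowerSeries (Fin n) k) ^ N ∈ Ideal.ofList ys

theorem mem_maximalIdeal_of_mem_varSeq {x : MvPowerSeries (Fin n) k} (hx : x ∈ varSeq n k) :
    x ∈ IsLocalRing.maximalIdeal (MvPowerSeries (Fin n) k) := by
  unfold varSeq at hx
  rw [List.mem_ofFn] at hx
  obtain ⟨j, rfl⟩ := hx
  rw [maximalIdeal_eq_span_X]
  exact Ideal.subset_span ⟨j, rfl⟩

/-- (DEPTH): the socle of the quotient by a regular sequence of length `< n` vanishes. -/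
theorem soc_eq_bot_of_length_lt
    (hKAP : KapProp (MvPowerSeries (Fin n) k) (IsLocalRing.maximalIdeal _))
    (ys : List (MvPowerSeries (Fin n) k)) (hlen : ys.length < n)
    (hmem : ∀ y ∈ ys, y ∈ IsLocalRing.maximalIdeal (MvPowerSeries (Fin n) k))
    (hreg : IsWeaklyRegular (MvPowerSeries (Fin n) k) ys) :
    Submodule.torsionBySet (MvPowerSeries (Fin n) k)
      (MvPowerSeries (Fin n) k ⧸
        (Ideal.ofList ys • (⊤ : Submodule (MvPowerSeries (Fin n) k) (MvPowerSeries (Fin n) k))))
      (IsLocalRing.maximalIdeal (MvPowerSeries (Fin n) k) : Set (MvPowerSeries (Fin n) k)) = ⊥ := by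
  set m := ys.length with hm
  have hxlen : ((varSeq n k).take m).length = ys.length := by
    rw [List.length_take, length_varSeq]
    omega
  have hxreg : IsWeaklyRegular (MvPowerSeries (Fin n) k) ((varSeq n k).take m) := by
    have h := isWeaklyRegular_varSeq (n := n) (R := k)
    rw [← List.take_append_drop m (varSeq n k), isWeaklyRegular_append_iff] at h
    exact h.1
  obtain ⟨e⟩ := hKAP ((varSeq n k).take m) ys hxlen
    (fun x hx => mem_maximalIdeal_of_mem_varSeq (List.mem_of_mem_take hx)) hmem hxreg hreg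
  have hmlt : m < (varSeq n k).length := by rw [length_varSeq]; exact hlen
  have hXreg := (isWeaklyRegular_varSeq (n := n) (R := k)).regular_mod_prev m hmlt
  have hXmem : (varSeq n k)[m] ∈ IsLocalRing.maximalIdeal (MvPowerSeries (Fin n) k) :=
    mem_maximalIdeal_of_mem_varSeq (List.getElem_mem hmlt)
  have hsub : ∀ u : Submodule.torsionBySet (MvPowerSeries (Fin n) k)
      (MvPowerSeries (Fin n) k ⧸ (Ideal.ofList ((varSeq n k).take m) •
        (⊤ : Submodule (MvPowerSeries (Fin n) k) (MvPowerSeries (Fin n) k))))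
      (IsLocalRing.maximalIdeal (MvPowerSeries (Fin n) k) : Set (MvPowerSeries (Fin n) k)),
      u = 0 := by
    rintro ⟨u, hu⟩
    rw [Submodule.mem_torsionBySet_iff] at hu
    have h1 := hu ⟨_, hXmem⟩
    have h2 : (varSeq n k)[m] • u = (varSeq n k)[m] • 0 := by rw [smul_zero]; exact h1
    have h3 := hXreg h2
    exact Subtype.ext h3
  rw [eq_bot_iff]
  intro v hv
  have h4 := hsub (e.symm ⟨v, hv⟩)
  have h5 : (⟨v, hv⟩ : Submodule.torsionBySet _ _ _) = 0 := by
    rw [← e.apply_symm_apply ⟨v, hv⟩, h4, map_zero]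
  have := congrArg Subtype.val h5
  simpa using this

end kside

section reg

variable {n : ℕ} {k : Type*} [Field k]

/-- one step of (REG): a regular element in a coset of `𝔪 𝔞`. -/
theorem exists_regular_in_coset
    (hKAP : KapProp (MvPowerSeries (Fin n) k) (IsLocalRing.maximalIdeal _))
    (𝔞 : Ideal (MvPowerSeries (Fin n) k))
    (hN : ∃ N : ℕ, ∀ i, (X i : MvPowerSeries (Fin n) k) ^ N ∈ 𝔞)
    (L : List (MvPowerSeries (Fin n) k)) (hlen : L.length < n)
    (hmem : ∀ y ∈ L, y ∈ IsLocalRing.maximalIdeal (MvPowerSeries (Fin n) k))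
    (hreg : IsWeaklyRegular (MvPowerSeries (Fin n) k) L) (c : MvPowerSeries (Fin n) k) :
    ∃ x ∈ Ideal.span (Set.range fun j => (X j : MvPowerSeries (Fin n) k)) * 𝔞,
      IsSMulRegular (MvPowerSeries (Fin n) k ⧸ (Ideal.ofList L •
        (⊤ : Submodule (MvPowerSeries (Fin n) k) (MvPowerSeries (Fin n) k)))) (c + x) := by
  classical
  obtain ⟨N, hN⟩ := hN
  set Q := MvPowerSeries (Fin n) k ⧸ (Ideal.ofList L •
        (⊤ : Submodule (MvPowerSeries (Fin n) k) (MvPowerSeries (Fin n) k))) with hQ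
  have hsoc := soc_eq_bot_of_length_lt hKAP L hlen hmem hreg
  have hfin : (associatedPrimes (MvPowerSeries (Fin n) k) Q).Finite := associatedPrimes.finite _ _
  have hprime : ∀ q ∈ hfin.toFinset, q.IsPrime := by
    intro q hq
    rw [Set.Finite.mem_toFinset] at hq
    exact hq.isPrime
  have hnot : ∀ q ∈ hfin.toFinset,
      ¬ Ideal.span (Set.range fun j => (X j : MvPowerSeries (Fin n) k)) * 𝔞 ≤ q := by
    intro q hq hle
    have hqp := hprime q hq
    rw [Set.Finite.mem_toFinset] at hq
    have hm : Ideal.span (Set.range fun j => (X j : MvPowerSeries (Fin n) k)) ≤ q := by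
      rcases (Ideal.IsPrime.mul_le hqp).mp hle with h | h
      · exact h
      · rw [Ideal.span_le]
        rintro _ ⟨j, rfl⟩
        exact hqp.mem_of_pow_mem N (h (hN j))
    rw [← maximalIdeal_eq_span_X] at hm
    obtain ⟨_, u, hu⟩ := (isAssociatedPrime_iff).mp hq
    have hu' : u ∈ Submodule.torsionBySet (MvPowerSeries (Fin n) k) Q
        (IsLocalRing.maximalIdeal (MvPowerSeries (Fin n) k) : Set (MvPowerSeries (Fin n) k)) := by
      rw [Submodule.mem_torsionBySet_iff]
      rintro ⟨a, ha⟩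
      have : a ∈ q := hm ha
      rw [hu, Submodule.mem_colon_singleton] at this
      exact this
    rw [hsoc, Submodule.mem_bot] at hu'
    apply hqp.ne_top
    rw [hu, hu', Ideal.eq_top_iff_one, Submodule.mem_colon_singleton, smul_zero]
    exact Submodule.zero_mem _
  obtain ⟨x, hx, hxq⟩ := H8.coset_prime_avoidance _ c hfin.toFinset hprime hnot
  refine ⟨x, hx, ?_⟩
  have hcompl := biUnion_associatedPrimes_eq_compl_regular (MvPowerSeries (Fin n) k) Q
  by_contra hreg'
  have : c + x ∈ ⋃ p ∈ associatedPrimes (MvPowerSeries (Fin n) k) Q, (p : Set _) := by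
    rw [hcompl]
    exact hreg'
  rw [Set.mem_iUnion₂] at this
  obtain ⟨q, hq, hcq⟩ := this
  exact hxq q (by rw [Set.Finite.mem_toFinset]; exact hq) hcq

/-- **(REG)**. -/
theorem regProp_of (hKAP : KapProp (MvPowerSeries (Fin n) k) (IsLocalRing.maximalIdeal _)) :
    RegProp k n := by
  intro 𝔞 h𝔞 hN c hc
  have h𝔞m : 𝔞 ≤ IsLocalRing.maximalIdeal (MvPowerSeries (Fin n) k) :=
    IsLocalRing.le_maximalIdeal h𝔞
  have hmul : Ideal.span (Set.range fun j => (X j : MvPowerSeries (Fin n) k)) * 𝔞 ≤ 𝔞 :=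
    Ideal.mul_le_right
  have key : ∀ m, m ≤ n → ∃ L : List (MvPowerSeries (Fin n) k), L.length = m ∧
      (∀ y ∈ L, y ∈ 𝔞) ∧
      (∀ (j : ℕ) (hj : j < L.length) (hjn : j < n), L[j] - c ⟨j, hjn⟩
        ∈ Ideal.span (Set.range fun j => (X j : MvPowerSeries (Fin n) k)) * 𝔞) ∧
      IsWeaklyRegular (MvPowerSeries (Fin n) k) L := by
    intro m
    induction m with
    | zero =>
      intro _
      exact ⟨[], rfl, by simp, by simp, IsWeaklyRegular.nil _ _⟩
    | succ m ih =>
      intro hm
      obtain ⟨L, hLlen, hLmem, hLc, hLreg⟩ := ih (by omega)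
      have hmn : m < n := by omega
      obtain ⟨x, hx, hxreg⟩ := exists_regular_in_coset hKAP 𝔞 hN L (by omega)
        (fun y hy => h𝔞m (hLmem y hy)) hLreg (c ⟨m, hmn⟩)
      refine ⟨L ++ [c ⟨m, hmn⟩ + x], by simp [hLlen], ?_, ?_, ?_⟩
      · intro y hy
        rw [List.mem_append, List.mem_singleton] at hy
        rcases hy with hy | rfl
        · exact hLmem y hy
        · exact Ideal.add_mem _ (hc _) (hmul hx)
      · intro j hj hjn
        by_cases hjm : j < L.length
        · rw [List.getElem_append_left hjm]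
          exact hLc j hjm hjn
        · have hjeq : j = m := by
            simp only [List.length_append, List.length_singleton] at hj
            omega
          subst hjeq
          rw [List.getElem_append_right (by omega)]
          simp only [hLlen, Nat.sub_self, List.getElem_singleton, add_sub_cancel_left]
          exact hx
      · rw [isWeaklyRegular_append_iff]
        exact ⟨hLreg, (isWeaklyRegular_singleton_iff _ _).mpr hxreg⟩
  obtain ⟨L, hLlen, hLmem, hLc, hLreg⟩ := key n le_rfl
  refine ⟨fun i => L[(i : ℕ)]'(by rw [hLlen]; exact i.2), fun i => ?_, ?_⟩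
  · exact hLc i _ i.2
  · have : List.ofFn (fun i : Fin n => L[(i : ℕ)]'(by rw [hLlen]; exact i.2)) = L := by
      apply List.ext_getElem
      · simp [hLlen]
      · intro j h1 h2
        simp
    rw [this]
    exact hLreg

end reg

section core

variable {n : ℕ} {k : Type*} [Field k]

theorem smul_top_eq_self {A : Type*} [CommRing A] (I : Ideal A) :
    (I • (⊤ : Submodule A A)) = I := by
  rw [smul_eq_mul, Ideal.mul_top]

/-- in `k⟦X⟧/(X)` every element is a multiple of any non-zero element. -/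
theorem exists_smul_eq_of_ne_zero
    (w w' : MvPowerSeries (Fin n) k ⧸ (Ideal.ofList (varSeq n k) •
        (⊤ : Submodule (MvPowerSeries (Fin n) k) (MvPowerSeries (Fin n) k)))) (hw : w ≠ 0) :
    ∃ a : MvPowerSeries (Fin n) k, w' = a • w := by
  obtain ⟨f, rfl⟩ := Submodule.Quotient.mk_surjective _ w
  obtain ⟨f', rfl⟩ := Submodule.Quotient.mk_surjective _ w'
  have hf : f ∉ IsLocalRing.maximalIdeal (MvPowerSeries (Fin n) k) := by
    intro h
    apply hw
    rw [Submodule.Quotient.mk_eq_zero, smul_top_eq_self, ofList_varSeq, ← maximalIdeal_eq_span_X]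
    exact h
  rw [IsLocalRing.mem_maximalIdeal, mem_nonunits_iff, not_not] at hf
  obtain ⟨g, hg⟩ := hf.exists_right_inv
  refine ⟨f' * g, ?_⟩
  have h1 : (f' * g) • f = f' := by
    rw [smul_eq_mul, mul_assoc, mul_comm g f, hg, mul_one]
  rw [← Submodule.Quotient.mk_smul, h1]

/-- (SOC): the socle of the quotient by a regular sequence of length `n` is simple. -/
theorem soc_simple (hKAP : KapProp (MvPowerSeries (Fin n) k) (IsLocalRing.maximalIdeal _))
    (ys : List (MvPowerSeries (Fin n) k)) (hlen : ys.length = n)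
    (hmem : ∀ y ∈ ys, y ∈ IsLocalRing.maximalIdeal (MvPowerSeries (Fin n) k))
    (hreg : IsWeaklyRegular (MvPowerSeries (Fin n) k) ys)
    (u v : MvPowerSeries (Fin n) k)
    (hu : ∀ a ∈ IsLocalRing.maximalIdeal (MvPowerSeries (Fin n) k), a * u ∈ Ideal.ofList ys)
    (hv : ∀ a ∈ IsLocalRing.maximalIdeal (MvPowerSeries (Fin n) k), a * v ∈ Ideal.ofList ys)
    (hu0 : u ∉ Ideal.ofList ys) :
    ∃ a : MvPowerSeries (Fin n) k, v - a * u ∈ Ideal.ofList ys := by
  obtain ⟨e⟩ := hKAP (varSeq n k) ys (by rw [length_varSeq, hlen])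
    (fun x hx => mem_maximalIdeal_of_mem_varSeq hx) hmem isWeaklyRegular_varSeq hreg
  have hsoc : ∀ z : MvPowerSeries (Fin n) k,
      (∀ a ∈ IsLocalRing.maximalIdeal (MvPowerSeries (Fin n) k), a * z ∈ Ideal.ofList ys) →
      (Submodule.Quotient.mk z : MvPowerSeries (Fin n) k ⧸ (Ideal.ofList ys •
        (⊤ : Submodule (MvPowerSeries (Fin n) k) (MvPowerSeries (Fin n) k))))
        ∈ Submodule.torsionBySet (MvPowerSeries (Fin n) k) _
          (IsLocalRing.maximalIdeal (MvPowerSeries (Fin n) k) : Set (MvPowerSeries (Fin n) k)) := by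
    intro z hz
    rw [Submodule.mem_torsionBySet_iff]
    rintro ⟨a, ha⟩
    rw [← Submodule.Quotient.mk_smul, Submodule.Quotient.mk_eq_zero, smul_top_eq_self, smul_eq_mul]
    exact hz a ha
  set U : Submodule.torsionBySet (MvPowerSeries (Fin n) k) (MvPowerSeries (Fin n) k ⧸
      (Ideal.ofList ys • (⊤ : Submodule (MvPowerSeries (Fin n) k) (MvPowerSeries (Fin n) k))))
      (IsLocalRing.maximalIdeal (MvPowerSeries (Fin n) k) : Set (MvPowerSeries (Fin n) k)) :=
    ⟨_, hsoc u hu⟩ with hU
  set V : Submodule.torsionBySet (MvPowerSeries (Fin n) k) (MvPowerSeries (Fin n) k ⧸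
      (Ideal.ofList ys • (⊤ : Submodule (MvPowerSeries (Fin n) k) (MvPowerSeries (Fin n) k))))
      (IsLocalRing.maximalIdeal (MvPowerSeries (Fin n) k) : Set (MvPowerSeries (Fin n) k)) :=
    ⟨_, hsoc v hv⟩ with hV
  have hU0 : U ≠ 0 := by
    intro h
    apply hu0
    have := congrArg Subtype.val h
    rw [hU] at this
    simp only [Submodule.coe_zero] at this
    rwa [Submodule.Quotient.mk_eq_zero, smul_top_eq_self] at this
  have hU1 : ((e.symm U : _) : MvPowerSeries (Fin n) k ⧸ (Ideal.ofList (varSeq n k) •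
        (⊤ : Submodule (MvPowerSeries (Fin n) k) (MvPowerSeries (Fin n) k)))) ≠ 0 := by
    intro h
    apply hU0
    have : e.symm U = 0 := Subtype.ext h
    rw [← e.apply_symm_apply U, this, map_zero]
  obtain ⟨a, ha⟩ := exists_smul_eq_of_ne_zero _ ((e.symm V : _) : MvPowerSeries (Fin n) k ⧸ _) hU1
  have h1 : e.symm V = a • e.symm U := Subtype.ext ha
  have h2 : V = a • U := by
    rw [← e.apply_symm_apply V, h1, map_smul, e.apply_symm_apply]
  refine ⟨a, ?_⟩
  have h3 := congrArg Subtype.val h2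
  rw [hU, hV] at h3
  simp only [Submodule.coe_smul] at h3
  rw [← Submodule.Quotient.mk_smul, ← sub_eq_zero, ← Submodule.Quotient.mk_sub,
    Submodule.Quotient.mk_eq_zero, smul_top_eq_self, smul_eq_mul] at h3
  exact h3

/-- **(CORE)**. -/
theorem coreProp_of (hKAP : KapProp (MvPowerSeries (Fin n) k) (IsLocalRing.maximalIdeal _))
    (hDIM : DimProp k n) : CoreProp k n := by
  classical
  intro 𝔞 h𝔞 M hy hreg hdet
  set y := M.mulVec (fun j => (X j : MvPowerSeries (Fin n) k)) with hydef
  have h𝔞m : 𝔞 ≤ IsLocalRing.maximalIdeal (MvPowerSeries (Fin n) k) :=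
    IsLocalRing.le_maximalIdeal h𝔞
  have hofList : Ideal.ofList (List.ofFn y) = Ideal.span (Set.range y) := ofList_ofFn y
  have hmem : ∀ z ∈ List.ofFn y, z ∈ IsLocalRing.maximalIdeal (MvPowerSeries (Fin n) k) := by
    intro z hz
    rw [List.mem_ofFn] at hz
    obtain ⟨i, rfl⟩ := hz
    exact h𝔞m (hy i)
  have hconst : ∀ z ∈ List.ofFn y, constantCoeff z = 0 := by
    intro z hz
    have := hmem z hz
    rwa [maximalIdeal_eq_span_X, mem_span_X_iff] at this
  obtain ⟨N, hN⟩ := hDIM (List.ofFn y) (by simp) hconst hreg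
  rw [hofList] at hN
  have hdetJ : M.det ∉ Ideal.span (Set.range y) := det_notMem_span N M hN
  have hle : Ideal.span (Set.range y) ≤ 𝔞 := by
    rw [Ideal.span_le]
    rintro _ ⟨i, rfl⟩
    exact hy i
  refine le_antisymm ?_ hle
  by_contra hnle
  obtain ⟨w, hw𝔞, hwJ⟩ := SetLike.not_le_iff_exists.mp hnle
  -- the determinant is in the socle
  have hdetsoc : ∀ a ∈ IsLocalRing.maximalIdeal (MvPowerSeries (Fin n) k),
      a * M.det ∈ Ideal.ofList (List.ofFn y) := by
    intro a ha
    rw [hofList]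
    rw [maximalIdeal_eq_span_X, mem_span_X_iff] at ha
    obtain ⟨c, rfl⟩ := exists_eq_sum_mul_X a ha
    rw [Finset.sum_mul]
    refine Ideal.sum_mem _ fun j _ => ?_
    have : c j * X j * M.det = c j * (M.det * X j) := by ring
    rw [this]
    exact Ideal.mul_mem_left _ _
      (det_mul_mem_span M _ j _ fun i => Ideal.subset_span ⟨i, rfl⟩)
  -- a power of the maximal ideal lies in `(y)`
  have hrad : IsLocalRing.maximalIdeal (MvPowerSeries (Fin n) k)
      ≤ (Ideal.span (Set.range y)).radical := by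
    rw [maximalIdeal_eq_span_X, Ideal.span_le]
    rintro _ ⟨j, rfl⟩
    exact ⟨N, hN j⟩
  obtain ⟨K, hK⟩ := Ideal.exists_pow_le_of_le_radical_of_fg hrad
    ((isNoetherianRing_iff_ideal_fg _).mp inferInstance _)
  -- an element of the socle in `𝔞`
  have hex : ∃ t, ∀ m ∈ IsLocalRing.maximalIdeal (MvPowerSeries (Fin n) k) ^ t,
      m * w ∈ Ideal.span (Set.range y) :=
    ⟨K, fun m hm => Ideal.mul_mem_right _ _ (hK hm)⟩
  have hfind := Nat.find_spec hex
  have hmin := fun t => Nat.find_min hex (m := t)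
  set t₀ := Nat.find hex with ht₀
  have ht₀pos : t₀ ≠ 0 := by
    intro h0
    rw [h0] at hfind
    apply hwJ
    have := hfind 1 (by rw [pow_zero, Ideal.one_eq_top]; trivial)
    rwa [one_mul] at this
  obtain ⟨t, ht⟩ := Nat.exists_eq_succ_of_ne_zero ht₀pos
  have hnot := hmin t (by omega)
  obtain ⟨m, hnot'⟩ := not_forall.mp hnot
  obtain ⟨hm, hmw⟩ := Classical.not_imp.mp hnot'
  have hw'soc : ∀ a ∈ IsLocalRing.maximalIdeal (MvPowerSeries (Fin n) k),
      a * (m * w) ∈ Ideal.ofList (List.ofFn y) := by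
    intro a ha
    rw [hofList, ← mul_assoc]
    apply hfind
    rw [ht, pow_succ']
    exact Ideal.mul_mem_mul ha hm
  obtain ⟨a, ha⟩ := soc_simple hKAP (List.ofFn y) (by simp) hmem hreg (m * w) M.det hw'soc hdetsoc
    (by rw [hofList]; exact hmw)
  rw [hofList] at ha
  apply hdet
  have h1 : M.det - a * (m * w) ∈ 𝔞 := hle ha
  have h2 : a * (m * w) ∈ 𝔞 := Ideal.mul_mem_left _ _ (Ideal.mul_mem_left _ _ hw𝔞)
  have := Ideal.add_mem _ h1 h2
  rwa [sub_add_cancel] at this

end core

end Fermat.Agent.S59.NumCrit.H90
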