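import Fermat.Agent.S59.NumCrit.H90_Mono
import Fermat.Agent.S59.NumCrit.Defs

/-!
# S59 NUMCRIT, leaf LIN: the cotangent space of an augmented quotient of a power series ring

`cotangent_linearEquiv`: for `ψ : 𝒪⟦X_1..X_n⟧ ↠ A`, `π : A → 𝒪` with `π (ψ X_i) = 0`,
`Φ_A = (ker π)/(ker π)² ≃ 𝒪^n / ℓ(ker ψ)` where `ℓ = linPart` is the linear part.
Also: `pi_psi_eq_constantCoeff`, `linPart_mul`, `linPart_mulVec`, `exists_matrix_mulVec`.
-/

set_option autoImplicit false

namespace Fermat.Agent.S59.NumCrit.H90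

open MvPowerSeries

section lin

variable {σ : Type*} [Fintype σ] {R : Type*} [CommRing R]

/-- a power series without constant term is a combination of the variables. -/
theorem exists_eq_sum_mul_X (f : MvPowerSeries σ R) (hf : constantCoeff f = 0) :
    ∃ c : σ → MvPowerSeries σ R, f = ∑ i, c i * X i := by
  classical
  have h1 : f ∈ (powIdeal 1 ((Finset.univ : Finset σ) : Set σ) : Ideal (MvPowerSeries σ R)) := by
    refine mem_powIdeal_of_coeff 1 Finset.univ f fun m hm => ?_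
    have : m = 0 := by
      ext i
      have := hm i (Finset.mem_univ i)
      simp only [Finsupp.coe_zero, Pi.zero_apply]
      omega
    rw [this]
    exact hf
  have h2 : (powIdeal 1 ((Finset.univ : Finset σ) : Set σ) : Ideal (MvPowerSeries σ R))
      = Ideal.span (Set.range fun i : σ => (X i : MvPowerSeries σ R)) := by
    unfold powIdeal
    congr 1
    ext x
    simp
  rw [h2] at h1
  obtain ⟨c, hc⟩ := (Ideal.mem_span_range_iff_exists_fun (R := MvPowerSeries σ R)).mp h1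
  exact ⟨c, hc.symm⟩

omit [Fintype σ] in
theorem coeff_single_mul_X [DecidableEq σ] (c : MvPowerSeries σ R) (i j : σ) :
    coeff (Finsupp.single j 1) (c * X i) = if i = j then constantCoeff c else 0 := by
  rw [X_def, coeff_mul_monomial, mul_one]
  by_cases h : i = j
  · subst h
    rw [if_pos le_rfl, if_pos rfl, tsub_self]
    rfl
  · rw [if_neg h, if_neg]
    intro hle
    have := hle i
    simp [Finsupp.single_eq_of_ne h] at this

theorem coeff_single_sum_mul_X (c : σ → MvPowerSeries σ R) (j : σ) :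
    coeff (Finsupp.single j 1) (∑ i, c i * X i) = constantCoeff (c j) := by
  classical
  rw [map_sum]
  simp_rw [coeff_single_mul_X]
  rw [Finset.sum_ite_eq' Finset.univ j]
  simp

omit [Fintype σ] in
theorem constantCoeff_sum_mul_X (s : Finset σ) (c : σ → MvPowerSeries σ R) :
    constantCoeff (∑ i ∈ s, c i * X i) = 0 := by
  rw [map_sum]
  refine Finset.sum_eq_zero fun i _ => ?_
  rw [map_mul, constantCoeff_X, mul_zero]

end lin

section linPart

variable {𝒪 : Type*} [CommRing 𝒪] {n : ℕ}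

theorem linPart_sum_mul_X (c : Fin n → MvPowerSeries (Fin n) 𝒪) :
    linPart n 𝒪 (∑ i, c i * X i) = fun j => constantCoeff (c j) := by
  funext j
  rw [linPart_apply, coeff_single_sum_mul_X]

/-- the linear part of `M X` is the matrix of constant terms of `M`. -/
theorem linPart_mulVec (M : Matrix (Fin n) (Fin n) (MvPowerSeries (Fin n) 𝒪)) (i j : Fin n) :
    linPart n 𝒪 (M.mulVec (fun k => (X k : MvPowerSeries (Fin n) 𝒪)) i) j
      = constantCoeff (M i j) := by
  have : M.mulVec (fun k => (X k : MvPowerSeries (Fin n) 𝒪)) i = ∑ k, M i k * X k := rfl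
  rw [this, linPart_sum_mul_X]

theorem constantCoeff_mulVec (M : Matrix (Fin n) (Fin n) (MvPowerSeries (Fin n) 𝒪)) (i : Fin n) :
    constantCoeff (M.mulVec (fun k => (X k : MvPowerSeries (Fin n) 𝒪)) i) = 0 :=
  constantCoeff_sum_mul_X Finset.univ _

theorem linPart_mul (h f : MvPowerSeries (Fin n) 𝒪) (hf : constantCoeff f = 0) :
    linPart n 𝒪 (h * f) = constantCoeff h • linPart n 𝒪 f := by
  obtain ⟨c, rfl⟩ := exists_eq_sum_mul_X f hf
  have : h * ∑ i, c i * X i = ∑ i, (h * c i) * X i := by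
    rw [Finset.mul_sum]
    exact Finset.sum_congr rfl fun i _ => (mul_assoc _ _ _).symm
  rw [this, linPart_sum_mul_X, linPart_sum_mul_X]
  funext j
  simp

/-- a family without constant terms is `M X` for some matrix `M`. -/
theorem exists_matrix_mulVec (g : Fin n → MvPowerSeries (Fin n) 𝒪)
    (hg : ∀ i, constantCoeff (g i) = 0) :
    ∃ M : Matrix (Fin n) (Fin n) (MvPowerSeries (Fin n) 𝒪),
      M.mulVec (fun k => (X k : MvPowerSeries (Fin n) 𝒪)) = g := by
  choose c hc using fun i => exists_eq_sum_mul_X (g i) (hg i)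
  refine ⟨Matrix.of c, ?_⟩
  funext i
  rw [hc i]
  rfl

end linPart

section aug

variable {𝒪 A : Type*} [CommRing 𝒪] [CommRing A] [Algebra 𝒪 A] {n : ℕ}
  (ψ : MvPowerSeries (Fin n) 𝒪 →ₐ[𝒪] A) (π : A →ₐ[𝒪] 𝒪)

theorem pi_psi_C (a : 𝒪) : π (ψ (C a)) = a := by
  have h : (C a : MvPowerSeries (Fin n) 𝒪) = algebraMap 𝒪 (MvPowerSeries (Fin n) 𝒪) a := by
    rw [MvPowerSeries.algebraMap_apply]
    rfl
  rw [h, ψ.commutes, π.commutes]
  rfl

variable {ψ π}

theorem pi_psi_eq_constantCoeff (hπ : ∀ i, π (ψ (X i)) = 0) (f : MvPowerSeries (Fin n) 𝒪) :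
    π (ψ f) = constantCoeff f := by
  have h0 : constantCoeff (f - C (constantCoeff f)) = 0 := by simp
  obtain ⟨c, hc⟩ := exists_eq_sum_mul_X _ h0
  have hf : f = C (constantCoeff f) + ∑ i, c i * X i := by rw [← hc]; ring
  have h1 : π (ψ (∑ i, c i * X i)) = 0 := by
    rw [map_sum, map_sum]
    refine Finset.sum_eq_zero fun i _ => ?_
    rw [map_mul, map_mul, hπ i, mul_zero]
  calc π (ψ f) = π (ψ (C (constantCoeff f) + ∑ i, c i * X i)) := by rw [← hf]
    _ = constantCoeff f := by rw [map_add, map_add, pi_psi_C, h1, add_zero]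

theorem ker_psi_le (hπ : ∀ i, π (ψ (X i)) = 0) {f : MvPowerSeries (Fin n) 𝒪}
    (hf : f ∈ RingHom.ker ψ) : constantCoeff f = 0 := by
  rw [← pi_psi_eq_constantCoeff hπ f, (RingHom.mem_ker).mp hf, map_zero]

theorem psi_mem_ker_pi (hπ : ∀ i, π (ψ (X i)) = 0) {f : MvPowerSeries (Fin n) 𝒪}
    (hf : constantCoeff f = 0) : ψ f ∈ RingHom.ker π := by
  rw [RingHom.mem_ker, pi_psi_eq_constantCoeff hπ f, hf]

/-- no constant and no linear terms: the image lies in `(ker π)²`. -/
theorem psi_mem_ker_pi_sq (hπ : ∀ i, π (ψ (X i)) = 0) {f : MvPowerSeries (Fin n) 𝒪}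
    (hf : constantCoeff f = 0) (hl : linPart n 𝒪 f = 0) : ψ f ∈ (RingHom.ker π) ^ 2 := by
  obtain ⟨c, rfl⟩ := exists_eq_sum_mul_X f hf
  rw [linPart_sum_mul_X] at hl
  rw [map_sum]
  refine Ideal.sum_mem _ fun i _ => ?_
  rw [map_mul, pow_two]
  refine Ideal.mul_mem_mul (psi_mem_ker_pi hπ (congrFun hl i)) (psi_mem_ker_pi hπ ?_)
  exact constantCoeff_X i

/-- conversely the linear part of a preimage of an element of `(ker π)²` is the linear part of an
element of `ker ψ`. -/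
theorem linPart_mem_of_psi_mem_sq (hψ : Function.Surjective ψ) (hπ : ∀ i, π (ψ (X i)) = 0)
    {f : MvPowerSeries (Fin n) 𝒪} (hf : ψ f ∈ (RingHom.ker π) ^ 2) :
    linPart n 𝒪 f ∈ Submodule.map (linPart n 𝒪) ((RingHom.ker ψ).restrictScalars 𝒪) := by
  -- `ψ f = ψ q` with `q` in the square of the augmentation ideal
  have key : ∀ a ∈ (RingHom.ker π) ^ 2, ∃ q : MvPowerSeries (Fin n) 𝒪,
      ψ q = a ∧ linPart n 𝒪 q = 0 := by
    intro a ha
    rw [pow_two] at ha
    refine Submodule.mul_induction_on ha ?_ ?_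
    · intro x hx y hy
      obtain ⟨u, rfl⟩ := hψ x
      obtain ⟨v, rfl⟩ := hψ y
      have hu : constantCoeff u = 0 := by
        rw [← pi_psi_eq_constantCoeff hπ u]; exact hx
      have hv : constantCoeff v = 0 := by
        rw [← pi_psi_eq_constantCoeff hπ v]; exact hy
      refine ⟨u * v, map_mul _ _ _, ?_⟩
      rw [linPart_mul u v hv, hu, zero_smul]
    · intro x y hx hy
      obtain ⟨q₁, h1, h1'⟩ := hx
      obtain ⟨q₂, h2, h2'⟩ := hy
      exact ⟨q₁ + q₂, by rw [map_add, h1, h2], by rw [map_add, h1', h2', add_zero]⟩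
  obtain ⟨q, hq, hq'⟩ := key _ hf
  refine ⟨f - q, ?_, ?_⟩
  · show f - q ∈ RingHom.ker ψ
    rw [RingHom.mem_ker, map_sub, hq, sub_self]
  · rw [map_sub, hq', sub_zero]

end aug

section cot

variable {𝒪 A : Type*} [CommRing 𝒪] [CommRing A] [Algebra 𝒪 A] {n : ℕ}
  {ψ : MvPowerSeries (Fin n) 𝒪 →ₐ[𝒪] A} {π : A →ₐ[𝒪] 𝒪}

/-- the generic linear form `∑ c_i X_i`. -/
noncomputable def linForm (n : ℕ) (𝒪 : Type*) [CommRing 𝒪] :
    (Fin n → 𝒪) →ₗ[𝒪] MvPowerSeries (Fin n) 𝒪 :=
  Fintype.linearCombination 𝒪 (fun i => (X i : MvPowerSeries (Fin n) 𝒪))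

theorem linForm_apply (c : Fin n → 𝒪) :
    linForm n 𝒪 c = ∑ i, C (c i) * X i := by
  unfold linForm
  rw [Fintype.linearCombination_apply]
  refine Finset.sum_congr rfl fun i _ => ?_
  rw [MvPowerSeries.smul_eq_C_mul]

theorem constantCoeff_linForm (c : Fin n → 𝒪) : constantCoeff (linForm n 𝒪 c) = 0 := by
  rw [linForm_apply]
  exact constantCoeff_sum_mul_X Finset.univ _

theorem linPart_linForm (c : Fin n → 𝒪) : linPart n 𝒪 (linForm n 𝒪 c) = c := by
  rw [linForm_apply, linPart_sum_mul_X]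
  funext j
  simp

/-- `f - linForm (linPart f)` has neither constant nor linear terms when `f` has no constant
term. -/
theorem psi_sub_linForm_mem_sq (hπ : ∀ i, π (ψ (X i)) = 0) {f : MvPowerSeries (Fin n) 𝒪}
    (hf : constantCoeff f = 0) :
    ψ (f - linForm n 𝒪 (linPart n 𝒪 f)) ∈ (RingHom.ker π) ^ 2 := by
  apply psi_mem_ker_pi_sq hπ
  · rw [map_sub, hf, constantCoeff_linForm, sub_zero]
  · rw [map_sub, linPart_linForm, sub_self]

/-- the map `𝒪^n → Φ_A`, `c ↦ class of ψ (∑ c_i X_i)`. -/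
noncomputable def kappa (hπ : ∀ i, π (ψ (X i)) = 0) :
    (Fin n → 𝒪) →ₗ[𝒪] (RingHom.ker π).Cotangent where
  toFun c := (RingHom.ker π).toCotangent
    ⟨ψ (linForm n 𝒪 c), psi_mem_ker_pi hπ (constantCoeff_linForm c)⟩
  map_add' c c' := by
    rw [← map_add]
    congr 1
    apply Subtype.ext
    simp only [map_add, Submodule.coe_add]
  map_smul' a c := by
    rw [RingHom.id_apply, ← LinearMap.map_smul_of_tower]
    congr 1
    apply Subtype.ext
    simp only [map_smul, Submodule.coe_smul_of_tower]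

theorem kappa_apply (hπ : ∀ i, π (ψ (X i)) = 0) (c : Fin n → 𝒪) :
    kappa hπ c = (RingHom.ker π).toCotangent
      ⟨ψ (linForm n 𝒪 c), psi_mem_ker_pi hπ (constantCoeff_linForm c)⟩ := rfl

theorem kappa_surjective (hψ : Function.Surjective ψ) (hπ : ∀ i, π (ψ (X i)) = 0) :
    Function.Surjective (kappa hπ) := by
  intro x
  obtain ⟨⟨a, ha⟩, rfl⟩ := Ideal.toCotangent_surjective _ x
  obtain ⟨f, rfl⟩ := hψ a
  have hf : constantCoeff f = 0 := by
    rw [← pi_psi_eq_constantCoeff hπ f]; exact ha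
  refine ⟨linPart n 𝒪 f, ?_⟩
  rw [kappa_apply, Ideal.toCotangent_eq]
  have := psi_sub_linForm_mem_sq hπ hf
  rw [map_sub] at this
  have h2 := Ideal.neg_mem_iff _ |>.mpr this
  rwa [neg_sub] at h2

theorem ker_kappa (hψ : Function.Surjective ψ) (hπ : ∀ i, π (ψ (X i)) = 0) :
    LinearMap.ker (kappa hπ)
      = Submodule.map (linPart n 𝒪) ((RingHom.ker ψ).restrictScalars 𝒪) := by
  ext c
  rw [LinearMap.mem_ker, kappa_apply, Ideal.toCotangent_eq_zero]
  constructor
  · intro h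
    have := linPart_mem_of_psi_mem_sq hψ hπ h
    rwa [linPart_linForm] at this
  · rintro ⟨u, hu, rfl⟩
    have hu' : ψ u = 0 := (RingHom.mem_ker).mp hu
    have hu0 : constantCoeff u = 0 := ker_psi_le hπ hu
    have := psi_sub_linForm_mem_sq hπ hu0
    rw [map_sub, hu', zero_sub] at this
    exact (Ideal.neg_mem_iff _).mp this

/-- **LIN**: `Φ_A = 𝒪^n / ℓ(ker ψ)`. -/
theorem cotangent_linearEquiv (n : ℕ)
    (ψ : MvPowerSeries (Fin n) 𝒪 →ₐ[𝒪] A) (hψ : Function.Surjective ψ) (π : A →ₐ[𝒪] 𝒪)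
    (hπ : ∀ i, π (ψ (X i)) = 0) :
    Nonempty ((RingHom.ker π).Cotangent ≃ₗ[𝒪]
      ((Fin n → 𝒪) ⧸ Submodule.map (linPart n 𝒪) ((RingHom.ker ψ).restrictScalars 𝒪))) := by
  refine ⟨LinearEquiv.symm ?_⟩
  exact (Submodule.quotEquivOfEq _ _ (ker_kappa hψ hπ).symm).trans
    ((kappa hπ).quotKerEquivOfSurjective (kappa_surjective hψ hπ))

end cot

end Fermat.Agent.S59.NumCrit.H90
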