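import Mathlib

/-!
# S59 NUMCRIT, part (S-a): the determinant of a transition matrix is not in the ideal

`R` a nontrivial commutative ring, `P = R⟦X_i, i ∈ σ⟧`.  If `y = M X` and all `X i ^ N` lie in the
ideal `(y)`, then `det M ∉ (y)`  (`det_notMem_span`).  Ingredients: monomial ideals
`(X i ^ N, i ∈ S)` are described by coefficients, `X r ^ N` is a non-zero-divisor modulo
`(X i ^ N, i ≠ r)`, and the adjugate identity
`∑ i, det (G.updateRow i s) * (G X) i = det G * (s ⬝ X)`.
-/

set_option autoImplicit false

namespace Fermat.Agent.S59.NumCrit.H90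

open MvPowerSeries

section mono

variable {σ : Type*} {R : Type*} [CommRing R]

/-- the ideal generated by the `N`-th powers of the variables in `S`. -/
noncomputable def powIdeal (N : ℕ) (S : Set σ) : Ideal (MvPowerSeries σ R) :=
  Ideal.span ((fun i : σ => (X i : MvPowerSeries σ R) ^ N) '' S)

theorem powIdeal_mono (N : ℕ) {S S' : Set σ} (h : S ⊆ S') :
    (powIdeal N S : Ideal (MvPowerSeries σ R)) ≤ powIdeal N S' :=
  Ideal.span_mono (Set.image_mono h)

theorem X_pow_mem_powIdeal (N : ℕ) {S : Set σ} {i : σ} (hi : i ∈ S) :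
    (X i : MvPowerSeries σ R) ^ N ∈ powIdeal N S :=
  Ideal.subset_span ⟨i, hi, rfl⟩

theorem coeff_eq_zero_of_mem_powIdeal (N : ℕ) (S : Set σ) {f : MvPowerSeries σ R}
    (hf : f ∈ powIdeal N S) (m : σ →₀ ℕ) (hm : ∀ i ∈ S, m i < N) : coeff m f = 0 := by
  classical
  induction hf using Submodule.span_induction generalizing m with
  | mem x hx =>
    obtain ⟨i, hi, rfl⟩ := hx
    rw [coeff_X_pow, if_neg]
    intro h
    have := hm i hi
    rw [h] at this
    simp at this
  | zero => simp
  | add x y _ _ hx hy => rw [map_add, hx m hm, hy m hm, add_zero]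
  | smul a x _ hx =>
    rw [smul_eq_mul, coeff_mul]
    refine Finset.sum_eq_zero fun p hp => ?_
    have hp' : p.1 + p.2 = m := Finset.HasAntidiagonal.mem_antidiagonal.mp hp
    have : ∀ i ∈ S, p.2 i < N := by
      intro i hi
      have h1 := hm i hi
      rw [← hp'] at h1
      simp only [Finsupp.coe_add, Pi.add_apply] at h1
      omega
    rw [hx p.2 this, mul_zero]

theorem mem_powIdeal_of_coeff (N : ℕ) (S : Finset σ) (f : MvPowerSeries σ R)
    (h : ∀ m : σ →₀ ℕ, (∀ i ∈ S, m i < N) → coeff m f = 0) :
    f ∈ powIdeal N (S : Set σ) := by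
  classical
  induction S using Finset.induction_on generalizing f with
  | empty =>
    have : f = 0 := by
      ext m
      simpa using h m (by simp)
    rw [this]
    exact Ideal.zero_mem _
  | insert a S ha ih =>
    let f₂ : MvPowerSeries σ R := fun m => if m a < N then coeff m f else 0
    let hq : MvPowerSeries σ R := fun m => coeff (m + Finsupp.single a N) f
    have hf₂ : ∀ m, coeff m f₂ = if m a < N then coeff m f else 0 := fun m => rfl
    have hhq : ∀ m, coeff m hq = coeff (m + Finsupp.single a N) f := fun m => rfl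
    have hdecomp : f = X a ^ N * hq + f₂ := by
      ext m
      rw [map_add, X_pow_eq, coeff_monomial_mul, hf₂, hhq]
      by_cases hma : N ≤ m a
      · have hle : Finsupp.single a N ≤ m := by
          rw [Finsupp.single_le_iff]
          exact hma
        rw [if_pos hle, one_mul, if_neg (not_lt.mpr hma), add_zero, tsub_add_cancel_of_le hle]
      · have hnle : ¬ Finsupp.single a N ≤ m := by
          intro hle
          have := hle a
          simp only [Finsupp.single_eq_same] at this
          exact hma this
        rw [if_neg hnle, zero_add, if_pos (not_le.mp hma)]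
    rw [hdecomp]
    apply Ideal.add_mem
    · apply Ideal.mul_mem_right
      exact X_pow_mem_powIdeal N (by simp)
    · apply powIdeal_mono N (S := (S : Set σ)) (by simp)
      apply ih
      intro m hm
      rw [hf₂]
      split_ifs with h1
      · apply h
        intro i hi
        rcases Finset.mem_insert.mp hi with rfl | hi
        · exact h1
        · exact hm i hi
      · rfl

/-- `X r ^ N` is a non-zero-divisor modulo `(X i ^ N, i ∈ S)` if `r ∉ S`. -/
theorem mem_powIdeal_of_X_pow_mul_mem (N : ℕ) (S : Finset σ) (r : σ) (hr : r ∉ S)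
    (f : MvPowerSeries σ R)
    (h : (X r : MvPowerSeries σ R) ^ N * f ∈ (powIdeal N (S : Set σ) : Ideal (MvPowerSeries σ R))) :
    f ∈ (powIdeal N (S : Set σ) : Ideal (MvPowerSeries σ R)) := by
  classical
  refine mem_powIdeal_of_coeff N S f ?_
  intro m hm
  have hm' : ∀ i ∈ (S : Set σ), (m + Finsupp.single r N) i < N := by
    intro i hi
    have hne : r ≠ i := fun e => hr (e ▸ hi)
    rw [Finsupp.add_apply, Finsupp.single_eq_of_ne' hne, add_zero]
    exact hm i hi
  have h1 := coeff_eq_zero_of_mem_powIdeal N _ h (m + Finsupp.single r N) hm'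
  have hle : Finsupp.single r N ≤ m + Finsupp.single r N := le_add_self
  rw [X_pow_eq, coeff_monomial_mul, if_pos hle, one_mul, add_tsub_cancel_right] at h1
  exact h1

theorem prod_monomial_one (s : Finset σ) (e : σ → σ →₀ ℕ) :
    ∏ i ∈ s, (monomial (e i) (1 : R) : MvPowerSeries σ R) = monomial (∑ i ∈ s, e i) 1 := by
  classical
  induction s using Finset.induction_on with
  | empty => simp
  | insert a s ha ih =>
    rw [Finset.prod_insert ha, Finset.sum_insert ha, ih, monomial_mul_monomial, one_mul]

/-- the socle monomial `∏ X i ^ (N - 1)` is not in `(X i ^ N)`. -/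
theorem prod_X_pow_notMem [Nontrivial R] [Fintype σ] (N : ℕ) (hN : 0 < N) :
    (∏ i : σ, (X i : MvPowerSeries σ R) ^ (N - 1)) ∉ powIdeal N (Set.univ : Set σ) := by
  classical
  intro h
  have h1 := coeff_eq_zero_of_mem_powIdeal N _ h (∑ i : σ, Finsupp.single i (N - 1)) (fun i _ => by
    rw [Finsupp.finsetSum_apply]
    simp only [Finsupp.single_apply, Finset.sum_ite_eq', Finset.mem_univ, if_true]
    omega)
  have h2 : (∏ i : σ, (X i : MvPowerSeries σ R) ^ (N - 1))
      = monomial (∑ i : σ, Finsupp.single i (N - 1)) 1 := by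
    rw [← prod_monomial_one]
    refine Finset.prod_congr rfl fun i _ => ?_
    rw [X_pow_eq]
  rw [h2, coeff_monomial_same] at h1
  exact one_ne_zero h1

end mono

section matrix

open Matrix

variable {σ : Type*} [Fintype σ] [DecidableEq σ]

/-- the adjugate identity behind (S-a). -/
theorem sum_det_updateRow_mul {P : Type*} [CommRing P]
    (G : Matrix σ σ P) (s x : σ → P) :
    ∑ i, (G.updateRow i s).det * (G.mulVec x) i = G.det * (s ⬝ᵥ x) := by
  have h1 : ∀ i, (G.updateRow i s).det = (G.adjugate.transpose.mulVec s) i := by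
    intro i
    rw [← Matrix.cramer_transpose_apply, Matrix.cramer_eq_adjugate_mulVec,
      Matrix.adjugate_transpose]
  simp_rw [h1]
  change (G.adjugate.transpose.mulVec s) ⬝ᵥ (G.mulVec x) = _
  rw [Matrix.mulVec_transpose, Matrix.dotProduct_mulVec, Matrix.vecMul_vecMul,
    Matrix.adjugate_mul, Matrix.vecMul_smul, Matrix.vecMul_one, smul_dotProduct, smul_eq_mul]

/-- Cramer: `det A * y j` lies in the ideal generated by the entries of `A y`. -/
theorem det_mul_mem_span {P : Type*} [CommRing P] (A : Matrix σ σ P) (y : σ → P) (j : σ)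
    (I : Ideal P) (h : ∀ i, (A.mulVec y) i ∈ I) : A.det * y j ∈ I := by
  have h1 : A.adjugate.mulVec (A.mulVec y) = A.det • y := by
    rw [Matrix.mulVec_mulVec, Matrix.adjugate_mul, Matrix.smul_mulVec, Matrix.one_mulVec]
  have h2 : A.det * y j = (A.adjugate.mulVec (A.mulVec y)) j := by
    rw [h1]; rfl
  rw [h2]
  exact Ideal.sum_mem _ fun i _ => Ideal.mul_mem_left _ _ (h i)

variable {R : Type*} [CommRing R]

/-- key step: replacing a row of `G` (with `G X = X^(N)`) by a syzygy of `X` gives a determinant
in `(X i ^ N)`. -/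
theorem det_updateRow_mem_powIdeal (N : ℕ) (G : Matrix σ σ (MvPowerSeries σ R))
    (hG : ∀ i, (G.mulVec (fun j => (X j : MvPowerSeries σ R))) i = X i ^ N)
    (s : σ → MvPowerSeries σ R) (hs : s ⬝ᵥ (fun j => (X j : MvPowerSeries σ R)) = 0) (r : σ) :
    (G.updateRow r s).det ∈ (powIdeal N (Set.univ : Set σ) : Ideal (MvPowerSeries σ R)) := by
  have h0 := sum_det_updateRow_mul G s (fun j => (X j : MvPowerSeries σ R))
  rw [hs, mul_zero] at h0
  simp_rw [hG] at h0
  rw [← Finset.add_sum_erase _ _ (Finset.mem_univ r)] at h0
  have h1 : (X r : MvPowerSeries σ R) ^ N * (G.updateRow r s).det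
      ∈ (powIdeal N ((Finset.univ.erase r : Finset σ) : Set σ) : Ideal (MvPowerSeries σ R)) := by
    have : (X r : MvPowerSeries σ R) ^ N * (G.updateRow r s).det
        = - ∑ i ∈ Finset.univ.erase r, (G.updateRow i s).det * X i ^ N := by
      rw [eq_neg_iff_add_eq_zero, mul_comm]
      exact h0
    rw [this]
    refine Ideal.neg_mem_iff _ |>.mpr (Ideal.sum_mem _ fun i hi => Ideal.mul_mem_left _ _ ?_)
    exact X_pow_mem_powIdeal N (by exact_mod_cast hi)
  have h2 := mem_powIdeal_of_X_pow_mul_mem N (Finset.univ.erase r) r (by simp) _ h1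
  exact powIdeal_mono N (Set.subset_univ _) h2

/-- row-by-row comparison of two matrices with the same value on `X`. -/
theorem det_sub_det_mem_powIdeal (N : ℕ) (E D : Matrix σ σ (MvPowerSeries σ R))
    (hE : ∀ i, (E.mulVec (fun j => (X j : MvPowerSeries σ R))) i = X i ^ N)
    (hD : ∀ i, (D.mulVec (fun j => (X j : MvPowerSeries σ R))) i = X i ^ N) :
    E.det - D.det ∈ (powIdeal N (Set.univ : Set σ) : Ideal (MvPowerSeries σ R)) := by
  have key : ∀ J : Finset σ,
      (Matrix.of fun i => if i ∈ J then E i else D i).det - D.det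
        ∈ (powIdeal N (Set.univ : Set σ) : Ideal (MvPowerSeries σ R)) := by
    intro J
    induction J using Finset.induction_on with
    | empty =>
      have : (Matrix.of fun i => if i ∈ (∅ : Finset σ) then E i else D i) = D := by
        ext i j; simp
      rw [this, sub_self]
      exact Ideal.zero_mem _
    | insert a J ha ih =>
      set G : Matrix σ σ (MvPowerSeries σ R) := Matrix.of fun i => if i ∈ J then E i else D i
        with hGdef
      have hGX : ∀ i, (G.mulVec (fun j => (X j : MvPowerSeries σ R))) i = X i ^ N := by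
        intro i
        by_cases hi : i ∈ J
        · have : G i = E i := by
            show (if i ∈ J then E i else D i) = E i
            rw [if_pos hi]
          rw [← hE i]
          simp only [Matrix.mulVec, this]
        · have : G i = D i := by
            show (if i ∈ J then E i else D i) = D i
            rw [if_neg hi]
          rw [← hD i]
          simp only [Matrix.mulVec, this]
      have e1 : (Matrix.of fun i => if i ∈ insert a J then E i else D i)
          = G.updateRow a (D a + (E a - D a)) := by
        ext i j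
        by_cases hia : i = a
        · subst hia
          simp
        · simp [hGdef, Finset.mem_insert, hia]
      have e2 : G.updateRow a (D a) = G := by
        ext i j
        by_cases hia : i = a
        · subst hia
          simp [hGdef, ha]
        · simp [Matrix.updateRow_ne hia]
      rw [e1, Matrix.det_updateRow_add, e2]
      have hs : (E a - D a) ⬝ᵥ (fun j => (X j : MvPowerSeries σ R)) = 0 := by
        rw [sub_dotProduct]
        have hEa := hE a
        have hDa := hD a
        simp only [Matrix.mulVec] at hEa hDa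
        rw [hEa, hDa, sub_self]
      have h3 := det_updateRow_mem_powIdeal N G hGX (E a - D a) hs a
      have : G.det + (G.updateRow a (E a - D a)).det - D.det
          = (G.det - D.det) + (G.updateRow a (E a - D a)).det := by ring
      rw [this]
      exact Ideal.add_mem _ ih h3
  have := key Finset.univ
  have e : (Matrix.of fun i => if i ∈ (Finset.univ : Finset σ) then E i else D i) = E := by
    ext i j; simp
  rwa [e] at this

/-- **(S-a)**: if `y = M X` and all `X i ^ N` lie in `(y)`, then `det M ∉ (y)`. -/
theorem det_notMem_span [Nontrivial R] (N : ℕ) (M : Matrix σ σ (MvPowerSeries σ R))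
    (h : ∀ i, (X i : MvPowerSeries σ R) ^ N
      ∈ Ideal.span (Set.range (M.mulVec (fun j => (X j : MvPowerSeries σ R))))) :
    M.det ∉ Ideal.span (Set.range (M.mulVec (fun j => (X j : MvPowerSeries σ R)))) := by
  -- may assume `0 < N`
  wlog hN : 0 < N generalizing N
  · refine this (N + 1) (fun i => ?_) (Nat.succ_pos _)
    rw [pow_succ]
    exact Ideal.mul_mem_right _ _ (h i)
  set y := M.mulVec (fun j => (X j : MvPowerSeries σ R)) with hy
  have hA : ∀ i, ∃ c : σ → MvPowerSeries σ R, ∑ j, c j * y j = X i ^ N := fun i =>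
    (Ideal.mem_span_range_iff_exists_fun (R := MvPowerSeries σ R)).mp (h i)
  choose A hA using hA
  let A' : Matrix σ σ (MvPowerSeries σ R) := Matrix.of A
  have hAy : ∀ i, (A'.mulVec y) i = X i ^ N := fun i => hA i
  set D : Matrix σ σ (MvPowerSeries σ R) :=
    Matrix.diagonal fun i => (X i : MvPowerSeries σ R) ^ (N - 1) with hD
  have hDX : ∀ i, (D.mulVec (fun j => (X j : MvPowerSeries σ R))) i = X i ^ N := by
    intro i
    rw [hD, Matrix.mulVec_diagonal, ← pow_succ, Nat.sub_add_cancel hN]
  have hEX : ∀ i, ((A' * M).mulVec (fun j => (X j : MvPowerSeries σ R))) i = X i ^ N := by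
    intro i
    rw [← Matrix.mulVec_mulVec]
    exact hAy i
  have h1 := det_sub_det_mem_powIdeal N (A' * M) D hEX hDX
  intro hM
  have h2 : (A' * M).det ∈ (powIdeal N (Set.univ : Set σ) : Ideal (MvPowerSeries σ R)) := by
    rw [Matrix.det_mul]
    obtain ⟨c, hc⟩ := (Ideal.mem_span_range_iff_exists_fun (R := MvPowerSeries σ R)).mp hM
    rw [← hc, Finset.mul_sum]
    refine Ideal.sum_mem _ fun j _ => ?_
    have : A'.det * (c j * y j) = c j * (A'.det * y j) := by ring
    rw [this]
    refine Ideal.mul_mem_left _ _ (det_mul_mem_span A' y j _ fun i => ?_)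
    rw [hAy i]
    exact X_pow_mem_powIdeal N (Set.mem_univ i)
  have h3 : D.det ∈ (powIdeal N (Set.univ : Set σ) : Ideal (MvPowerSeries σ R)) := by
    have := Ideal.sub_mem _ h2 h1
    rwa [sub_sub_cancel] at this
  rw [hD, Matrix.det_diagonal] at h3
  exact prod_X_pow_notMem N hN h3

end matrix

end Fermat.Agent.S59.NumCrit.H90
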