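import Fermat.Agent.S59.NumCrit.H90_CI
import Fermat.Agent.S59.NumCrit.H8_Card

/-!
# S59 NUMCRIT: the numerical criterion NC1 (Wiles, Lenstra), modulo the two `k`-side properties

`nc1_of`: `ψ : 𝒪⟦X_1..X_n⟧ ↠ R`, `φ : R ↠ T`, `π : T → 𝒪`, `T` finite free over `𝒪`,
`#Φ_R ≤ #(𝒪/η_T)` (finite)  ⟹  `φ` is bijective and `ker (φ ∘ ψ)` is generated by `n` elements.
-/

set_option autoImplicit false

namespace Fermat.Agent.S59.NumCrit.H90

open MvPowerSeries

section nc1

variable {𝒪 : Type*} [CommRing 𝒪] [IsDomain 𝒪] [IsDiscreteValuationRing 𝒪]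
  [Finite (IsLocalRing.ResidueField 𝒪)]
  {R T : Type*} [CommRing R] [Algebra 𝒪 R] [CommRing T] [Algebra 𝒪 T] {n : ℕ}

/-- the lattice of linear parts of the relations. -/
noncomputable abbrev relLattice {A : Type*} [CommRing A] [Algebra 𝒪 A]
    (ψ : MvPowerSeries (Fin n) 𝒪 →ₐ[𝒪] A) : Submodule 𝒪 (Fin n → 𝒪) :=
  Submodule.map (linPart n 𝒪) ((RingHom.ker ψ).restrictScalars 𝒪)

omit [IsDomain 𝒪] [IsDiscreteValuationRing 𝒪] [Finite (IsLocalRing.ResidueField 𝒪)] in
theorem exists_mem_ker_linPart_eq {A : Type*} [CommRing A] [Algebra 𝒪 A]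
    (ψ : MvPowerSeries (Fin n) 𝒪 →ₐ[𝒪] A) {v : Fin n → 𝒪} (hv : v ∈ relLattice ψ) :
    ∃ f ∈ RingHom.ker ψ, linPart n 𝒪 f = v := by
  obtain ⟨f, hf, rfl⟩ := hv
  exact ⟨f, hf, rfl⟩

omit [IsDomain 𝒪] [IsDiscreteValuationRing 𝒪] [Finite (IsLocalRing.ResidueField 𝒪)] in
/-- a surjection of finite sets which does not decrease the cardinality is injective. -/
theorem factor_injective_of_card_le {M : Type*} [AddCommGroup M] [Module 𝒪 M]
    {N N' : Submodule 𝒪 M} (h : N ≤ N') [Finite (M ⧸ N)]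
    (hc : Nat.card (M ⧸ N) ≤ Nat.card (M ⧸ N')) : N' ≤ N := by
  have hsurj : Function.Surjective (Submodule.factor h) := by
    intro x
    obtain ⟨m, rfl⟩ := Submodule.Quotient.mk_surjective _ x
    exact ⟨Submodule.Quotient.mk m, rfl⟩
  have hbij := hsurj.bijective_of_nat_card_le hc
  intro x hx
  have h1 : Submodule.factor h (Submodule.Quotient.mk x) = 0 := by
    show (Submodule.Quotient.mk x : M ⧸ N') = 0
    rw [Submodule.Quotient.mk_eq_zero]
    exact hx
  have h2 : (Submodule.Quotient.mk x : M ⧸ N) = 0 := hbij.1 (by rw [h1, map_zero])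
  rwa [Submodule.Quotient.mk_eq_zero] at h2

omit [IsDomain 𝒪] [IsDiscreteValuationRing 𝒪] [Finite (IsLocalRing.ResidueField 𝒪)] in
theorem card_quotient_le_of_le {M : Type*} [AddCommGroup M] [Module 𝒪 M]
    {N N' : Submodule 𝒪 M} (h : N ≤ N') [Finite (M ⧸ N)] :
    Finite (M ⧸ N') ∧ Nat.card (M ⧸ N') ≤ Nat.card (M ⧸ N) := by
  have hsurj : Function.Surjective (Submodule.factor h) := by
    intro x
    obtain ⟨m, rfl⟩ := Submodule.Quotient.mk_surjective _ x
    exact ⟨Submodule.Quotient.mk m, rfl⟩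
  exact ⟨Finite.of_surjective _ hsurj, Nat.card_le_card_of_surjective _ hsurj⟩

/-- **NC1**, modulo (REG) and (CORE). -/
theorem nc1_of [Module.Finite 𝒪 T] [Module.Free 𝒪 T]
    (hREG : RegProp (IsLocalRing.ResidueField 𝒪) n)
    (hCORE : CoreProp (IsLocalRing.ResidueField 𝒪) n)
    (ψ : MvPowerSeries (Fin n) 𝒪 →ₐ[𝒪] R) (hψ : Function.Surjective ψ)
    (φ : R →ₐ[𝒪] T) (hφ : Function.Surjective φ) (π : T →ₐ[𝒪] 𝒪)
    (hπ : ∀ i, π (φ (ψ (X i))) = 0)
    [Finite (RingHom.ker (π.comp φ)).Cotangent]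
    (hcard : Nat.card (RingHom.ker (π.comp φ)).Cotangent ≤ Nat.card (𝒪 ⧸ eta π)) :
    Function.Bijective φ ∧
      (∃ g : Fin n → MvPowerSeries (Fin n) 𝒪,
        RingHom.ker (φ.comp ψ) = Ideal.span (Set.range g)) ∧
      Nat.card (RingHom.ker π).Cotangent = Nat.card (𝒪 ⧸ eta π) ∧
      Nat.card (RingHom.ker (π.comp φ)).Cotangent = Nat.card (𝒪 ⧸ eta π) := by
  classical
  have hψT : Function.Surjective (φ.comp ψ) := hφ.comp hψ
  have hπR : ∀ i, (π.comp φ) (ψ (X i)) = 0 := hπ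
  have hπT : ∀ i, π ((φ.comp ψ) (X i)) = 0 := hπ
  obtain ⟨eR⟩ := cotangent_linearEquiv n ψ hψ (π.comp φ) hπR
  obtain ⟨eT⟩ := cotangent_linearEquiv n (φ.comp ψ) hψT π hπT
  have hle : relLattice ψ ≤ relLattice (φ.comp ψ) := by
    rintro _ ⟨f, hf, rfl⟩
    refine ⟨f, ?_, rfl⟩
    have hf' : ψ f = 0 := hf
    show (φ.comp ψ) f = 0
    rw [AlgHom.comp_apply, hf', map_zero]
  have hfinR : Finite ((Fin n → 𝒪) ⧸ relLattice ψ) := Finite.of_equiv _ eR.toEquiv
  obtain ⟨hfinT, hcardTR⟩ := card_quotient_le_of_le hle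
  have := hfinT
  obtain ⟨b, hbN, hbspan, hbdet, hbcard⟩ :=
    H8.card_quotient_eq_card_det n (relLattice (φ.comp ψ))
  -- relations with linear parts `b`
  have hc : ∀ i, ∃ f ∈ RingHom.ker (φ.comp ψ), linPart n 𝒪 f = b i := fun i =>
    exists_mem_ker_linPart_eq _ (hbN i)
  choose c hcker hclin using hc
  have hdeteq : (Matrix.of fun i => linPart n 𝒪 (c i)) = Matrix.of b := by
    ext i j
    rw [Matrix.of_apply, Matrix.of_apply, hclin]
  have hmem : (Matrix.of b).det ∈ eta π := by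
    rw [← hdeteq]
    exact det_linPart_mem_eta hψT hπT c hcker
  have hspanle : Ideal.span {(Matrix.of b).det} ≤ eta π := by
    rw [Ideal.span_le, Set.singleton_subset_iff]
    exact hmem
  -- finiteness of `𝒪 / (det b)`
  have hpos : 0 < Nat.card ((Fin n → 𝒪) ⧸ relLattice (φ.comp ψ)) := Nat.card_pos
  have hfindet : Finite (𝒪 ⧸ Ideal.span {(Matrix.of b).det}) := by
    apply Nat.finite_of_card_ne_zero
    rw [← hbcard]
    exact hpos.ne'
  obtain ⟨hfinη, hcardη⟩ := card_quotient_le_of_le (𝒪 := 𝒪) (M := 𝒪) hspanle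
  -- the chain of inequalities
  have e1 : Nat.card (RingHom.ker (π.comp φ)).Cotangent
      = Nat.card ((Fin n → 𝒪) ⧸ relLattice ψ) := Nat.card_congr eR.toEquiv
  have e2 : Nat.card (RingHom.ker π).Cotangent
      = Nat.card ((Fin n → 𝒪) ⧸ relLattice (φ.comp ψ)) := Nat.card_congr eT.toEquiv
  have hη : eta π = Ideal.span {(Matrix.of b).det} := by
    refine le_antisymm ?_ hspanle
    refine factor_injective_of_card_le (𝒪 := 𝒪) (M := 𝒪) hspanle ?_
    omega
  have hNle : relLattice (φ.comp ψ) ≤ relLattice ψ :=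
    factor_injective_of_card_le hle (by omega)
  have hdet' : (Matrix.of fun i => linPart n 𝒪 (c i)).det ≠ 0 := by rw [hdeteq]; exact hbdet
  have hη' : eta π = Ideal.span {(Matrix.of fun i => linPart n 𝒪 (c i)).det} := by
    rw [hdeteq]; exact hη
  obtain ⟨g, hgker, hglin, hgspan⟩ := ci_lemma hREG hCORE hψT hπT c hcker hdet' hη'
  -- relations of `R` with the same linear parts
  have hc' : ∀ i, ∃ f ∈ RingHom.ker ψ, linPart n 𝒪 f = b i := fun i =>
    exists_mem_ker_linPart_eq _ (hNle (hbN i))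
  choose g' hg'ker hg'lin using hc'
  have hkerle : RingHom.ker ψ ≤ RingHom.ker (φ.comp ψ) := by
    intro f hf
    have hf' : ψ f = 0 := hf
    show (φ.comp ψ) f = 0
    rw [AlgHom.comp_apply, hf', map_zero]
  have hgg' : ∀ j, g j ∈ Ideal.span (Set.range g') := by
    intro j
    refine mem_span_of_linPart_eq g g' (fun i => ker_psi_le hπT (hgker i)) ?_ ?_ ?_ j
    · have : (Matrix.of fun i => linPart n 𝒪 (g i)) = Matrix.of fun i => linPart n 𝒪 (c i) := by
        ext i j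
        rw [Matrix.of_apply, Matrix.of_apply, hglin]
      rw [this]
      exact hdet'
    · intro i
      rw [← hgspan]
      exact hkerle (hg'ker i)
    · intro i
      rw [hg'lin, hglin, hclin]
  have hkerge : RingHom.ker (φ.comp ψ) ≤ RingHom.ker ψ := by
    rw [hgspan, Ideal.span_le]
    rintro _ ⟨j, rfl⟩
    have : Ideal.span (Set.range g') ≤ RingHom.ker ψ := by
      rw [Ideal.span_le]
      rintro _ ⟨i, rfl⟩
      exact hg'ker i
    exact this (hgg' j)
  refine ⟨⟨?_, hφ⟩, ⟨g, hgspan⟩, ?_, ?_⟩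
  · rw [injective_iff_map_eq_zero]
    intro r hr
    obtain ⟨f, rfl⟩ := hψ r
    have : f ∈ RingHom.ker (φ.comp ψ) := hr
    exact hkerge this
  · rw [e2, hbcard, hη]
  · omega

end nc1

end Fermat.Agent.S59.NumCrit.H90
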