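import Fermat.Agent.S59.NumCrit.H90_Lin

/-!
# S59 NUMCRIT, (NORM): normalising a presentation of an augmented algebra

For `𝒪` local and adically complete, `γ : 𝒪⟦X_1..X_n⟧ → R` and an augmentation `π : R → 𝒪`, there is
an automorphism `τ` of `𝒪⟦X⟧` (a translation `X_i ↦ X_i - c_i`, `c_i = π (γ X_i) ∈ 𝔪`) such that
`π (γ (τ X_i)) = 0` (`exists_normalized`).
-/

set_option autoImplicit false

namespace Fermat.Agent.S59.NumCrit.H90

open MvPowerSeries

section translation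

open WithPiTopology

variable {𝒪 : Type*} [CommRing 𝒪]

/-- translation of the variables by elements of an ideal `I` for which `𝒪` is adically complete. -/
theorem exists_translation (I : Ideal 𝒪) [hI : IsAdicComplete I 𝒪] {n : ℕ} (c : Fin n → 𝒪)
    (hc : ∀ i, c i ∈ I) :
    ∃ τ : MvPowerSeries (Fin n) 𝒪 ≃ₐ[𝒪] MvPowerSeries (Fin n) 𝒪,
      ∀ i, τ (X i) = X i + C (c i) := by
  let _ : WithIdeal 𝒪 := ⟨I⟩
  have hadic : IsAdic (I : Ideal 𝒪) := rfl
  obtain ⟨hcomp, ht2⟩ := hadic.isAdicComplete_iff.mp hI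
  have hC : Continuous (C : 𝒪 →+* MvPowerSeries (Fin n) 𝒪) := by
    exact MvPowerSeries.WithPiTopology.continuous_C
  have hev : ∀ c' : Fin n → 𝒪, (∀ i, c' i ∈ I) →
      HasEval (fun i => (X i : MvPowerSeries (Fin n) 𝒪) + C (c' i)) := by
    intro c' hc'
    have h1 : HasEval (fun i => (X i : MvPowerSeries (Fin n) 𝒪)) := HasEval.X
    have h2 : HasEval c' :=
      ⟨fun i => WithIdeal.isTopologicallyNilpotent_of_mem (hc' i), by simp⟩
    exact h1.add (h2.map hC)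
  have hX : ∀ (c' : Fin n → 𝒪) (hc' : ∀ i, c' i ∈ I) (i : Fin n),
      aeval (R := 𝒪) (hev c' hc') (X i : MvPowerSeries (Fin n) 𝒪) = X i + C (c' i) := by
    intro c' hc' i
    rw [coe_aeval, eval₂_X]
  have hcomp' : ∀ (c₁ c₂ : Fin n → 𝒪) (h₁ : ∀ i, c₁ i ∈ I) (h₂ : ∀ i, c₂ i ∈ I),
      (∀ i, c₁ i + c₂ i = 0) →
      (aeval (hev c₁ h₁)).comp (aeval (hev c₂ h₂))
        = AlgHom.id 𝒪 (MvPowerSeries (Fin n) 𝒪) := by
    intro c₁ c₂ h₁ h₂ h12
    have hcont : Continuous ((aeval (hev c₁ h₁)).comp (aeval (hev c₂ h₂))) :=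
      (continuous_aeval (hev c₁ h₁)).comp (continuous_aeval (hev c₂ h₂))
    have hcontid : Continuous (AlgHom.id 𝒪 (MvPowerSeries (Fin n) 𝒪)) := continuous_id
    rw [← aeval_unique hcont, ← aeval_unique hcontid]
    congr 1
    funext i
    show (aeval (hev c₁ h₁)) ((aeval (hev c₂ h₂)) (X i)) = X i
    rw [hX c₂ h₂ i, map_add, hX c₁ h₁ i]
    have : (C (c₂ i) : MvPowerSeries (Fin n) 𝒪) = algebraMap 𝒪 _ (c₂ i) := by
      rw [MvPowerSeries.algebraMap_apply]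
      rfl
    rw [this, AlgHom.commutes, ← this, add_assoc, ← map_add, h12 i, map_zero, add_zero]
  have hc'' : ∀ i, (-c) i ∈ I := fun i => I.neg_mem (hc i)
  refine ⟨AlgEquiv.ofAlgHom (aeval (hev c hc)) (aeval (hev (-c) hc''))
    (hcomp' c (-c) hc hc'' (fun i => by simp))
    (hcomp' (-c) c hc'' hc (fun i => by simp)), hX c hc⟩

end translation

section norm

variable {𝒪 : Type*} [CommRing 𝒪] [IsLocalRing 𝒪]
  {R : Type*} [CommRing R] [Algebra 𝒪 R] {n : ℕ}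

/-- the value of an augmentation on a variable lies in the maximal ideal. -/
theorem pi_gamma_X_mem_maximalIdeal (γ : MvPowerSeries (Fin n) 𝒪 →ₐ[𝒪] R) (π : R →ₐ[𝒪] 𝒪)
    (i : Fin n) : π (γ (X i)) ∈ IsLocalRing.maximalIdeal 𝒪 := by
  rw [IsLocalRing.mem_maximalIdeal, mem_nonunits_iff]
  intro hu
  obtain ⟨u, hu⟩ := hu.exists_right_inv
  have h1 : IsUnit (1 - C u * X i : MvPowerSeries (Fin n) 𝒪) := by
    rw [MvPowerSeries.isUnit_iff_constantCoeff]
    simp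
  have h2 : IsUnit (π (γ (1 - C u * X i))) := (h1.map γ).map π
  rw [map_sub, map_sub, map_one, map_one, map_mul, map_mul, pi_psi_C, mul_comm, hu, sub_self]
    at h2
  exact not_isUnit_zero h2

/-- **(NORM)**. -/
theorem exists_normalized [IsAdicComplete (IsLocalRing.maximalIdeal 𝒪) 𝒪]
    (γ : MvPowerSeries (Fin n) 𝒪 →ₐ[𝒪] R) (π : R →ₐ[𝒪] 𝒪) :
    ∃ τ : MvPowerSeries (Fin n) 𝒪 ≃ₐ[𝒪] MvPowerSeries (Fin n) 𝒪,
      ∀ i, π (γ (τ (X i))) = 0 := by
  obtain ⟨τ, hτ⟩ := exists_translation (IsLocalRing.maximalIdeal 𝒪)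
    (fun i => - π (γ (X i)))
    (fun i => (Ideal.neg_mem_iff _).mpr (pi_gamma_X_mem_maximalIdeal γ π i))
  refine ⟨τ, fun i => ?_⟩
  rw [hτ i, map_add, map_add, pi_psi_C, add_neg_cancel]

omit [IsLocalRing 𝒪] in
/-- the kernel of a presentation after an automorphism of the source. -/
theorem ker_comp_algEquiv (γ : MvPowerSeries (Fin n) 𝒪 →ₐ[𝒪] R)
    (τ : MvPowerSeries (Fin n) 𝒪 ≃ₐ[𝒪] MvPowerSeries (Fin n) 𝒪)
    (g : Fin n → MvPowerSeries (Fin n) 𝒪) (hg : RingHom.ker γ = Ideal.span (Set.range g)) :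
    RingHom.ker (γ.comp (τ : MvPowerSeries (Fin n) 𝒪 →ₐ[𝒪] MvPowerSeries (Fin n) 𝒪))
      = Ideal.span (Set.range fun i => τ.symm (g i)) := by
  apply le_antisymm
  · intro f hf
    have h1 : τ f ∈ RingHom.ker γ := hf
    rw [hg] at h1
    obtain ⟨c, hc⟩ := (Ideal.mem_span_range_iff_exists_fun (R := MvPowerSeries (Fin n) 𝒪)).mp h1
    have h2 : f = ∑ i, τ.symm (c i) * τ.symm (g i) := by
      rw [← τ.symm_apply_apply f, ← hc, map_sum]
      simp
    rw [h2]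
    exact Ideal.sum_mem _ fun i _ => Ideal.mul_mem_left _ _ (Ideal.subset_span ⟨i, rfl⟩)
  · rw [Ideal.span_le]
    rintro _ ⟨i, rfl⟩
    show γ (τ (τ.symm (g i))) = 0
    rw [τ.apply_symm_apply]
    have : g i ∈ RingHom.ker γ := by rw [hg]; exact Ideal.subset_span ⟨i, rfl⟩
    exact this

end norm

end Fermat.Agent.S59.NumCrit.H90
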