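import Fermat.Agent.S59.NumCrit.H85_NC2
import Fermat.Agent.S59.NumCrit.H12_CardRows
import Fermat.Agent.S59.NumCrit.H90_Norm

/-!
# S59 NUMCRIT: NC2 (Tate), final forms

* `nc2`: `A = 𝒪⟦X_1..X_n⟧/(g_1..g_n)` finite free over the discrete valuation ring `𝒪` (finite
  residue field), presentation `ψ` with `π (ψ X_i) = 0`: `#Φ_A = #(𝒪/η_A)`.
* `nc2_complete`: the same for an arbitrary presentation `γ` when `𝒪` is complete.
-/

set_option autoImplicit false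

namespace Fermat.Agent.S59.NumCrit.H90

open MvPowerSeries

variable {𝒪 : Type*} [CommRing 𝒪] [IsDomain 𝒪] [IsDiscreteValuationRing 𝒪]
  [Finite (IsLocalRing.ResidueField 𝒪)]
  {A : Type*} [CommRing A] [Algebra 𝒪 A] [Module.Finite 𝒪 A] [Module.Free 𝒪 A] {n : ℕ}

/-- **NC2 (Tate)**. -/
theorem nc2 (ψ : MvPowerSeries (Fin n) 𝒪 →ₐ[𝒪] A) (hψ : Function.Surjective ψ) (π : A →ₐ[𝒪] 𝒪)
    (hπ : ∀ i, π (ψ (X i)) = 0)
    (g : Fin n → MvPowerSeries (Fin n) 𝒪) (hg : RingHom.ker ψ = Ideal.span (Set.range g)) :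
    Nat.card (RingHom.ker π).Cotangent = Nat.card (𝒪 ⧸ eta π) :=
  H85.nc2_of_card (fun B hB => H12.card_quotient_span_rows n B hB) ψ hψ π hπ g hg

/-- **NC2 (Tate)** for an arbitrary presentation, `𝒪` complete. -/
theorem nc2_complete [IsAdicComplete (IsLocalRing.maximalIdeal 𝒪) 𝒪]
    (γ : MvPowerSeries (Fin n) 𝒪 →ₐ[𝒪] A) (hγ : Function.Surjective γ) (π : A →ₐ[𝒪] 𝒪)
    (g : Fin n → MvPowerSeries (Fin n) 𝒪) (hg : RingHom.ker γ = Ideal.span (Set.range g)) :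
    Nat.card (RingHom.ker π).Cotangent = Nat.card (𝒪 ⧸ eta π) := by
  obtain ⟨τ, hτ⟩ := exists_normalized γ π
  exact nc2 (γ.comp (τ : MvPowerSeries (Fin n) 𝒪 →ₐ[𝒪] MvPowerSeries (Fin n) 𝒪))
    (hγ.comp τ.surjective) π hτ (fun i => τ.symm (g i)) (ker_comp_algEquiv γ τ g hg)

end Fermat.Agent.S59.NumCrit.H90
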