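import Fermat.Agent.S59.NumCrit.H90_NC1
import Fermat.Agent.S59.NumCrit.H90_NC2
import Fermat.Agent.S59.NumCrit.H90_KSide
import Fermat.Agent.S59.NumCrit.H85_Dim
import Fermat.Agent.S59.NumCrit.H8_Kap

/-!
# S59 NUMCRIT: the Wiles–Lenstra numerical criterion, consumer face

`𝒪` a discrete valuation ring with finite residue field, `P = 𝒪⟦X_1..X_n⟧`.  For an augmented
`𝒪`-algebra `π : A → 𝒪`: `Φ_A = (ker π)/(ker π)²` (`Ideal.Cotangent`), `η_A = eta π = π (Ann (ker π))`.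

* `nc1` (criterion): `ψ : P ↠ R`, `φ : R ↠ T`, `π : T → 𝒪`, `π (φ (ψ X_i)) = 0`, `T` finite free over
  `𝒪`, `Φ_R` finite and `#Φ_R ≤ #(𝒪/η_T)`  ⟹  `φ` bijective, `ker (φ ∘ ψ)` is generated by `n`
  elements, and `#Φ_T = #(𝒪/η_T)`.
* `nc1_complete`: the same for an arbitrary presentation `γ : P ↠ R` when `𝒪` is complete.
* `nc2`, `nc2_complete` (Tate; in `H90_NC2.lean`): if `ker ψ` is generated by `n` elements and `A` is
  finite free over `𝒪`, then `#Φ_A = #(𝒪/η_A)`.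
* `card_eta_le_card_cotangent`: always `#(𝒪/η_T) ≤ #Φ_T` when `Φ_T` is finite.
-/

set_option autoImplicit false

namespace Fermat.Agent.S59.NumCrit

open MvPowerSeries

section

variable {𝒪 : Type*} [CommRing 𝒪] [IsDomain 𝒪] [IsDiscreteValuationRing 𝒪]
  [Finite (IsLocalRing.ResidueField 𝒪)]
  {R T : Type*} [CommRing R] [Algebra 𝒪 R] [CommRing T] [Algebra 𝒪 T]
  [Module.Finite 𝒪 T] [Module.Free 𝒪 T] {n : ℕ}

theorem kapProp (k : Type*) [Field k] (n : ℕ) :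
    H90.KapProp (MvPowerSeries (Fin n) k) (IsLocalRing.maximalIdeal _) :=
  fun xs ys hlen hx hy hxr hyr => H8.kaplansky_socle_equiv _ xs ys hlen hx hy hxr hyr

theorem dimProp (k : Type*) [Field k] (n : ℕ) : H90.DimProp k n :=
  fun ys hlen hmem hreg => H85.exists_X_pow_mem_ofList n ys hlen hmem hreg

theorem regProp (k : Type*) [Field k] (n : ℕ) : H90.RegProp k n :=
  H90.regProp_of (kapProp k n)

theorem coreProp (k : Type*) [Field k] (n : ℕ) : H90.CoreProp k n :=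
  H90.coreProp_of (kapProp k n) (dimProp k n)

/-- **NC1**, the numerical criterion of Wiles and Lenstra. -/
theorem nc1 (ψ : MvPowerSeries (Fin n) 𝒪 →ₐ[𝒪] R) (hψ : Function.Surjective ψ)
    (φ : R →ₐ[𝒪] T) (hφ : Function.Surjective φ) (π : T →ₐ[𝒪] 𝒪)
    (hπ : ∀ i, π (φ (ψ (X i))) = 0)
    [Finite (RingHom.ker (π.comp φ)).Cotangent]
    (hcard : Nat.card (RingHom.ker (π.comp φ)).Cotangent ≤ Nat.card (𝒪 ⧸ eta π)) :
    Function.Bijective φ ∧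
      (∃ g : Fin n → MvPowerSeries (Fin n) 𝒪,
        RingHom.ker (φ.comp ψ) = Ideal.span (Set.range g)) ∧
      Nat.card (RingHom.ker π).Cotangent = Nat.card (𝒪 ⧸ eta π) ∧
      Nat.card (RingHom.ker (π.comp φ)).Cotangent = Nat.card (𝒪 ⧸ eta π) :=
  H90.nc1_of (regProp _ n) (coreProp _ n) ψ hψ φ hφ π hπ hcard

/-- **NC1** for an arbitrary presentation, `𝒪` complete. -/
theorem nc1_complete [IsAdicComplete (IsLocalRing.maximalIdeal 𝒪) 𝒪]
    (γ : MvPowerSeries (Fin n) 𝒪 →ₐ[𝒪] R) (hγ : Function.Surjective γ)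
    (φ : R →ₐ[𝒪] T) (hφ : Function.Surjective φ) (π : T →ₐ[𝒪] 𝒪)
    [Finite (RingHom.ker (π.comp φ)).Cotangent]
    (hcard : Nat.card (RingHom.ker (π.comp φ)).Cotangent ≤ Nat.card (𝒪 ⧸ eta π)) :
    Function.Bijective φ ∧
      (∃ g : Fin n → MvPowerSeries (Fin n) 𝒪,
        RingHom.ker (φ.comp γ) = Ideal.span (Set.range g)) ∧
      Nat.card (RingHom.ker π).Cotangent = Nat.card (𝒪 ⧸ eta π) ∧
      Nat.card (RingHom.ker (π.comp φ)).Cotangent = Nat.card (𝒪 ⧸ eta π) := by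
  obtain ⟨τ, hτ⟩ := H90.exists_normalized γ (π.comp φ)
  obtain ⟨h1, ⟨g, hg⟩, h3⟩ :=
    nc1 (γ.comp (τ : MvPowerSeries (Fin n) 𝒪 →ₐ[𝒪] MvPowerSeries (Fin n) 𝒪))
      (hγ.comp τ.surjective) φ hφ π hτ hcard
  refine ⟨h1, ⟨fun i => τ (g i), ?_⟩, h3⟩
  have h4 := H90.ker_comp_algEquiv
    (φ.comp (γ.comp (τ : MvPowerSeries (Fin n) 𝒪 →ₐ[𝒪] MvPowerSeries (Fin n) 𝒪))) τ.symm g hg
  have h5 : (φ.comp (γ.comp (τ : MvPowerSeries (Fin n) 𝒪 →ₐ[𝒪] MvPowerSeries (Fin n) 𝒪))).comp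
      (τ.symm : MvPowerSeries (Fin n) 𝒪 →ₐ[𝒪] MvPowerSeries (Fin n) 𝒪) = φ.comp γ := by
    ext f
    simp
  rw [h5] at h4
  rw [h4]
  rfl

end

section ineq

variable {𝒪 : Type*} [CommRing 𝒪] [IsDomain 𝒪] [IsDiscreteValuationRing 𝒪]
  [Finite (IsLocalRing.ResidueField 𝒪)]
  {T : Type*} [CommRing T] [Algebra 𝒪 T] {n : ℕ}

/-- the general inequality `#(𝒪/η_T) ≤ #Φ_T` (Fitting ideal of `Φ_T` is contained in `η_T`). -/
theorem card_eta_le_card_cotangent (ψ : MvPowerSeries (Fin n) 𝒪 →ₐ[𝒪] T)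
    (hψ : Function.Surjective ψ) (π : T →ₐ[𝒪] 𝒪) (hπ : ∀ i, π (ψ (X i)) = 0)
    [Finite (RingHom.ker π).Cotangent] :
    Finite (𝒪 ⧸ eta π) ∧ Nat.card (𝒪 ⧸ eta π) ≤ Nat.card (RingHom.ker π).Cotangent := by
  classical
  obtain ⟨eT⟩ := H90.cotangent_linearEquiv n ψ hψ π hπ
  have hfinT : Finite ((Fin n → 𝒪) ⧸ H90.relLattice ψ) := Finite.of_equiv _ eT.toEquiv
  obtain ⟨b, hbN, hbspan, hbdet, hbcard⟩ := H8.card_quotient_eq_card_det n (H90.relLattice ψ)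
  have hc : ∀ i, ∃ f ∈ RingHom.ker ψ, linPart n 𝒪 f = b i := fun i =>
    H90.exists_mem_ker_linPart_eq _ (hbN i)
  choose c hcker hclin using hc
  have hdeteq : (Matrix.of fun i => linPart n 𝒪 (c i)) = Matrix.of b := by
    ext i j
    rw [Matrix.of_apply, Matrix.of_apply, hclin]
  have hmem : (Matrix.of b).det ∈ eta π := by
    rw [← hdeteq]
    exact H90.det_linPart_mem_eta hψ hπ c hcker
  have hspanle : Ideal.span {(Matrix.of b).det} ≤ eta π := by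
    rw [Ideal.span_le, Set.singleton_subset_iff]
    exact hmem
  have hpos : 0 < Nat.card ((Fin n → 𝒪) ⧸ H90.relLattice ψ) := Nat.card_pos
  have hfindet : Finite (𝒪 ⧸ Ideal.span {(Matrix.of b).det}) := by
    apply Nat.finite_of_card_ne_zero
    rw [← hbcard]
    exact hpos.ne'
  obtain ⟨hfinη, hcardη⟩ := H90.card_quotient_le_of_le (𝒪 := 𝒪) (M := 𝒪) hspanle
  refine ⟨hfinη, ?_⟩
  rw [Nat.card_congr eT.toEquiv, hbcard]
  exact hcardη

end ineq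

end Fermat.Agent.S59.NumCrit
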